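import Fermat.Agent.BiquadratesSixteen.SingularSix

/-!
# Six fourth powers on the major arcs

For `256 P⁴ ≤ n ≤ 512 P⁴`, `n/2 ≤ m ≤ n` and `m ≡ 1, …, 6` modulo `16`: four sums up to `n ^ (1/4)`
and two over `(P, 2 P]` give `≫ M P²` on the arcs `q (1 + L⁴ |β|) ≤ √L`, `L = ⌊n ^ (1/4)⌋`.
-/

set_option autoImplicit false

noncomputable section

namespace FA.BiquadratesSixteen

open Finset Filter Topology FA.ThreePrimes FA.WaringAsymptotic
open scoped Real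

/-- The sum over `(P, 2 P]`. -/
def shortSum (P : ℕ) (x : ℝ) : ℂ := waringSum 4 (2 * P) x - waringSum 4 P x

/-- Its main term. -/
def shortWeight (P : ℕ) (x : ℝ) : ℂ :=
  weightSum (1 / 4) (16 * P ^ 4) x - weightSum (1 / 4) (P ^ 4) x

/-- The centres of the arcs. -/
def sixCentres (L : ℕ) : Finset (Σ _ : ℕ, ℕ) := arcCentres ⌊√(L : ℝ)⌋₊

/-- The half width of an arc. -/
def sixWidth (L q : ℕ) : ℝ := √(L : ℝ) / ((q : ℝ) * (L : ℝ) ^ 4)

/-- The major arcs of six variables. -/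
def majorSix (n P m : ℕ) : ℂ :=
  ∑ z ∈ sixCentres (rootFloor 4 n),
    ∑ h ∈ arc (16 * n) (sixWidth (rootFloor 4 n) z.1) z,
      waringSum 4 (rootFloor 4 n) ((h : ℝ) / (16 * n : ℕ)) ^ 4 *
          shortSum P ((h : ℝ) / (16 * n : ℕ)) ^ 2 *
        eAdd (-((m : ℝ) * ((h : ℝ) / (16 * n : ℕ))))

theorem root_bounds {n P : ℕ} (hP : 1 ≤ P) (h1 : 256 * P ^ 4 ≤ n) (h2 : n ≤ 512 * P ^ 4) :
    4 * P ≤ rootFloor 4 n ∧ rootFloor 4 n ≤ 5 * P ∧ rootFloor 4 n ^ 4 ≤ n ∧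
      n ≤ 16 * rootFloor 4 n ^ 4 := by
  have hP4 : 1 ≤ P ^ 4 := Nat.one_le_pow _ _ hP
  obtain ⟨hL1, hLn, hnL⟩ := rootFloor_spec (k := 4) (N := n) (by norm_num) (by omega)
  obtain ⟨L, hL⟩ : ∃ L, L = rootFloor 4 n := ⟨_, rfl⟩
  rw [← hL] at hL1 hLn hnL ⊢
  refine ⟨?_, ?_, hLn, ?_⟩
  · by_contra h
    have := Nat.pow_le_pow_left (show L + 1 ≤ 4 * P by omega) 4
    rw [mul_pow] at this
    norm_num at this
    omega
  · by_contra h
    have := Nat.pow_le_pow_left (show 5 * P ≤ L by omega) 4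
    rw [mul_pow] at this
    norm_num at this
    omega
  · have := Nat.pow_le_pow_left (show L + 1 ≤ 2 * L by omega) 4
    rw [mul_pow] at this
    norm_num at this
    omega

theorem waringSum_add_int (k P : ℕ) (x : ℝ) (j : ℤ) :
    waringSum k P (x + j) = waringSum k P x := by
  refine sum_congr rfl fun n _ => ?_
  rw [← eAdd_add_intCast (x * (n : ℝ) ^ k) (j * (n : ℤ) ^ k)]
  push_cast
  ring_nf

theorem rootFloor_four (P : ℕ) (hP : 1 ≤ P) : rootFloor 4 (P ^ 4) = P := by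
  obtain ⟨-, h1, h2⟩ := rootFloor_spec (k := 4) (N := P ^ 4) (by norm_num) (Nat.one_le_pow _ _ hP)
  have := Nat.pow_le_pow_iff_left (n := 4) (by norm_num) |>.1 h1
  have := Nat.pow_lt_pow_iff_left (n := 4) (by norm_num) |>.1 h2
  omega

/-- **The approximations.** -/
theorem norm_six_approx_le {n P q : ℕ} (hP : 1 ≤ P) (h1 : 256 * P ^ 4 ≤ n) (h2 : n ≤ 512 * P ^ 4)
    (hq : 0 < q) (a : ℤ) {β : ℝ}
    (hβ : (q : ℝ) * (1 + (rootFloor 4 n : ℝ) ^ 4 * |β|) ≤ 2 * √(rootFloor 4 n : ℝ)) :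
    ‖waringSum 4 (rootFloor 4 n) ((a : ℝ) / q + β) -
        densityFactor 4 q a * weightSum (1 / 4) n β‖ ≤ 4096 * √(rootFloor 4 n : ℝ) ∧
      ‖shortSum P ((a : ℝ) / q + β) - densityFactor 4 q a * shortWeight P β‖ ≤
        4096 * √(rootFloor 4 n : ℝ) := by
  obtain ⟨hL4, hL5, hLn, hnL⟩ := root_bounds hP h1 h2
  obtain ⟨L, hL⟩ : ∃ L, L = rootFloor 4 n := ⟨_, rfl⟩
  rw [← hL] at hβ hL4 hL5 hLn hnL ⊢
  have hP4 : 1 ≤ P ^ 4 := Nat.one_le_pow _ _ hP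
  have key : ∀ N : ℕ, 1 ≤ N → N ≤ 16 * L ^ 4 →
      ‖waringSum 4 (rootFloor 4 N) ((a : ℝ) / q + β) -
        densityFactor 4 q a * weightSum (1 / 4) N β‖ ≤ 2048 * √(L : ℝ) := by
    intro N hN hNL
    have h := norm_waringSum_sub_le (k := 4) (show 1 ≤ 4 by norm_num) hN hq a β
    rw [Nat.cast_ofNat] at h
    refine h.trans ?_
    have hN' : (N : ℝ) ≤ 16 * (L : ℝ) ^ 4 := by exact_mod_cast hNL
    have h3 : 2 * π * |β| * N ≤ 128 * ((L : ℝ) ^ 4 * |β|) := by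
      calc 2 * π * |β| * N ≤ 2 * 4 * |β| * (16 * (L : ℝ) ^ 4) := by
            gcongr
            exact Real.pi_le_four
        _ = _ := by ring
    have h4 : 0 ≤ (L : ℝ) ^ 4 * |β| := by positivity
    have h5 := mul_le_mul_of_nonneg_left
      (show 1 + 2 * π * |β| * N ≤ 128 * (1 + (L : ℝ) ^ 4 * |β|) by linarith)
      (show (0 : ℝ) ≤ 8 * q by positivity)
    linarith
  have hs : 0 ≤ √(L : ℝ) := Real.sqrt_nonneg _
  refine ⟨?_, ?_⟩
  · have h := key n (by omega) hnL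
    rw [← hL] at h
    linarith
  · have hP' : P ^ 4 ≤ L ^ 4 := Nat.pow_le_pow_left (by omega) 4
    have g1 := key ((2 * P) ^ 4) (Nat.one_le_pow _ _ (by omega))
      (by rw [mul_pow]; norm_num; omega)
    have g2 := key (P ^ 4) hP4 (by omega)
    rw [rootFloor_four _ (by omega)] at g1 g2
    rw [show (2 * P) ^ 4 = 16 * P ^ 4 by ring] at g1
    rw [shortSum, shortWeight, mul_sub, sub_sub_sub_comm]
    exact (norm_sub_le _ _).trans (by linarith)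

/-- `min (L, ‖x‖ ^ (-1/4))`. -/
def sixBound (L : ℕ) (x : ℝ) : ℝ :=
  if nearDist x = 0 then (L : ℝ) else min (L : ℝ) (nearDist x ^ (-(1 / 4) : ℝ))

theorem sixBound_nonneg (L : ℕ) (x : ℝ) : 0 ≤ sixBound L x := by
  unfold sixBound
  have := nearDist_nonneg x
  split_ifs
  exacts [Nat.cast_nonneg L, le_min (Nat.cast_nonneg L) (by positivity)]

theorem sixBound_le (L : ℕ) (x : ℝ) : sixBound L x ≤ L := by
  unfold sixBound
  split_ifs
  exacts [le_rfl, min_le_left _ _]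

theorem sixBound_pow_four (L : ℕ) (x : ℝ) :
    sixBound L x ^ 4 = 2 * clip ((L : ℝ) ^ 4 / 2) x := by
  unfold sixBound clip
  split_ifs with h
  · ring
  have hd : 0 < nearDist x := lt_of_le_of_ne (nearDist_nonneg x) (Ne.symm h)
  have e : (nearDist x ^ (-(1 / 4) : ℝ)) ^ 4 = 2 * (1 / (2 * nearDist x)) := by
    rw [← Real.rpow_natCast, ← Real.rpow_mul hd.le]
    norm_num
    rw [Real.rpow_neg_one]
    field_simp
  rw [mul_min_of_nonneg _ _ two_pos.le, ← e, mul_div_cancel₀ _ two_ne_zero]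
  rcases le_total (L : ℝ) (nearDist x ^ (-(1 / 4) : ℝ)) with hle | hle
  · rw [min_eq_left hle, min_eq_left (pow_le_pow_left₀ (Nat.cast_nonneg L) hle 4)]
  · rw [min_eq_right hle, min_eq_right (pow_le_pow_left₀ (by positivity) hle 4)]

theorem norm_weights_le {n P : ℕ} (hP : 1 ≤ P) (h1 : 256 * P ^ 4 ≤ n) (h2 : n ≤ 512 * P ^ 4)
    (x : ℝ) : ‖weightSum (1 / 4) n x‖ ≤ 6 * sixBound (rootFloor 4 n) x ∧
      ‖shortWeight P x‖ ≤ 6 * sixBound (rootFloor 4 n) x := by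
  obtain ⟨hL4, hL5, hLn, hnL⟩ := root_bounds hP h1 h2
  obtain ⟨L, hL⟩ : ∃ L, L = rootFloor 4 n := ⟨_, rfl⟩
  rw [← hL] at hL4 hL5 hLn hnL ⊢
  have hroot : ∀ N X : ℕ, N ≤ X ^ 4 → (N : ℝ) ^ (1 / 4 : ℝ) ≤ X := fun N X h => by
    refine (Real.rpow_le_rpow (Nat.cast_nonneg N) (by exact_mod_cast h :
      (N : ℝ) ≤ (X : ℝ) ^ 4) (by norm_num)).trans (le_of_eq ?_)
    rw [← Real.rpow_natCast, ← Real.rpow_mul (Nat.cast_nonneg X)]
    norm_num
  have hb : ∀ (N X : ℕ), N ≤ X ^ 4 → ‖weightSum (1 / 4) N x‖ ≤ X := fun N X h =>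
    (norm_weightSum_le (by norm_num) (by norm_num) N x).trans (hroot N X h)
  have b0 := hb n (2 * L) (by rw [mul_pow]; norm_num; exact hnL)
  have b1 := hb (16 * P ^ 4) (2 * P) (le_of_eq (by ring))
  have b2 := hb (P ^ 4) P le_rfl
  have hLP : (4 : ℝ) * P ≤ L := by exact_mod_cast hL4
  push_cast at b0 b1
  have hPr : (0 : ℝ) ≤ P := Nat.cast_nonneg P
  have s0 : ‖shortWeight P x‖ ≤ 3 * P := (norm_sub_le _ _).trans (by linarith)
  rw [sixBound]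
  split_ifs with hd
  · constructor <;> linarith
  have hd' : 0 < nearDist x := lt_of_le_of_ne (nearDist_nonneg x) (Ne.symm hd)
  have hinv : ∀ N : ℕ, ‖weightSum (1 / 4) N x‖ ≤ 3 * nearDist x ^ (-(1 / 4) : ℝ) := fun N =>
    norm_weightSum_le_inv (by norm_num) (by norm_num) N hd'
  have hY : 0 ≤ nearDist x ^ (-(1 / 4) : ℝ) := by positivity
  constructor <;> rw [mul_min_of_nonneg _ _ (by norm_num), le_min_iff]
  · exact ⟨by linarith, (hinv n).trans (by linarith)⟩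
  · exact ⟨by linarith, (norm_sub_le _ _).trans (by linarith [hinv (16 * P ^ 4), hinv (P ^ 4)])⟩

theorem sum_sixBound_pow_five_le {L M : ℕ} [NeZero M] (hLM : L ^ 4 ≤ M) (c : ℝ) :
    ∑ h ∈ range M, sixBound L ((h : ℝ) / M - c) ^ 5 ≤ 9 * (L : ℝ) * M * (1 + Real.log M) := by
  refine (sum_le_sum (g := fun h : ℕ => (L : ℝ) * (2 * clip ((L : ℝ) ^ 4 / 2) ((h : ℝ) / M - c)))
    fun h _ => ?_).trans ?_
  · rw [pow_succ', ← sixBound_pow_four]
    exact mul_le_mul_of_nonneg_right (sixBound_le _ _) (pow_nonneg (sixBound_nonneg _ _) 4)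
  rw [← mul_sum, ← mul_sum]
  refine (mul_le_mul_of_nonneg_left (mul_le_mul_of_nonneg_left
    (sum_clip_grid_le c (by positivity)) two_pos.le) (Nat.cast_nonneg L)).trans ?_
  have hl : 0 ≤ Real.log M := Real.log_natCast_nonneg M
  have hLM' : (L : ℝ) ^ 4 ≤ M := by exact_mod_cast hLM
  have h1 := mul_le_mul_of_nonneg_left hLM' (show (0 : ℝ) ≤ 5 * L by positivity)
  have h2 : 0 ≤ (L : ℝ) * M * Real.log M := by positivity
  linarith

/-- The six factors off one arc. -/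
theorem sum_sixBound_off_le {L M q : ℕ} [NeZero M] (hL : 1 ≤ L) (hLM : L ^ 4 ≤ M) (hq : 1 ≤ q)
    (hqL : (q : ℝ) ≤ √(L : ℝ)) (z : Σ _ : ℕ, ℕ) :
    ∑ h ∈ range M \ arc M (sixWidth L q) z, sixBound L ((h : ℝ) / M - centre z) ^ 6 ≤
      9 * (L : ℝ) ^ 2 * M * (1 + Real.log M) * ((q : ℝ) / √(L : ℝ)) ^ (1 / 10 : ℝ) := by
  obtain ⟨δ, hδ⟩ : ∃ δ, δ = sixWidth L q := ⟨_, rfl⟩
  rw [← hδ]
  have hL0 : (0 : ℝ) < L := Nat.cast_pos.2 hL
  have hq0 : (0 : ℝ) < q := Nat.cast_pos.2 hq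
  have hs : 0 < √(L : ℝ) := Real.sqrt_pos.2 hL0
  have hδ0 : 0 < δ := by rw [hδ, sixWidth]; positivity
  refine (sum_le_sum (g := fun h : ℕ => δ ^ (-(1 / 2) : ℝ) *
    (2 * clip (1 / (2 * δ)) ((h : ℝ) / M - centre z))) fun h hh => ?_).trans ?_
  · obtain ⟨hmem, hnot⟩ := Finset.mem_sdiff.1 hh
    obtain ⟨d, hd⟩ : ∃ d, d = nearDist ((h : ℝ) / M - centre z) := ⟨_, rfl⟩
    have hdδ : δ < d := not_le.1 fun hle => hnot (mem_filter.2 ⟨hmem, hd ▸ hle⟩)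
    have hd0 : 0 < d := hδ0.trans hdδ
    have hclip : 2 * clip (1 / (2 * δ)) ((h : ℝ) / M - centre z) = d⁻¹ := by
      rw [clip, ← hd, if_neg hd0.ne', min_eq_right
        (one_div_le_one_div_of_le (by positivity) (by linarith))]
      field_simp
    rw [hclip]
    refine (pow_le_pow_left₀ (sixBound_nonneg _ _) (show _ ≤ d ^ (-(1 / 4) : ℝ) by
      rw [sixBound, ← hd, if_neg hd0.ne']; exact min_le_right _ _) 6).trans ?_
    rw [← Real.rpow_natCast, ← Real.rpow_mul hd0.le,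
      show (-(1 / 4) : ℝ) * ((6 : ℕ) : ℝ) = -(1 / 2) + -1 by norm_num, Real.rpow_add hd0,
      Real.rpow_neg_one]
    exact mul_le_mul_of_nonneg_right (Real.rpow_le_rpow_of_nonpos hδ0 hdδ.le (by norm_num))
      (by positivity)
  rw [← mul_sum, ← mul_sum]
  refine (mul_le_mul_of_nonneg_left (mul_le_mul_of_nonneg_left
    ((sum_le_sum_of_subset_of_nonneg sdiff_subset fun i _ _ => clip_nonneg (by positivity) _).trans
      (sum_clip_grid_le (centre z) (by positivity))) two_pos.le) (by positivity)).trans ?_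
  have hl : 0 ≤ Real.log M := Real.log_natCast_nonneg M
  have hx : (q : ℝ) / √(L : ℝ) ≤ 1 := div_le_one_of_le₀ hqL hs.le
  have hLM' : (L : ℝ) ^ 4 ≤ M := by exact_mod_cast hLM
  have e : δ⁻¹ = (L : ℝ) ^ 4 * ((q : ℝ) / √(L : ℝ)) := by
    rw [hδ, sixWidth, inv_div]; ring
  have h1 : 1 / (2 * δ) ≤ (M : ℝ) / 2 := by
    rw [show 1 / (2 * δ) = δ⁻¹ / 2 by field_simp, e]
    exact div_le_div_of_nonneg_right ((mul_le_of_le_one_right (by positivity) hx).trans hLM')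
      two_pos.le
  have h2 : δ ^ (-(1 / 2) : ℝ) ≤ (L : ℝ) ^ 2 * ((q : ℝ) / √(L : ℝ)) ^ (1 / 10 : ℝ) := by
    rw [Real.rpow_neg hδ0.le, ← Real.inv_rpow hδ0.le, e,
      Real.mul_rpow (by positivity) (by positivity)]
    refine mul_le_mul (le_of_eq ?_) (Real.rpow_le_rpow_of_exponent_ge (by positivity) hx
      (by norm_num)) (by positivity) (by positivity)
    rw [← Real.rpow_natCast, ← Real.rpow_mul hL0.le, ← Real.rpow_natCast]
    norm_num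
  have h3 : 2 * (5 * (1 / (2 * δ)) + 2 * (M : ℝ) * (1 + Real.log M)) ≤
      9 * (M : ℝ) * (1 + Real.log M) := by
    have : 0 ≤ (M : ℝ) * Real.log M := by positivity
    linarith
  refine (mul_le_mul h2 h3 (by positivity) (by positivity)).trans (le_of_eq ?_)
  ring

/-- The tuples of the singular integral. -/
def sixRange (n P : ℕ) (i : Fin 6) : Finset ℕ :=
  if (i : ℕ) < 4 then Ioc 0 n else Ioc (P ^ 4) (16 * P ^ 4)

/-- The singular integral, exactly. -/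
def sixIntegral (n P m : ℕ) : ℝ :=
  ∑ z ∈ (Fintype.piFinset (sixRange n P)).filter (fun z => ∑ i, z i = m),
    ∏ i, weight (1 / 4) (z i)

theorem shortWeight_eq (P : ℕ) (x : ℝ) : shortWeight P x =
    ∑ i ∈ Ioc (P ^ 4) (16 * P ^ 4), (weight (1 / 4) i : ℂ) * eAdd (i * x) := by
  rw [shortWeight, weightSum, weightSum, ← sum_Ioc_consecutive _ (Nat.zero_le (P ^ 4))
    (Nat.le_mul_of_pos_left (P ^ 4) (show 0 < 16 by norm_num)), add_sub_cancel_left]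

theorem sum_grid_six {n P m : ℕ} (hn : 1 ≤ n) (h1 : 256 * P ^ 4 ≤ n) (hmn : m ≤ n) (θ : ℝ) :
    ∑ h ∈ range (16 * n), weightSum (1 / 4) n ((h : ℝ) / (16 * n : ℕ) + θ) ^ 4 *
        shortWeight P ((h : ℝ) / (16 * n : ℕ) + θ) ^ 2 *
        eAdd (-((m : ℝ) * ((h : ℝ) / (16 * n : ℕ) + θ))) =
      ((16 * n : ℕ) : ℂ) * sixIntegral n P m := by
  obtain ⟨M, hM⟩ : ∃ M, M = 16 * n := ⟨_, rfl⟩
  rw [← hM]
  have hexp : ∀ x : ℝ, weightSum (1 / 4) n x ^ 4 * shortWeight P x ^ 2 =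
      ∑ z ∈ Fintype.piFinset (sixRange n P),
        ((∏ i, weight (1 / 4) (z i) : ℝ) : ℂ) * eAdd (((∑ i, z i : ℕ) : ℝ) * x) := fun x => by
    have e : weightSum (1 / 4) n x ^ 4 * shortWeight P x ^ 2 =
        ∏ i : Fin 6, ∑ j ∈ sixRange n P i, (weight (1 / 4) j : ℂ) * eAdd (j * x) := by
      rw [Fin.prod_univ_six, shortWeight_eq, weightSum]
      simp only [sixRange, Fin.val_zero, Fin.val_one, Fin.val_two,
        show ((3 : Fin 6) : ℕ) = 3 from rfl,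
        show ((4 : Fin 6) : ℕ) = 4 from rfl, show ((5 : Fin 6) : ℕ) = 5 from rfl]
      norm_num
      ring
    rw [e, prod_univ_sum]
    refine sum_congr rfl fun z _ => ?_
    rw [prod_mul_distrib, ← Complex.ofReal_prod]
    congr 1
    simp only [Fin.prod_univ_six, Fin.sum_univ_six, ← eAdd_add]
    push_cast
    ring_nf
  rw [sum_congr rfl fun h _ => by rw [hexp, sum_mul], sum_comm, sixIntegral, Complex.ofReal_sum,
    mul_sum, sum_filter]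
  refine sum_congr rfl fun z hz => ?_
  rw [Fintype.mem_piFinset] at hz
  have hS : ∑ i, z i < m + M := by
    have hb : ∀ i, z i ≤ n := fun i => by
      have := hz i
      simp only [sixRange] at this
      split_ifs at this <;> rw [mem_Ioc] at this <;> omega
    have : ∑ i, z i ≤ (univ : Finset (Fin 6)).card • n := sum_le_card_nsmul univ _ n fun i _ => hb i
    simp only [card_univ, Fintype.card_fin, smul_eq_mul] at this
    omega
  obtain ⟨S, hSd⟩ : ∃ S, S = ∑ i, z i := ⟨_, rfl⟩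
  rw [← hSd] at hS ⊢
  have e : ∀ h : ℕ, eAdd ((S : ℝ) * ((h : ℝ) / M + θ)) * eAdd (-((m : ℝ) * ((h : ℝ) / M + θ))) =
      eAdd (((S : ℝ) - m) * θ) * eAdd ((((S : ℤ) - m : ℤ) : ℝ) * h / M) := fun h => by
    rw [← eAdd_add, ← eAdd_add]
    push_cast
    ring_nf
  simp only [mul_assoc, e, ← mul_sum, sum_eAdd_grid (show 0 < M by omega)]
  by_cases hSm : S = m
  · simp [hSm, mul_comm]
  · have hnd : ¬((M : ℤ) ∣ (S : ℤ) - m) := fun hdvd => hSm <| by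
      have := Int.eq_zero_of_dvd_of_natAbs_lt_natAbs hdvd (by omega)
      omega
    rw [if_neg hnd, if_neg hSm]
    simp

/-- **The singular integral is large.** -/
theorem exists_sixIntegral_ge : ∃ c : ℝ, 0 < c ∧ ∀ n P m : ℕ, 2 ≤ P → 256 * P ^ 4 ≤ n →
    n ≤ 512 * P ^ 4 → n ≤ 2 * m → m ≤ n → c * (P : ℝ) ^ 2 ≤ sixIntegral n P m := by
  refine ⟨(1 / (30 * 512)) ^ 6, by positivity, fun n P m hP h1 h2 hm1 hm2 => ?_⟩
  have hP0 : (0 : ℝ) < P := Nat.cast_pos.2 (by omega)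
  have hP4 : 16 ≤ P ^ 4 := (show 16 = 2 ^ 4 by norm_num) ▸ Nat.pow_le_pow_left hP 4
  have hn0 : (0 : ℝ) < n := Nat.cast_pos.2 (by omega)
  -- the weights are at least `n ^ (-3/4) / 30`
  obtain ⟨ω, hω⟩ : ∃ ω : ℝ, ω = 1 / (30 * 512) * ((P : ℝ) ^ 3)⁻¹ := ⟨_, rfl⟩
  have hω0 : 0 ≤ ω := hω ▸ by positivity
  have hw : ω ≤ weight (1 / 4) n := by
    have hge := (abs_sum_weight_sub_le (c := 1 / 4) (by norm_num) (by norm_num) (16 * n)).1
    have hle := (abs_sum_weight_sub_le (c := 1 / 4) (by norm_num) (by norm_num) n).2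
    rw [← sum_Ioc_consecutive _ (Nat.zero_le n) (Nat.le_mul_of_pos_left n (show 0 < 16 by
      norm_num))] at hge
    have hsum : ∑ i ∈ Ioc n (16 * n), weight (1 / 4) i ≤ 15 * (n : ℝ) * weight (1 / 4) n := by
      refine (sum_le_card_nsmul _ _ (weight (1 / 4) n) fun i hi => weight_antitone (by norm_num)
        (by norm_num) (mem_Ioc.1 hi).1.le).trans (le_of_eq ?_)
      rw [Nat.card_Ioc, nsmul_eq_mul, show 16 * n - n = 15 * n by omega]
      push_cast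
      rfl
    have h16 : ((16 * n : ℕ) : ℝ) ^ (1 / 4 : ℝ) = 2 * (n : ℝ) ^ (1 / 4 : ℝ) := by
      rw [Nat.cast_mul, Real.mul_rpow (by norm_num) hn0.le,
        show ((16 : ℕ) : ℝ) = (2 : ℝ) ^ (4 : ℝ) by norm_num, ← Real.rpow_mul two_pos.le]
      norm_num
    rw [h16] at hge
    have hroot : 2 * (P : ℝ) ≤ (n : ℝ) ^ (1 / 4 : ℝ) := by
      refine le_trans (le_of_eq ?_) (Real.rpow_le_rpow (by positivity)
        (show ((2 * P : ℕ) : ℝ) ^ (4 : ℕ) ≤ n by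
          exact_mod_cast (show (2 * P) ^ 4 ≤ n by rw [mul_pow]; norm_num; omega)) (by norm_num))
      rw [← Real.rpow_natCast, ← Real.rpow_mul (by positivity)]
      norm_num
    have hn' : (n : ℝ) ≤ 512 * (P : ℝ) ^ 4 := by exact_mod_cast h2
    have hP2 : (2 : ℝ) ≤ P := by exact_mod_cast hP
    have h3 : (P : ℝ) ≤ 15 * (n : ℝ) * weight (1 / 4) n := by linarith
    have h4 := h3.trans (mul_le_mul_of_nonneg_right (mul_le_mul_of_nonneg_left hn'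
      (by norm_num : (0 : ℝ) ≤ 15)) (weight_nonneg (by norm_num) n))
    rw [hω, ← div_eq_mul_inv, div_le_iff₀ (by positivity)]
    have h5 : 0 ≤ weight (1 / 4) n * (P : ℝ) ^ 3 :=
      mul_nonneg (weight_nonneg (by norm_num) n) (by positivity)
    have h6 : (P : ℝ) * 1 ≤ P * (15 * 512 * (weight (1 / 4) n * (P : ℝ) ^ 3)) := by linarith
    have h7 := le_of_mul_le_mul_left h6 hP0
    linarith
  obtain ⟨A, hA⟩ : ∃ A : Finset (Fin 5 → ℕ), A = Fintype.piFinset fun i : Fin 5 =>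
      if (i : ℕ) < 3 then Ioc 0 (P ^ 4) else Ioc (P ^ 4) (2 * P ^ 4) := ⟨_, rfl⟩
  have hAc : A.card = P ^ 20 := by
    rw [hA, Fintype.card_piFinset, Fin.prod_univ_five]
    simp only [Fin.val_zero, Fin.val_one, Fin.val_two, show ((3 : Fin 5) : ℕ) = 3 from rfl,
      show ((4 : Fin 5) : ℕ) = 4 from rfl]
    norm_num [Nat.card_Ioc, show 2 * P ^ 4 - P ^ 4 = P ^ 4 by omega]
    ring
  have hcount : A.card ≤
      ((Fintype.piFinset (sixRange n P)).filter fun z => ∑ i, z i = m).card := by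
    refine card_le_card_of_injOn
      (fun y => ![y 0, y 1, y 2, m - ∑ i, y i, y 3, y 4]) (fun y hy => ?_) fun y _ y' _ h => ?_
    · rw [mem_coe, hA, Fintype.mem_piFinset] at hy
      have g0 := hy 0
      have g1 := hy 1
      have g2 := hy 2
      have g3 := hy 3
      have g4 := hy 4
      norm_num [mem_Ioc] at g0 g1 g2 g3 g4
      rw [mem_coe, mem_filter, Fintype.mem_piFinset]
      refine ⟨fun i => ?_, ?_⟩
      · fin_cases i <;> simp [sixRange, mem_Ioc, Fin.sum_univ_five] <;> omega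
      · simp [Fin.sum_univ_six, Fin.sum_univ_five]
        omega
    · have f : ∀ i : Fin 6, (![y 0, y 1, y 2, m - ∑ i, y i, y 3, y 4] : Fin 6 → ℕ) i =
        (![y' 0, y' 1, y' 2, m - ∑ i, y' i, y' 3, y' 4] : Fin 6 → ℕ) i := congrFun h
      have f0 := f 0
      have f1 := f 1
      have f2 := f 2
      have f4 := f 4
      have f5 := f 5
      simp at f0 f1 f2 f4 f5
      funext i
      fin_cases i <;> assumption
  refine le_trans (le_trans (le_of_eq ?_) (mul_le_mul_of_nonneg_right (Nat.cast_le.2 hcount)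
    (pow_nonneg hω0 6))) (le_trans (le_of_eq (nsmul_eq_mul _ _).symm)
    (card_nsmul_le_sum _ _ _ fun z hz => ?_))
  · rw [hAc, hω, mul_pow, inv_pow, Nat.cast_pow, ← pow_mul]
    field_simp
  · have hb : ∀ i, z i ≤ n := fun i => by
      have := Fintype.mem_piFinset.1 (mem_filter.1 hz).1 i
      simp only [sixRange] at this
      split_ifs at this <;> rw [mem_Ioc] at this <;> omega
    calc ω ^ 6 = ∏ _i : Fin 6, ω := by simp
      _ ≤ _ := prod_le_prod (fun _ _ => hω0) fun i _ =>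
          hw.trans (weight_antitone (by norm_num) (by norm_num) (hb i))

theorem norm_four_two_sub_le {x y x' y' : ℂ} {B E : ℝ} (hx : ‖x - x'‖ ≤ E) (hy : ‖y - y'‖ ≤ E)
    (hx' : ‖x'‖ ≤ B) (hy' : ‖y'‖ ≤ B) :
    ‖x ^ 4 * y ^ 2 - x' ^ 4 * y' ^ 2‖ ≤ 192 * (E * B ^ 5 + E ^ 6) := by
  have hB : 0 ≤ B := (norm_nonneg _).trans hx'
  have hE : 0 ≤ E := (norm_nonneg _).trans hx
  obtain ⟨R, hR⟩ : ∃ R, R = B + E := ⟨_, rfl⟩
  have hR0 : 0 ≤ R := by linarith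
  have hxR : ‖x‖ ≤ R := by
    have := norm_le_norm_add_norm_sub' x x'
    linarith
  have hyR : ‖y‖ ≤ R := by
    have := norm_le_norm_add_norm_sub' y y'
    linarith
  have h4 := norm_pow_sub_pow_le hxR (hx'.trans (by linarith : B ≤ R)) 3
  have h2 := norm_pow_sub_pow_le hyR (hy'.trans (by linarith : B ≤ R)) 1
  have hRp : R ^ 5 ≤ 32 * (B ^ 5 + E ^ 5) := by
    rcases le_total B E with h | h
    · refine (pow_le_pow_left₀ hR0 (show R ≤ 2 * E by linarith) 5).trans ?_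
      rw [mul_pow]
      have := pow_nonneg hB 5
      linarith
    · refine (pow_le_pow_left₀ hR0 (show R ≤ 2 * B by linarith) 5).trans ?_
      rw [mul_pow]
      have := pow_nonneg hE 5
      linarith
  rw [show x ^ 4 * y ^ 2 - x' ^ 4 * y' ^ 2 =
    (x ^ 4 - x' ^ 4) * y ^ 2 + x' ^ 4 * (y ^ 2 - y' ^ 2) by ring]
  refine (norm_add_le _ _).trans ?_
  rw [norm_mul, norm_mul, norm_pow y, norm_pow x']
  norm_num at h4 h2
  have g1 : ‖x ^ 4 - x' ^ 4‖ * ‖y‖ ^ 2 ≤ 4 * R ^ 3 * E * R ^ 2 :=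
    mul_le_mul (h4.trans (mul_le_mul_of_nonneg_left hx (by positivity)))
      (pow_le_pow_left₀ (norm_nonneg _) hyR 2) (by positivity) (by positivity)
  have g2 : ‖x'‖ ^ 4 * ‖y ^ 2 - y' ^ 2‖ ≤ R ^ 4 * (2 * R * E) :=
    mul_le_mul (pow_le_pow_left₀ (norm_nonneg _) (hx'.trans (by linarith)) 4)
      (h2.trans (mul_le_mul_of_nonneg_left hy (by positivity))) (norm_nonneg _) (by positivity)
  have g3 := mul_le_mul_of_nonneg_left hRp (show 0 ≤ 6 * E by linarith)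
  linarith

theorem sum_rpow_neg_quarter_le {L : ℕ} (hL : 1 ≤ L) :
    ∑ q ∈ Icc 1 ⌊√(L : ℝ)⌋₊, (q : ℝ) ^ (-(1 / 4) : ℝ) ≤ 2 * (L : ℝ) ^ (7 / 16 : ℝ) := by
  have hL1 : (1 : ℝ) ≤ L := by exact_mod_cast hL
  have hL0 : (0 : ℝ) < L := by linarith
  obtain ⟨Q, hQ⟩ : ∃ Q, Q = ⌊√(L : ℝ)⌋₊ := ⟨_, rfl⟩
  have hQle : (Q : ℝ) ≤ (L : ℝ) ^ (1 / 2 : ℝ) := by
    rw [hQ, ← Real.sqrt_eq_rpow]; exact Nat.floor_le (Real.sqrt_nonneg _)
  obtain ⟨K, hK⟩ : ∃ K, K = ⌊(L : ℝ) ^ (1 / 4 : ℝ)⌋₊ := ⟨_, rfl⟩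
  rw [← hQ, ← sum_filter_add_sum_filter_not (Icc 1 Q) (fun q => q ≤ K), two_mul]
  refine add_le_add ((sum_le_card_nsmul _ _ 1 fun q hq => ?_).trans ?_)
    ((sum_le_card_nsmul _ _ ((L : ℝ) ^ (-(1 / 16) : ℝ)) fun q hq => ?_).trans ?_)
  · exact Real.rpow_le_one_of_one_le_of_nonpos
      (by exact_mod_cast (mem_Icc.1 (mem_filter.1 hq).1).1) (by norm_num)
  · rw [nsmul_eq_mul, mul_one]
    refine ((Nat.cast_le.2 (card_le_card (t := Icc 1 K) fun q hq => ?_)).trans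
      (show ((Icc 1 K).card : ℝ) ≤ (L : ℝ) ^ (1 / 4 : ℝ) by
        rw [Nat.card_Icc, Nat.add_sub_cancel, hK]; exact Nat.floor_le (by positivity))).trans
      (Real.rpow_le_rpow_of_exponent_le hL1 (by norm_num))
    rw [mem_filter, mem_Icc] at hq
    exact mem_Icc.2 ⟨hq.1.1, hq.2⟩
  · rw [mem_filter, not_le] at hq
    have h1 : (L : ℝ) ^ (1 / 4 : ℝ) ≤ q := (Nat.lt_floor_add_one _).le.trans
      (by rw [← hK]; exact_mod_cast hq.2)
    refine (Real.rpow_le_rpow_of_nonpos (by positivity) h1 (by norm_num)).trans (le_of_eq ?_)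
    rw [← Real.rpow_mul hL0.le]
    norm_num
  · rw [nsmul_eq_mul]
    refine (mul_le_mul_of_nonneg_right ((Nat.cast_le.2 ((card_filter_le _ _).trans
      (le_of_eq (by rw [Nat.card_Icc, Nat.add_sub_cancel])))).trans hQle) (by positivity)).trans
      (le_of_eq ?_)
    rw [← Real.rpow_add hL0]
    norm_num

theorem sum_sixTerm_sqrt_le {L : ℕ} (hL : 1 ≤ L) :
    ∑ q ∈ Icc 1 ⌊√(L : ℝ)⌋₊, sixTerm q * ((q : ℝ) / √(L : ℝ)) ^ (1 / 10 : ℝ) ≤
      sixTotal * (L : ℝ) ^ (-(1 / 20) : ℝ) := by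
  have hL0 : (0 : ℝ) < L := Nat.cast_pos.2 hL
  have e : ∀ q : ℕ, sixTerm q * ((q : ℝ) / √(L : ℝ)) ^ (1 / 10 : ℝ) =
      sixWeight q * (L : ℝ) ^ (-(1 / 20) : ℝ) := fun q => by
    rw [sixWeight, Real.div_rpow (Nat.cast_nonneg q) (Real.sqrt_nonneg _), Real.sqrt_eq_rpow,
      ← Real.rpow_mul hL0.le, show (1 / 2 : ℝ) * (1 / 10) = 1 / 20 by norm_num,
      Real.rpow_neg hL0.le]
    ring
  simp only [e, ← sum_mul]
  exact mul_le_mul_of_nonneg_right (sum_sixWeight_le _) (by positivity)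

/-- The coefficient of an arc. -/
def sixCoef (m : ℕ) (z : Σ _ : ℕ, ℕ) : ℂ :=
  densityFactor 4 z.1 z.2 ^ 6 * eAdd (-((m : ℝ) * centre z))

/-- The main summand. -/
def sixMain (n P m : ℕ) (x : ℝ) : ℂ :=
  weightSum (1 / 4) n x ^ 4 * shortWeight P x ^ 2 * eAdd (-((m : ℝ) * x))

theorem sum_sixCoef (m Q : ℕ) : ∑ z ∈ arcCentres Q, sixCoef m z =
    ∑ q ∈ Icc 1 Q, WaringAsymptotic.singularTerm 4 6 m q := by
  rw [arcCentres, sum_sigma]
  refine sum_congr rfl fun q _ => sum_congr rfl fun r _ => ?_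
  simp only [sixCoef, centre]
  ring_nf

/-- **One arc.** -/
theorem exists_arc_six : ∃ C : ℝ, 0 < C ∧ ∀ n P m : ℕ, 1 ≤ P → 256 * P ^ 4 ≤ n → n ≤ 512 * P ^ 4 →
    ∀ z ∈ sixCentres (rootFloor 4 n),
      ‖∑ h ∈ arc (16 * n) (sixWidth (rootFloor 4 n) z.1) z,
          waringSum 4 (rootFloor 4 n) ((h : ℝ) / (16 * n : ℕ)) ^ 4 *
              shortSum P ((h : ℝ) / (16 * n : ℕ)) ^ 2 *
            eAdd (-((m : ℝ) * ((h : ℝ) / (16 * n : ℕ)))) -
        sixCoef m z * ∑ h ∈ range (16 * n), sixMain n P m ((h : ℝ) / (16 * n : ℕ) + -centre z)‖ ≤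
      C * ((16 * n : ℕ) : ℝ) * (1 + Real.log (16 * n : ℕ)) *
        (√(rootFloor 4 n : ℝ) * (rootFloor 4 n : ℝ) * ((z.1 : ℝ) ^ (-(1 / 4) : ℝ)) ^ 5 +
          (rootFloor 4 n : ℝ) ^ 3 / (rootFloor 4 n : ℝ) ^ 4 *
            (√(rootFloor 4 n : ℝ) / (z.1 : ℝ)) +
          (rootFloor 4 n : ℝ) ^ 2 * (‖densityFactor 4 z.1 z.2‖ ^ 6 *
            ((z.1 : ℝ) / √(rootFloor 4 n : ℝ)) ^ (1 / 10 : ℝ))) := by
  obtain ⟨C₀, hC₀, hden⟩ := exists_densityFactor_le (k := 4) (e := 1 / 4) (by norm_num)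
    (by norm_num) (by norm_num) (by norm_num)
  refine ⟨192 * (4096 * (6 * C₀) ^ 5 * 9 + 4096 ^ 6 * 9) + 6 ^ 6 * 9, by positivity,
    fun n P m hP h1 h2 z hz => ?_⟩
  obtain ⟨hL4, hL5, hLn, hnL⟩ := root_bounds hP h1 h2
  obtain ⟨L, hL⟩ : ∃ L, L = rootFloor 4 n := ⟨_, rfl⟩
  rw [← hL] at hz hL4 hL5 hLn hnL ⊢
  obtain ⟨M, hM⟩ : ∃ M, M = 16 * n := ⟨_, rfl⟩
  rw [← hM]
  have hn0 : 0 < n := by have := Nat.one_le_pow 4 P hP; omega
  have : NeZero M := ⟨by omega⟩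
  obtain ⟨q, r⟩ := z
  obtain ⟨⟨hq, hqQ⟩, hr, hcop⟩ := mem_arcCentres.1 hz
  simp only at hq hqQ hr hcop
  have hru : r ∈ unitResidues q := mem_filter.2 ⟨mem_range.2 hr, hcop⟩
  have hL1 : 1 ≤ L := by omega
  have hLr : (1 : ℝ) ≤ L := by exact_mod_cast hL1
  have hs1 : 1 ≤ √(L : ℝ) := Real.one_le_sqrt.2 hLr
  have hqs : (q : ℝ) ≤ √(L : ℝ) := (Nat.cast_le.2 hqQ).trans (Nat.floor_le (by linarith))
  have hq0 : (0 : ℝ) < q := Nat.cast_pos.2 hq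
  have hLM : L ^ 4 ≤ M := by omega
  obtain ⟨μ, hμ⟩ : ∃ μ, μ = densityFactor 4 q r := ⟨_, rfl⟩
  have hμle : ‖μ‖ ≤ C₀ * (q : ℝ) ^ (-(1 / 4) : ℝ) := hμ ▸ hden q r hru
  obtain ⟨δ, hδ⟩ : ∃ δ, δ = sixWidth L q := ⟨_, rfl⟩
  obtain ⟨E, hE⟩ : ∃ E, E = 4096 * √(L : ℝ) := ⟨_, rfl⟩
  dsimp only
  rw [← hμ, ← hδ]
  obtain ⟨x, hx⟩ : ∃ x : ℕ → ℝ, x = fun h : ℕ => (h : ℝ) / M + -centre ⟨q, r⟩ := ⟨_, rfl⟩
  obtain ⟨W, hW⟩ : ∃ W : ℕ → ℂ, W = fun h => sixCoef m ⟨q, r⟩ * sixMain n P m (x h) := ⟨_, rfl⟩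
  have hW' : ∀ h, W h = μ ^ 6 * (weightSum (1 / 4) n (x h) ^ 4 * shortWeight P (x h) ^ 2) *
      eAdd (-((m : ℝ) * ((h : ℝ) / M))) := fun h => by
    simp only [hW, sixMain, sixCoef, ← hμ, hx]
    rw [show μ ^ 6 * (weightSum (1 / 4) n ((h : ℝ) / M + -centre ⟨q, r⟩) ^ 4 *
      shortWeight P ((h : ℝ) / M + -centre ⟨q, r⟩) ^ 2) * eAdd (-((m : ℝ) * ((h : ℝ) / M))) =
      μ ^ 6 * (weightSum (1 / 4) n ((h : ℝ) / M + -centre ⟨q, r⟩) ^ 4 *
      shortWeight P ((h : ℝ) / M + -centre ⟨q, r⟩) ^ 2) *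
        (eAdd (-((m : ℝ) * centre ⟨q, r⟩)) *
          eAdd (-((m : ℝ) * ((h : ℝ) / M + -centre ⟨q, r⟩)))) by
      rw [← eAdd_add]; ring_nf]
    ring
  have hnear : ∀ h ∈ arc M δ ⟨q, r⟩,
      ‖waringSum 4 L ((h : ℝ) / M) ^ 4 * shortSum P ((h : ℝ) / M) ^ 2 *
          eAdd (-((m : ℝ) * ((h : ℝ) / M))) - W h‖ ≤
        192 * E * (6 * ‖μ‖) ^ 5 * sixBound L (x h) ^ 5 + 192 * E ^ 6 := fun h hh => by
    rw [arc, mem_filter, nearDist] at hh
    obtain ⟨j, hj⟩ : ∃ j, j = round ((h : ℝ) / M - centre ⟨q, r⟩) := ⟨_, rfl⟩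
    obtain ⟨β, hβ⟩ : ∃ β, β = (h : ℝ) / M - centre ⟨q, r⟩ - j := ⟨_, rfl⟩
    rw [← hj, ← hβ] at hh
    have hβb : (q : ℝ) * (1 + (L : ℝ) ^ 4 * |β|) ≤ 2 * √(L : ℝ) := by
      have h3 := hh.2
      rw [hδ, sixWidth, le_div_iff₀ (by positivity)] at h3
      linarith
    obtain ⟨happ, happ'⟩ := norm_six_approx_le hP h1 h2 (show 0 < q by omega) (r : ℤ)
      (β := β) (by rw [← hL]; exact hβb)
    rw [← hL, Int.cast_natCast, ← hμ, ← hE] at happ happ'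
    have hα : (h : ℝ) / M = ((r : ℕ) : ℝ) / q + β + (j : ℤ) := by
      rw [hβ]; simp only [centre]; ring
    have hxw : x h = β + ((j : ℤ) : ℝ) := by rw [hx, hβ]; ring
    have hw1 : ∀ c N, weightSum c N (x h) = weightSum c N β := fun c N => by
      rw [hxw, ← weightSum_sub_intCast c N (β + j) j, add_sub_cancel_right]
    have hsb : sixBound L (x h) = sixBound L β := by
      rw [sixBound, sixBound, hxw, nearDist_add_intCast]
    rw [hW', ← sub_mul, norm_mul, norm_eAdd, mul_one, shortWeight, hw1, hw1, hw1, ← shortWeight,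
      hsb, shortSum, hα, waringSum_add_int, waringSum_add_int, waringSum_add_int, ← shortSum,
      show μ ^ 6 * (weightSum (1 / 4) n β ^ 4 * shortWeight P β ^ 2) =
        (μ * weightSum (1 / 4) n β) ^ 4 * (μ * shortWeight P β) ^ 2 by ring]
    obtain ⟨hv, hv'⟩ := norm_weights_le hP h1 h2 β
    rw [← hL] at hv hv'
    have hbv : ‖μ * weightSum (1 / 4) n β‖ ≤ 6 * ‖μ‖ * sixBound L β := by
      rw [norm_mul]
      exact (mul_le_mul_of_nonneg_left hv (norm_nonneg _)).trans_eq (by ring)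
    have hbv' : ‖μ * shortWeight P β‖ ≤ 6 * ‖μ‖ * sixBound L β := by
      rw [norm_mul]
      exact (mul_le_mul_of_nonneg_left hv' (norm_nonneg _)).trans_eq (by ring)
    refine (norm_four_two_sub_le happ happ' hbv hbv').trans (le_of_eq ?_)
    ring
  rw [mul_sum, ← sum_sdiff
    (show arc M δ ⟨q, r⟩ ⊆ range M from filter_subset _ _) (f := fun h : ℕ => sixCoef m ⟨q, r⟩ *
      sixMain n P m ((h : ℝ) / M + -centre ⟨q, r⟩)), sub_add_eq_sub_sub_swap, ← sum_sub_distrib]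
  have hin : ∑ h ∈ arc M δ ⟨q, r⟩,
      ‖waringSum 4 L ((h : ℝ) / M) ^ 4 * shortSum P ((h : ℝ) / M) ^ 2 *
          eAdd (-((m : ℝ) * ((h : ℝ) / M))) - sixCoef m ⟨q, r⟩ *
            sixMain n P m ((h : ℝ) / M + -centre ⟨q, r⟩)‖ ≤
      192 * E * (6 * ‖μ‖) ^ 5 * (9 * (L : ℝ) * M * (1 + Real.log M)) +
        (5 + 4 * (M : ℝ) * δ * (1 + Real.log M)) * (192 * E ^ 6) := by
    refine (sum_le_sum fun h hh => (le_of_eq (by rw [hW, hx])).trans (hnear h hh)).trans ?_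
    rw [sum_add_distrib, sum_const, nsmul_eq_mul, ← mul_sum]
    refine add_le_add (mul_le_mul_of_nonneg_left ((sum_le_sum_of_subset_of_nonneg
      (filter_subset _ _) fun h _ _ => pow_nonneg (sixBound_nonneg _ _) 5).trans
      (le_of_eq_of_le (sum_congr rfl fun h _ => by simp only [hx, ← sub_eq_add_neg])
        (sum_sixBound_pow_five_le hLM (centre ⟨q, r⟩)))) (by rw [hE]; positivity))
      (mul_le_mul_of_nonneg_right (card_arc_le (by rw [hδ, sixWidth]; positivity) _)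
        (by rw [hE]; positivity))
  have hout : ∑ h ∈ range M \ arc M δ ⟨q, r⟩,
      ‖sixCoef m ⟨q, r⟩ * sixMain n P m ((h : ℝ) / M + -centre ⟨q, r⟩)‖ ≤
      6 ^ 6 * ‖μ‖ ^ 6 * (9 * (L : ℝ) ^ 2 * M * (1 + Real.log M) *
        ((q : ℝ) / √(L : ℝ)) ^ (1 / 10 : ℝ)) := by
    refine (sum_le_sum (g := fun h : ℕ =>
      6 ^ 6 * ‖μ‖ ^ 6 * sixBound L ((h : ℝ) / M - centre ⟨q, r⟩) ^ 6) fun h _ => ?_).trans ?_
    · obtain ⟨hv, hv'⟩ := norm_weights_le hP h1 h2 ((h : ℝ) / M - centre ⟨q, r⟩)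
      rw [← hL] at hv hv'
      rw [norm_mul, sixMain, sixCoef, ← hμ, ← sub_eq_add_neg, norm_mul, norm_mul, norm_mul,
        norm_eAdd, norm_eAdd, mul_one, mul_one, norm_pow, norm_pow, norm_pow]
      refine (mul_le_mul_of_nonneg_left (mul_le_mul (pow_le_pow_left₀ (norm_nonneg _) hv 4)
        (pow_le_pow_left₀ (norm_nonneg _) hv' 2) (by positivity)
        (by have := sixBound_nonneg L ((h : ℝ) / M - centre ⟨q, r⟩); positivity))
        (by positivity)).trans (le_of_eq ?_)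
      ring
    · rw [← mul_sum]
      exact mul_le_mul_of_nonneg_left (hδ ▸ sum_sixBound_off_le hL1 hLM hq hqs ⟨q, r⟩)
        (by positivity)
  refine (norm_sub_le _ _).trans ((add_le_add ((norm_sum_le _ _).trans hin)
    ((norm_sum_le _ _).trans hout)).trans ?_)
  obtain ⟨Λ, hΛ⟩ : ∃ Λ, Λ = (M : ℝ) * (1 + Real.log M) := ⟨_, rfl⟩
  have hl : 0 ≤ Real.log M := Real.log_natCast_nonneg M
  have hMr : (0 : ℝ) < M := Nat.cast_pos.2 (by omega)
  have hΛ0 : 0 ≤ Λ := hΛ ▸ by positivity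
  have hs0 : 0 ≤ √(L : ℝ) := Real.sqrt_nonneg _
  have hL0 : (0 : ℝ) < L := by linarith
  have t1 : 192 * E * (6 * ‖μ‖) ^ 5 * (9 * (L : ℝ) * M * (1 + Real.log M)) ≤
      192 * (4096 * (6 * C₀) ^ 5 * 9) * Λ *
        (√(L : ℝ) * L * ((q : ℝ) ^ (-(1 / 4) : ℝ)) ^ 5) := by
    rw [hE, hΛ]
    calc 192 * (4096 * √(L : ℝ)) * (6 * ‖μ‖) ^ 5 * (9 * (L : ℝ) * M * (1 + Real.log M))
        ≤ 192 * (4096 * √(L : ℝ)) * (6 * (C₀ * (q : ℝ) ^ (-(1 / 4) : ℝ))) ^ 5 *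
          (9 * (L : ℝ) * M * (1 + Real.log M)) := by gcongr
      _ = _ := by ring
  have t2 : (5 + 4 * (M : ℝ) * δ * (1 + Real.log M)) * (192 * E ^ 6) ≤
      192 * (4096 ^ 6 * 9) * Λ * ((L : ℝ) ^ 3 / (L : ℝ) ^ 4 * (√(L : ℝ) / q)) := by
    have h5 : 5 + 4 * (M : ℝ) * δ * (1 + Real.log M) ≤
        9 * Λ / (L : ℝ) ^ 4 * (√(L : ℝ) / q) := by
      have hsq : 1 ≤ √(L : ℝ) / q := by rw [le_div_iff₀ hq0, one_mul]; exact hqs
      have hML : 1 ≤ Λ / (L : ℝ) ^ 4 := by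
        rw [le_div_iff₀ (by positivity), one_mul, hΛ]
        exact (by exact_mod_cast hLM : (L : ℝ) ^ 4 ≤ M).trans
          (le_mul_of_one_le_right hMr.le (by linarith))
      have e : 4 * (M : ℝ) * δ * (1 + Real.log M) = 4 * (Λ / (L : ℝ) ^ 4 * (√(L : ℝ) / q)) := by
        rw [hδ, sixWidth, hΛ]; ring
      have := one_le_mul_of_one_le_of_one_le hML hsq
      rw [e, mul_div_assoc, mul_assoc 9]
      linarith
    have e6 : E ^ 6 = 4096 ^ 6 * (L : ℝ) ^ 3 := by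
      rw [hE, mul_pow, show √(L : ℝ) ^ 6 = (√(L : ℝ) ^ 2) ^ 3 by ring, Real.sq_sqrt hL0.le]
    rw [e6]
    refine (mul_le_mul_of_nonneg_right h5 (by positivity)).trans (le_of_eq ?_)
    ring
  have t3 : 6 ^ 6 * ‖μ‖ ^ 6 * (9 * (L : ℝ) ^ 2 * M * (1 + Real.log M) *
      ((q : ℝ) / √(L : ℝ)) ^ (1 / 10 : ℝ)) =
      6 ^ 6 * 9 * Λ * ((L : ℝ) ^ 2 * (‖μ‖ ^ 6 * ((q : ℝ) / √(L : ℝ)) ^ (1 / 10 : ℝ))) := by
    rw [hΛ]; ring
  rw [mul_assoc (192 * (4096 * (6 * C₀) ^ 5 * 9 + 4096 ^ 6 * 9) + 6 ^ 6 * 9) (M : ℝ), ← hΛ]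
  have n1 : 0 ≤ √(L : ℝ) * L * ((q : ℝ) ^ (-(1 / 4) : ℝ)) ^ 5 := by positivity
  have n2 : 0 ≤ (L : ℝ) ^ 3 / (L : ℝ) ^ 4 * (√(L : ℝ) / q) := by positivity
  have n3 : 0 ≤ (L : ℝ) ^ 2 * (‖μ‖ ^ 6 * ((q : ℝ) / √(L : ℝ)) ^ (1 / 10 : ℝ)) := by positivity
  have hA : 0 ≤ 192 * (4096 * (6 * C₀) ^ 5 * 9) * Λ := by positivity
  have hB : 0 ≤ 192 * (4096 ^ 6 * 9) * Λ := by positivity
  have hD : (0 : ℝ) ≤ 6 ^ 6 * 9 * Λ := by positivity
  have m1 := mul_nonneg hA n2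
  have m2 := mul_nonneg hA n3
  have m3 := mul_nonneg hB n1
  have m4 := mul_nonneg hB n3
  have m5 := mul_nonneg hD n1
  have m6 := mul_nonneg hD n2
  linarith

theorem one_add_log_le {L n : ℕ} (hL : 1 ≤ L) (hn : 1 ≤ n) (hnL : n ≤ 16 * L ^ 4) :
    1 + Real.log (16 * n : ℕ) ≤ 700 * (L : ℝ) ^ (1 / 100 : ℝ) := by
  have hL1 : (1 : ℝ) ≤ L := by exact_mod_cast hL
  have h : Real.log (16 * n : ℕ) ≤ Real.log (256 * (L : ℝ) ^ 4) :=
    Real.log_le_log (Nat.cast_pos.2 (by omega))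
      (by exact_mod_cast (show 16 * n ≤ 256 * L ^ 4 by omega))
  rw [Real.log_mul (by norm_num) (by positivity), Real.log_pow] at h
  have h1 := Real.log_le_rpow_div (show (0 : ℝ) ≤ L by linarith)
    (show (0 : ℝ) < 1 / 100 by norm_num)
  have h2 := Real.one_le_rpow hL1 (show (0 : ℝ) ≤ 1 / 100 by norm_num)
  have h3 : Real.log 256 ≤ 256 := Real.log_le_self (by norm_num)
  push_cast at h
  push_cast
  rw [div_eq_mul_inv] at h1
  norm_num at h1 h2 h ⊢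
  linarith

/-- **All the arcs.** -/
theorem exists_majorSix_error : ∃ C : ℝ, 0 < C ∧ ∀ n P m : ℕ, 2 ≤ P → 256 * P ^ 4 ≤ n →
    n ≤ 512 * P ^ 4 → m ≤ n →
      ‖majorSix n P m - ((16 * n : ℕ) : ℂ) * sixIntegral n P m *
          ∑' q, WaringAsymptotic.singularTerm 4 6 m q‖ ≤
        (C * (16 * n : ℕ) * (rootFloor 4 n : ℝ) ^ (2 - 1 / 30 : ℝ)) +
          ((16 * n : ℕ) : ℝ) * |sixIntegral n P m| *
            (sixTotal * (rootFloor 4 n : ℝ) ^ (-(1 / 20) : ℝ)) := by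
  obtain ⟨C, hC, harc⟩ := exists_arc_six
  refine ⟨C * 700 * (2 + 2 + sixTotal + 1),
    mul_pos (by positivity) (by linarith [sixTotal_nonneg]), fun n P m hP h1 h2 hm => ?_⟩
  obtain ⟨hL4, hL5, hLn, hnL⟩ := root_bounds (show 1 ≤ P by omega) h1 h2
  have hn1 : 1 ≤ n := by have := Nat.one_le_pow 4 P (by omega); omega
  obtain ⟨L, hL⟩ : ∃ L, L = rootFloor 4 n := ⟨_, rfl⟩
  rw [← hL] at hL4 hL5 hLn hnL ⊢
  obtain ⟨Q, hQ⟩ : ∃ Q, Q = ⌊√(L : ℝ)⌋₊ := ⟨_, rfl⟩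
  have hL1 : 1 ≤ L := by omega
  have hLr : (1 : ℝ) ≤ L := by exact_mod_cast hL1
  have hL0 : (0 : ℝ) < L := by linarith
  have e : ∀ z, sixCoef m z * (((16 * n : ℕ) : ℂ) * sixIntegral n P m) = sixCoef m z *
      ∑ h ∈ range (16 * n), sixMain n P m ((h : ℝ) / (16 * n : ℕ) + -centre z) := fun z => by
    rw [← sum_grid_six hn1 h1 hm (-centre z)]
    rfl
  have hmain : ‖((16 * n : ℕ) : ℂ) * sixIntegral n P m * (∑ z ∈ sixCentres L, sixCoef m z -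
      ∑' q, WaringAsymptotic.singularTerm 4 6 m q)‖ ≤ ((16 * n : ℕ) : ℝ) * |sixIntegral n P m| *
        (sixTotal * (L : ℝ) ^ (-(1 / 20) : ℝ)) := by
    rw [norm_mul, norm_mul, Complex.norm_natCast, Complex.norm_real, Real.norm_eq_abs]
    refine mul_le_mul_of_nonneg_left ?_ (by positivity)
    rw [sixCentres, sum_sixCoef]
    refine (norm_singular_tail_le m _).trans (mul_le_mul_of_nonneg_left ?_ sixTotal_nonneg)
    rw [show (-(1 / 20) : ℝ) = (1 / 2) * -(1 / 10) by norm_num, Real.rpow_mul hL0.le,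
      ← Real.sqrt_eq_rpow]
    exact Real.rpow_le_rpow_of_nonpos (Real.sqrt_pos.2 hL0)
      (by push_cast; exact (Nat.lt_floor_add_one _).le) (by norm_num)
  refine (norm_sub_le_norm_sub_add_norm_sub _
    (((16 * n : ℕ) : ℂ) * sixIntegral n P m * ∑ z ∈ sixCentres L, sixCoef m z) _).trans
    (add_le_add ?_ (le_of_eq_of_le (by rw [mul_sub]) hmain))
  rw [mul_sum, majorSix, ← hL, ← sum_sub_distrib]
  refine (norm_sum_le _ _).trans ((sum_le_sum fun z hz =>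
    (le_of_eq (by rw [mul_comm _ (sixCoef m z), e])).trans (hL ▸ harc n P m (by omega) h1 h2
      z (hL ▸ hz))).trans ?_)
  rw [← mul_sum, sum_add_distrib, sum_add_distrib, ← mul_sum, ← mul_sum, ← mul_sum,
    sixCentres, arcCentres, sum_sigma, sum_sigma, sum_sigma, ← hQ]
  have hcard : ∀ q, (((unitResidues q).card : ℕ) : ℝ) ≤ q := fun q => by
    rw [card_unitResidues]; exact Nat.cast_le.2 (Nat.totient_le q)
  have s1 : ∑ q ∈ Icc 1 Q, ∑ _r ∈ unitResidues q, ((q : ℝ) ^ (-(1 / 4) : ℝ)) ^ 5 ≤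
      2 * (L : ℝ) ^ (7 / 16 : ℝ) := by
    refine (sum_le_sum (g := fun q : ℕ => (q : ℝ) ^ (-(1 / 4) : ℝ)) fun q hq => ?_).trans
      (hQ ▸ sum_rpow_neg_quarter_le hL1)
    have hq0 : (0 : ℝ) < q := Nat.cast_pos.2 (mem_Icc.1 hq).1
    rw [sum_const, nsmul_eq_mul]
    refine (mul_le_mul_of_nonneg_right (hcard q) (by positivity)).trans (le_of_eq ?_)
    rw [← Real.rpow_natCast, ← Real.rpow_mul hq0.le]
    nth_rewrite 1 [← Real.rpow_one (q : ℝ)]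
    rw [← Real.rpow_add hq0]
    norm_num
  have s2 : ∑ q ∈ Icc 1 Q, ∑ _r ∈ unitResidues q, √(L : ℝ) / q ≤ (L : ℝ) := by
    refine (sum_le_card_nsmul _ _ (√(L : ℝ)) fun q hq => ?_).trans ?_
    · have hq0 : (0 : ℝ) < q := Nat.cast_pos.2 (mem_Icc.1 hq).1
      rw [sum_const, nsmul_eq_mul]
      refine (mul_le_mul_of_nonneg_right (hcard q) (by positivity)).trans (le_of_eq ?_)
      field_simp
    · rw [Nat.card_Icc, Nat.add_sub_cancel, nsmul_eq_mul]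
      refine (mul_le_mul_of_nonneg_right (hQ ▸ Nat.floor_le (Real.sqrt_nonneg _))
        (Real.sqrt_nonneg _)).trans (le_of_eq (Real.mul_self_sqrt hL0.le))
  have s3 : ∑ q ∈ Icc 1 Q, ∑ r ∈ unitResidues q, ‖densityFactor 4 q r‖ ^ 6 *
      ((q : ℝ) / √(L : ℝ)) ^ (1 / 10 : ℝ) ≤ sixTotal * (L : ℝ) ^ (-(1 / 20) : ℝ) := by
    refine le_of_eq_of_le (sum_congr rfl fun q _ => ?_) (hQ ▸ sum_sixTerm_sqrt_le hL1)
    rw [sixTerm, sum_mul]
  refine (mul_le_mul_of_nonneg_left (add_le_add (add_le_add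
    (mul_le_mul_of_nonneg_left s1 (by positivity)) (mul_le_mul_of_nonneg_left s2 (by positivity)))
    (mul_le_mul_of_nonneg_left s3 (by positivity)))
    (by have := Real.log_natCast_nonneg (16 * n); positivity)).trans ?_
  obtain ⟨Y, hY⟩ : ∃ Y : ℝ, Y = (L : ℝ) ^ (2 - 1 / 30 - 1 / 100 : ℝ) := ⟨_, rfl⟩
  have hY1 : ∀ e : ℝ, e ≤ 2 - 1 / 30 - 1 / 100 → (L : ℝ) ^ e ≤ Y := fun e he =>
    hY ▸ Real.rpow_le_rpow_of_exponent_le hLr he
  have e1 : √(L : ℝ) * L * (2 * (L : ℝ) ^ (7 / 16 : ℝ)) ≤ 2 * Y := by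
    refine le_of_eq_of_le ?_ (mul_le_mul_of_nonneg_left (hY1 (31 / 16) (by norm_num)) two_pos.le)
    rw [Real.sqrt_eq_rpow, ← Real.rpow_add_one hL0.ne', mul_left_comm, ← Real.rpow_add hL0]
    norm_num
  have e2 : (L : ℝ) ^ 3 / (L : ℝ) ^ 4 * L ≤ 2 * Y := by
    rw [show (L : ℝ) ^ 3 / (L : ℝ) ^ 4 * L = 1 by field_simp]
    have : 1 ≤ Y := hY ▸ Real.one_le_rpow hLr (by norm_num)
    linarith
  have e3 : (L : ℝ) ^ 2 * (sixTotal * (L : ℝ) ^ (-(1 / 20) : ℝ)) ≤ sixTotal * Y := by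
    rw [mul_left_comm, ← Real.rpow_natCast, ← Real.rpow_add hL0]
    exact mul_le_mul_of_nonneg_left (hY1 _ (by norm_num)) sixTotal_nonneg
  have hY0 : 0 ≤ Y := hY ▸ by positivity
  have hlog := one_add_log_le hL1 hn1 hnL
  refine (mul_le_mul (mul_le_mul_of_nonneg_left hlog (by positivity))
    (show _ ≤ (2 + 2 + sixTotal + 1) * Y by linarith)
    (by have := sixTotal_nonneg; positivity) (by positivity)).trans (le_of_eq ?_)
  rw [show (2 - 1 / 30 : ℝ) = (2 - 1 / 30 - 1 / 100) + 1 / 100 by ring,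
    Real.rpow_add hL0, ← hY]
  ring

/-- **The major arcs give `≫ M P²`.** -/
theorem exists_majorSix_ge : ∃ (c : ℝ) (P₀ : ℕ), 0 < c ∧ ∀ n P m : ℕ, P₀ ≤ P →
    256 * P ^ 4 ≤ n → n ≤ 512 * P ^ 4 → n ≤ 2 * m → m ≤ n → 1 ≤ m % 16 ∧ m % 16 ≤ 6 →
      c * (16 * n : ℕ) * (P : ℝ) ^ 2 ≤ (majorSix n P m).re := by
  obtain ⟨C, hC, herr⟩ := exists_majorSix_error
  obtain ⟨c₁, hc₁, hint⟩ := exists_sixIntegral_ge
  obtain ⟨c₂, hc₂, hser⟩ := exists_singularSeries_six_ge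
  have hlim : ∀ (K e : ℝ), 0 < e → Tendsto (fun P : ℕ => K * (P : ℝ) ^ (-e)) atTop (𝓝 0) :=
    fun K e he => by
      simpa using ((tendsto_rpow_neg_atTop he).comp tendsto_natCast_atTop_atTop).const_mul K
  obtain ⟨P₀, hP₀⟩ := eventually_atTop.1 (((hlim (25 * C) (1 / 30) (by norm_num)).eventually
    (eventually_le_nhds (show 0 < c₁ * c₂ / 4 by positivity))).and
      (((hlim sixTotal (1 / 20) (by norm_num)).eventually
        (eventually_le_nhds (show 0 < c₂ / 2 by positivity))).and (eventually_ge_atTop 2)))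
  refine ⟨c₁ * c₂ / 4, P₀, by positivity, fun n P m hP h1 h2 hm1 hm2 hm16 => ?_⟩
  obtain ⟨hPa, hPb, hP2⟩ := hP₀ P hP
  obtain ⟨hL4, hL5, -, -⟩ := root_bounds (show 1 ≤ P by omega) h1 h2
  obtain ⟨J, hJ⟩ : ∃ J, J = sixIntegral n P m := ⟨_, rfl⟩
  have hJ1 : c₁ * (P : ℝ) ^ 2 ≤ J := hJ ▸ hint n P m hP2 h1 h2 hm1 hm2
  have hP0 : (0 : ℝ) < P := Nat.cast_pos.2 (by omega)
  have hJ0 : 0 ≤ J := le_trans (by positivity) hJ1
  have h := herr n P m hP2 h1 h2 hm2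
  rw [← hJ, abs_of_nonneg hJ0] at h
  have hre := (abs_le.1 ((Complex.abs_re_le_norm _).trans h)).1
  rw [Complex.sub_re, mul_assoc (((16 * n : ℕ) : ℂ)), ← Complex.ofReal_natCast,
    Complex.re_ofReal_mul, Complex.re_ofReal_mul, ← WaringAsymptotic.singularSeries] at hre
  obtain ⟨L, hL⟩ : ∃ L : ℝ, L = (rootFloor 4 n : ℝ) := ⟨_, rfl⟩
  rw [← hL] at hre
  have hLP : (P : ℝ) ≤ L := hL ▸ Nat.cast_le.2 (by omega)
  have hL5' : L ≤ 5 * P := hL ▸ by exact_mod_cast hL5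
  have g1 : C * L ^ (2 - 1 / 30 : ℝ) ≤ c₁ * c₂ / 4 * (P : ℝ) ^ 2 := by
    rw [sub_eq_add_neg, Real.rpow_add (hP0.trans_le hLP), Real.rpow_two]
    calc C * (L ^ 2 * L ^ (-(1 / 30) : ℝ))
        ≤ C * ((5 * (P : ℝ)) ^ 2 * (P : ℝ) ^ (-(1 / 30) : ℝ)) :=
          mul_le_mul_of_nonneg_left (mul_le_mul (pow_le_pow_left₀ (by linarith) hL5' 2)
            (Real.rpow_le_rpow_of_nonpos hP0 hLP (by norm_num))
              (Real.rpow_nonneg (by linarith) _) (by positivity)) hC.le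
      _ = 25 * C * (P : ℝ) ^ (-(1 / 30) : ℝ) * (P : ℝ) ^ 2 := by ring
      _ ≤ _ := mul_le_mul_of_nonneg_right hPa (by positivity)
  have g2 : J * (sixTotal * L ^ (-(1 / 20) : ℝ)) ≤ J * (c₂ / 2) :=
    mul_le_mul_of_nonneg_left ((mul_le_mul_of_nonneg_left
      (Real.rpow_le_rpow_of_nonpos hP0 hLP (by norm_num)) sixTotal_nonneg).trans hPb) hJ0
  have hM : (0 : ℝ) ≤ (16 * n : ℕ) := Nat.cast_nonneg _
  have g3 := mul_le_mul_of_nonneg_left g1 hM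
  have g4 := mul_le_mul_of_nonneg_left g2 hM
  have g5 := mul_le_mul_of_nonneg_left (mul_le_mul_of_nonneg_left (hser m hm16) hJ0) hM
  have g6 := mul_le_mul_of_nonneg_left (mul_le_mul_of_nonneg_left hJ1 hc₂.le) hM
  linarith

end FA.BiquadratesSixteen
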