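import Fermat.Agent.WaringAsymptotic.Major
import Fermat.Agent.Subconvexity.SecondDerivative
import Mathlib.NumberTheory.DiophantineApproximation.Basic
import Mathlib.NumberTheory.Harmonic.Bounds

/-!
# The sum of fourth powers off the major arcs

If `q ≤ P` and `64 q |β| P³ ≤ 1` then `f (a/q + β) ≪ P Q ^ (-1/4) + P ^ (7/8 + ε)`,
`Q = q (1 + P⁴ |β|)`: the residues modulo `q` are summed by parts against the sums of Weyl for
`a x⁴ / q`, and the sums along progressions by the test of Kuzmin and Landau. With Weyl's inequality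
for `q > P` this leaves `Q ≤ √P`.
-/

set_option autoImplicit false

noncomputable section

namespace FA.BiquadratesSixteen

open Finset FA.ThreePrimes FA.WaringAsymptotic
open scoped Real ComplexConjugate

/-- Kuzmin's bound for phases in periods. -/
theorem norm_sum_eAdd_le_inv {θ : ℕ → ℝ} {lam : ℝ} (hlam : 0 < lam) {a b : ℕ}
    (hΔ : ∀ n ∈ Ico a b, lam ≤ θ (n + 1) - θ n ∧ θ (n + 1) - θ n ≤ 1 / 2)
    (hmono : ∀ n ∈ Ico a b, θ (n + 1) - θ n ≤ θ (n + 2) - θ (n + 1)) :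
    ‖∑ n ∈ Ico a b, eAdd (θ n)‖ ≤ 1 + 1 / lam := by
  have h := Subconvexity.norm_kuzmin_le (φ := fun n => 2 * π * θ n) (lam := 2 * π * lam) (k := 0)
    (a := a) (b := b) (by positivity) (fun n hn => ?_) (Or.inl fun n hn _ => ?_)
  · refine le_of_le_of_eq h ?_
    field_simp
  · obtain ⟨h1, h2⟩ := hΔ n hn
    have g1 := mul_le_mul_of_nonneg_left h1 (show 0 ≤ 2 * π by positivity)
    have g2 := mul_le_mul_of_nonneg_left h2 (show 0 ≤ 2 * π by positivity)
    push_cast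
    constructor <;> linarith
  · have := mul_le_mul_of_nonneg_left (hmono n hn) (show 0 ≤ 2 * π by positivity)
    linarith

/-- The differences of `β x⁴` along a progression. -/
theorem pow_four_diff_bounds {β x q : ℝ} (hβ : 0 ≤ β) (hx : 0 ≤ x) (hq : 0 ≤ q) :
    4 * β * q * x ^ 3 ≤ β * (x + q) ^ 4 - β * x ^ 4 ∧
      β * (x + q) ^ 4 - β * x ^ 4 ≤ 4 * β * q * (x + q) ^ 3 := by
  constructor
  · have : 0 ≤ β * q ^ 2 * (6 * x ^ 2 + 4 * x * q + q ^ 2) := by positivity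
    linarith
  · have : 0 ≤ β * q ^ 2 * (6 * x ^ 2 + 8 * x * q + 3 * q ^ 2) := by positivity
    linarith

/-- Kuzmin along a progression. -/
theorem norm_sum_progression_le {β : ℝ} (hβ : 0 < β) {q r P i J : ℕ} (hq : 1 ≤ q) (hqP : q ≤ P)
    (hr : 1 ≤ r) (hsmall : 64 * (q : ℝ) * β * (P : ℝ) ^ 3 ≤ 1)
    (hJ : ∀ j < J, q * j + r ≤ P) :
    ‖∑ j ∈ Ico i J, eAdd (β * (((q * j + r : ℕ) : ℝ)) ^ 4)‖ ≤
      1 + 1 / (4 * β * q * ((q * i + r : ℕ) : ℝ) ^ 3) := by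
  have hpos : (0 : ℝ) < ((q * i + r : ℕ) : ℝ) := Nat.cast_pos.2 (by omega)
  have hq0 : (0 : ℝ) < q := Nat.cast_pos.2 hq
  refine norm_sum_eAdd_le_inv (by positivity) (fun n hn => ?_) fun n _ => ?_
  · rw [mem_Ico] at hn
    have e : ((q * (n + 1) + r : ℕ) : ℝ) = ((q * n + r : ℕ) : ℝ) + q := by push_cast; ring
    obtain ⟨h1, h2⟩ := pow_four_diff_bounds hβ.le (Nat.cast_nonneg (q * n + r)) hq0.le
    rw [e]
    refine ⟨le_trans ?_ h1, h2.trans ?_⟩
    · have : ((q * i + r : ℕ) : ℝ) ≤ ((q * n + r : ℕ) : ℝ) :=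
        Nat.cast_le.2 (Nat.add_le_add_right (Nat.mul_le_mul_left q hn.1) r)
      gcongr
    · have hle : ((q * n + r : ℕ) : ℝ) + q ≤ 2 * P := by
        have := hJ n hn.2
        exact_mod_cast (show q * n + r + q ≤ 2 * P by omega)
      calc 4 * β * q * (((q * n + r : ℕ) : ℝ) + q) ^ 3 ≤ 4 * β * q * (2 * (P : ℝ)) ^ 3 := by gcongr
        _ = (64 * (q : ℝ) * β * (P : ℝ) ^ 3) / 2 := by ring
        _ ≤ 1 / 2 := by linarith
  · have : 0 ≤ β * (q : ℝ) ^ 2 * (12 * ((q * n + r : ℕ) : ℝ) ^ 2 +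
        24 * ((q * n + r : ℕ) : ℝ) * q + 14 * (q : ℝ) ^ 2) := by positivity
    push_cast at this ⊢
    linarith

/-- The Weyl sum near `0`. -/
theorem norm_sum_fourth_le {β : ℝ} (hβ : 0 < β) {P : ℕ} (hP : 1 ≤ P)
    (hsmall : 64 * β * (P : ℝ) ^ 3 ≤ 1) :
    ‖∑ x ∈ range P, eAdd (β * ((x + 1 : ℕ) : ℝ) ^ 4)‖ ≤
      4 * min (P : ℝ) (β ^ (-(1 / 4) : ℝ)) := by
  have htriv : ∀ S : Finset ℕ, ‖∑ x ∈ S, eAdd (β * ((x + 1 : ℕ) : ℝ) ^ 4)‖ ≤ (S.card : ℝ) :=
    fun S => (norm_sum_le _ _).trans (le_of_eq (by simp [norm_eAdd]))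
  have hP1 : (1 : ℝ) ≤ P := by exact_mod_cast hP
  have hβ1 : β ≤ 1 := by
    have h1 := one_le_pow₀ (n := 3) hP1
    have := mul_le_mul_of_nonneg_left h1 (show 0 ≤ 64 * β by linarith)
    linarith
  obtain ⟨Y, hY⟩ : ∃ Y, Y = β ^ (-(1 / 4) : ℝ) := ⟨_, rfl⟩
  have hY1 : 1 ≤ Y := hY ▸ Real.one_le_rpow_of_pos_of_le_one_of_nonpos hβ hβ1 (by norm_num)
  rw [← hY]
  have hPr := (htriv (range P)).trans_eq (by rw [card_range])
  rw [mul_min_of_nonneg _ _ (by norm_num), le_min_iff]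
  refine ⟨by linarith, ?_⟩
  rcases le_or_gt (P : ℝ) (4 * Y) with h | h
  · linarith
  obtain ⟨L, hL⟩ : ∃ L, L = ⌈Y⌉₊ := ⟨_, rfl⟩
  have hL1 : Y ≤ L := hL ▸ Nat.le_ceil Y
  have hL2 : (L : ℝ) ≤ Y + 1 := hL ▸ (Nat.ceil_lt_add_one (by linarith)).le
  have hLP : L ≤ P := Nat.cast_le.1 (show (L : ℝ) ≤ P by linarith)
  rw [range_eq_Ico, ← sum_Ico_consecutive _ (Nat.zero_le L) hLP]
  refine (norm_add_le _ _).trans (le_trans (add_le_add
    ((htriv _).trans_eq (by rw [Nat.card_Ico, Nat.sub_zero]))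
    (le_trans (le_of_eq (congrArg _ (sum_congr rfl fun x _ => by rw [one_mul])))
      (norm_sum_progression_le (q := 1) (r := 1) (P := P) hβ le_rfl hP le_rfl
        (by push_cast; linarith) fun j hj => by omega))) ?_)
  have h1 : 1 / (4 * β * ((1 : ℕ) : ℝ) * ((1 * L + 1 : ℕ) : ℝ) ^ 3) ≤ Y := by
    push_cast
    rw [div_le_iff₀ (by positivity)]
    have hY4 : β * Y ^ 4 = 1 := by
      rw [hY, ← Real.rpow_natCast (β ^ _) 4, ← Real.rpow_mul hβ.le]
      norm_num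
      rw [Real.rpow_neg_one, mul_inv_cancel₀ hβ.ne']
    have h2 : Y ^ 3 ≤ ((L : ℝ) + 1) ^ 3 := pow_le_pow_left₀ (by linarith) (by linarith) 3
    have := mul_le_mul_of_nonneg_left h2 (show 0 ≤ 4 * β * Y by positivity)
    linarith
  linarith

/-- Summation by parts from the tail. -/
theorem sum_mul_tail (w z : ℕ → ℂ) : ∀ m : ℕ, ∑ j ∈ range (m + 1), w j * z j =
    w 0 * ∑ j ∈ range (m + 1), z j +
      ∑ j ∈ range m, (w (j + 1) - w j) * ∑ i ∈ Ico (j + 1) (m + 1), z i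
  | 0 => by simp
  | m + 1 => by
    have e : ∑ j ∈ range m, (w (j + 1) - w j) * ∑ i ∈ Ico (j + 1) (m + 1 + 1), z i =
        ∑ j ∈ range m, (w (j + 1) - w j) * ∑ i ∈ Ico (j + 1) (m + 1), z i +
          (w m - w 0) * z (m + 1) := by
      rw [← sum_range_sub w m, sum_mul, ← sum_add_distrib]
      refine sum_congr rfl fun j hj => ?_
      rw [mem_range] at hj
      rw [sum_Ico_succ_top (show j + 1 ≤ m + 1 by omega), mul_add]
    rw [sum_range_succ _ (m + 1), sum_mul_tail w z m, sum_range_succ z (m + 1), sum_range_succ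
      (fun j => (w (j + 1) - w j) * ∑ i ∈ Ico (j + 1) (m + 1 + 1), z i) m, e,
      Nat.Ico_succ_singleton, sum_singleton]
    ring

/-- **Along one residue**, the differences of `e (β n⁴)` sum to `O (log P / q)`. -/
theorem norm_residue_diff_le {β : ℝ} (hβ : 0 < β) {q r P J : ℕ} (hq : 1 ≤ q) (hqP : q ≤ P)
    (hr : 1 ≤ r) (hsmall : 64 * (q : ℝ) * β * (P : ℝ) ^ 3 ≤ 1)
    (hJ : ∀ j < J, q * j + r ≤ P) :
    ‖∑ j ∈ range J, (eAdd (β * ((q * j + r + 1 : ℕ) : ℝ) ^ 4) -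
        eAdd (β * ((q * j + r : ℕ) : ℝ) ^ 4))‖ ≤ 200 * (1 + Real.log P) / q := by
  have hlog : 0 ≤ Real.log P := Real.log_natCast_nonneg P
  rcases Nat.eq_zero_or_pos J with rfl | hJ0
  · simp only [range_zero, sum_empty, norm_zero]
    positivity
  obtain ⟨m, rfl⟩ : ∃ m, J = m + 1 := ⟨J - 1, by omega⟩
  have hq0 : (0 : ℝ) < q := Nat.cast_pos.2 hq
  have hP0 : (0 : ℝ) < P := Nat.cast_pos.2 (hq.trans hqP)
  obtain ⟨n, hn⟩ : ∃ n : ℕ → ℝ, n = fun j => ((q * j + r : ℕ) : ℝ) := ⟨_, rfl⟩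
  obtain ⟨δ, hδ⟩ : ∃ δ : ℕ → ℝ, δ = fun j => β * (n j + 1) ^ 4 - β * n j ^ 4 := ⟨_, rfl⟩
  obtain ⟨z, hz⟩ : ∃ z : ℕ → ℂ, z = fun j => eAdd (β * n j ^ 4) := ⟨_, rfl⟩
  obtain ⟨w, hw⟩ : ∃ w : ℕ → ℂ, w = fun j => eAdd (δ j) - 1 := ⟨_, rfl⟩
  have hn1 : ∀ j, 1 ≤ n j := fun j => by
    simp only [hn]
    exact_mod_cast (show 1 ≤ q * j + r by omega)
  have hnP : ∀ j ≤ m, n j ≤ P := fun j hj => by
    simp only [hn]
    exact_mod_cast hJ j (by omega)
  have e : ∀ j, eAdd (β * ((q * j + r + 1 : ℕ) : ℝ) ^ 4) -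
      eAdd (β * ((q * j + r : ℕ) : ℝ) ^ 4) = w j * z j := fun j => by
    rw [hw, hz, sub_mul, one_mul, ← eAdd_add, hδ, hn]
    push_cast
    ring_nf
  simp only [e]
  rw [sum_mul_tail w z m]
  have hT : ∀ i, ‖∑ j ∈ Ico i (m + 1), z j‖ ≤ 1 + 1 / (4 * β * q * n i ^ 3) := fun i => by
    rw [hz, hn]
    exact norm_sum_progression_le hβ hq hqP hr hsmall hJ
  have hβP : 64 * β * (P : ℝ) ^ 3 ≤ 1 / q := by
    rw [le_div_iff₀ hq0]
    linarith
  have hδ0 : |δ 0| ≤ 32 * β * n 0 ^ 3 := by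
    obtain ⟨h1, h2⟩ := pow_four_diff_bounds hβ.le (by linarith [hn1 0] : 0 ≤ n 0) zero_le_one
    have h3 : (n 0 + 1) ^ 3 ≤ (2 * n 0) ^ 3 := pow_le_pow_left₀ (by linarith [hn1 0])
      (by linarith [hn1 0]) 3
    have := mul_le_mul_of_nonneg_left h3 (show 0 ≤ 4 * β by linarith)
    rw [hδ]
    dsimp only
    rw [abs_of_nonneg (le_trans (by have := hn1 0; positivity) h1)]
    linarith
  have hfirst : ‖w 0 * ∑ j ∈ range (m + 1), z j‖ ≤ 100 / q := by
    have hsum : ‖∑ j ∈ range (m + 1), z j‖ ≤ 1 + 1 / (4 * β * q * n 0 ^ 3) := by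
      rw [range_eq_Ico]; exact hT 0
    rw [norm_mul]
    have hw0 : ‖w 0‖ ≤ 8 * (32 * β * n 0 ^ 3) := by
      rw [hw]
      refine (norm_eAdd_sub_one_le _).trans (mul_le_mul ?_ hδ0 (abs_nonneg _) (by norm_num))
      linarith [Real.pi_le_four]
    refine (mul_le_mul hw0 hsum (norm_nonneg _) (le_trans (norm_nonneg _) hw0)).trans ?_
    have hn0 : n 0 ^ 3 ≤ (P : ℝ) ^ 3 :=
      pow_le_pow_left₀ (by linarith [hn1 0]) (hnP 0 (Nat.zero_le m)) 3
    have h1 := mul_le_mul_of_nonneg_left hn0 (show 0 ≤ 64 * β by linarith)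
    have h2 : 8 * (32 * β * n 0 ^ 3) * (1 / (4 * β * q * n 0 ^ 3)) = 64 * (1 / (q : ℝ)) := by
      have := (by linarith [hn1 0] : (0 : ℝ) < n 0).ne'
      field_simp
      norm_num
    have h3 : 0 ≤ 1 / (q : ℝ) := by positivity
    rw [mul_add, h2, mul_one, show (100 : ℝ) / q = 100 * (1 / (q : ℝ)) by ring]
    linarith
  have hterm : ∀ j ∈ range m, ‖(w (j + 1) - w j) * ∑ i ∈ Ico (j + 1) (m + 1), z i‖ ≤
      4 * (1 / (P : ℝ)) + 64 * (1 / (q : ℝ)) * ((j + 1 : ℕ) : ℝ)⁻¹ := fun j hj => by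
    rw [mem_range] at hj
    obtain ⟨x, hx⟩ : ∃ x, x = n (j + 1) := ⟨_, rfl⟩
    have hx1 : 1 ≤ x := hx ▸ hn1 _
    have hxP : x ≤ P := hx ▸ hnP _ hj
    have hxj : (q : ℝ) * ((j + 1 : ℕ) : ℝ) ≤ x := by
      simp only [hx, hn]
      exact_mod_cast (Nat.le_add_right (q * (j + 1)) r)
    have hstep : n j = x - q := by rw [hx, hn]; push_cast; ring
    have hd : |δ (j + 1) - δ j| ≤ 28 * β * q * x ^ 2 := by
      rw [hδ]
      dsimp only
      rw [← hx, hstep]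
      have hb : 1 ≤ x - q := hstep ▸ hn1 j
      have h0 : 0 ≤ β * (q : ℝ) := by positivity
      have g1 : 0 ≤ β * q * (q * (12 * x - 4 * q) + 6 * q) :=
        mul_nonneg h0 (by nlinarith)
      have g2 : 0 ≤ β * q * (12 * (x * (x - q)) + 4 * (q : ℝ) ^ 2 + 6 * (2 * x - q) + 4) :=
        mul_nonneg h0 (by nlinarith)
      have g3 : β * q * (12 * x) ≤ β * q * (12 * x ^ 2) :=
        mul_le_mul_of_nonneg_left (by nlinarith) h0
      have g4 : β * q * 4 ≤ β * q * (4 * x ^ 2) := mul_le_mul_of_nonneg_left (by nlinarith) h0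
      rw [abs_le]
      constructor <;> linarith
    have hwd : ‖w (j + 1) - w j‖ ≤ 8 * (28 * β * q * x ^ 2) := by
      rw [hw]
      dsimp only
      rw [sub_sub_sub_cancel_right, show δ (j + 1) = δ j + (δ (j + 1) - δ j) by ring, eAdd_add,
        show eAdd (δ j) * eAdd (δ (j + 1) - δ j) - eAdd (δ j) =
          eAdd (δ j) * (eAdd (δ (j + 1) - δ j) - 1) by ring, norm_mul, norm_eAdd, one_mul]
      refine (norm_eAdd_sub_one_le _).trans (mul_le_mul ?_ hd (abs_nonneg _) (by norm_num))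
      linarith [Real.pi_le_four]
    rw [norm_mul]
    refine (mul_le_mul hwd (hx ▸ hT (j + 1)) (norm_nonneg _) (by positivity)).trans ?_
    have hx0 : x ≠ 0 := by linarith
    have h2 : 8 * (28 * β * q * x ^ 2) * (1 / (4 * β * q * x ^ 3)) = 56 * (1 / x) := by
      field_simp
      norm_num
    have h3 : 1 / x ≤ 1 / (q : ℝ) * ((j + 1 : ℕ) : ℝ)⁻¹ := by
      rw [← one_div ((j + 1 : ℕ) : ℝ), div_mul_div_comm, one_mul]
      exact one_div_le_one_div_of_le (by positivity) hxj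
    have h4 : β * q * x ^ 2 ≤ 1 / 64 * (1 / (P : ℝ)) := by
      refine (mul_le_mul_of_nonneg_left (pow_le_pow_left₀ (by linarith) hxP 2)
        (by positivity)).trans
        ?_
      rw [div_mul_div_comm, one_mul, le_div_iff₀ (by positivity)]
      linarith
    have h5 : 0 ≤ 1 / (q : ℝ) * ((j + 1 : ℕ) : ℝ)⁻¹ := by positivity
    have h6 : 0 ≤ 1 / (P : ℝ) := by positivity
    rw [mul_add, h2, mul_one]
    linarith
  refine (norm_add_le _ _).trans ((add_le_add hfirst ((norm_sum_le _ _).trans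
    (sum_le_sum hterm))).trans ?_)
  rw [sum_add_distrib, sum_const, card_range, nsmul_eq_mul, ← mul_sum]
  have hm : (m : ℝ) * q ≤ P := by
    exact_mod_cast (show m * q ≤ P by have := hJ m (by omega); rw [mul_comm q m] at this; omega)
  have h1 : (m : ℝ) * (1 / (P : ℝ)) ≤ 1 / q := by
    rw [mul_one_div, div_le_div_iff₀ hP0 hq0, one_mul]
    exact hm
  have h2 : ∑ j ∈ range m, ((j + 1 : ℕ) : ℝ)⁻¹ ≤ 1 + Real.log P := by
    have h := harmonic_le_one_add_log m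
    rw [harmonic, Rat.cast_sum] at h
    push_cast at h ⊢
    refine h.trans (add_le_add le_rfl ?_)
    rcases Nat.eq_zero_or_pos m with rfl | hm0
    · simp [hlog]
    · exact Real.log_le_log (Nat.cast_pos.2 hm0)
        ((le_mul_of_one_le_right (Nat.cast_nonneg m) (by exact_mod_cast hq)).trans hm)
  have h3 := mul_le_mul_of_nonneg_left h2 (show 0 ≤ 64 * (1 / (q : ℝ)) by positivity)
  have h4 : 0 ≤ 1 / (q : ℝ) * Real.log P := by positivity
  have h5 : 0 ≤ 1 / (q : ℝ) := by positivity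
  rw [show 200 * (1 + Real.log P) / q = 200 * (1 / (q : ℝ)) + 200 * (1 / (q : ℝ) * Real.log P) by
    ring, show (100 : ℝ) / q = 100 * (1 / (q : ℝ)) by ring]
  linarith

/-- The terms `e (a x⁴ / q)`. -/
def fourthChar (q : ℕ) (a : ℤ) (x : ℕ) : ℂ := eAdd ((a : ℝ) * (x : ℝ) ^ 4 / q)

/-- The partial sums less their mean. -/
def partialDev (q : ℕ) (a : ℤ) (n : ℕ) : ℂ :=
  ∑ x ∈ range n, fourthChar q a (x + 1) - (n : ℂ) * densityFactor 4 q a

theorem fourthChar_periodic {q : ℕ} (hq : 0 < q) (a : ℤ) (x : ℕ) :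
    fourthChar q a (x + q) = fourthChar q a x := by
  have : NeZero q := ⟨hq.ne'⟩
  have h1 := eAdd_div_eq_char (q := q) (a * ((x + q : ℕ) : ℤ) ^ 4)
  have h2 := eAdd_div_eq_char (q := q) (a * (x : ℤ) ^ 4)
  push_cast at h1 h2
  rw [fourthChar, fourthChar]
  push_cast
  rw [h1, h2, ZMod.natCast_self, add_zero]

theorem partialDev_periodic {q : ℕ} (hq : 0 < q) (a : ℤ) :
    Function.Periodic (partialDev q a) q := fun n => by
  have hG : ∀ n, ∑ x ∈ range q, fourthChar q a (n + x) = completeSum 4 q a := fun n => by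
    induction n with
    | zero => simp [completeSum, fourthChar]
    | succ n ih =>
      obtain ⟨Q, rfl⟩ : ∃ Q, q = Q + 1 := ⟨q - 1, by omega⟩
      rw [← ih, sum_range_succ, sum_range_succ', add_zero,
        show n + 1 + Q = n + (Q + 1) by ring, fourthChar_periodic hq]
      exact congrArg (· + _) (sum_congr rfl fun x _ => by rw [show n + (x + 1) = n + 1 + x by ring])
  have e : ∑ x ∈ range q, fourthChar q a (n + x + 1) = completeSum 4 q a :=
    (sum_congr rfl fun x _ => by rw [show n + x + 1 = n + 1 + x by ring]).trans (hG (n + 1))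
  rw [partialDev, partialDev, sum_range_add, e, densityFactor]
  have : (q : ℂ) ≠ 0 := Nat.cast_ne_zero.2 hq.ne'
  push_cast
  field_simp
  ring

/-- **Weyl for the incomplete sums.** -/
theorem exists_partialDev_le {ε : ℝ} (hε : 0 < ε) : ∃ C : ℝ, 1 ≤ C ∧ ∀ (q : ℕ) (a : ℤ) (n : ℕ),
    1 ≤ q → IsUnit (a : ZMod q) → ‖partialDev q a n‖ ≤ C * (q : ℝ) ^ (7 / 8 + ε : ℝ) := by
  obtain ⟨C₁, hC₁, hweyl⟩ := exists_weyl (k := 4) (by norm_num) hε
  obtain ⟨C₂, hC₂, hsum⟩ := exists_completeSum_le_of (k := 4) (e := 1 / 4) (by norm_num)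
    (by norm_num) (by norm_num) (by norm_num)
  refine ⟨(3 * C₁ * (1 + 1 / ε) + 1) + C₂, by
      linarith [show 0 ≤ C₁ * (1 + 1 / ε) by positivity],
    fun q a n hq ha => ?_⟩
  have : NeZero q := ⟨by omega⟩
  rw [← (partialDev_periodic hq a).map_mod_nat n]
  obtain ⟨r, hr⟩ : ∃ r, r = n % q := ⟨_, rfl⟩
  have hrq : r < q := hr ▸ Nat.mod_lt n hq
  rw [← hr]
  have hq1 : (1 : ℝ) ≤ q := by exact_mod_cast hq
  have hq0 : (0 : ℝ) < q := by linarith
  rw [add_mul]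
  refine (norm_sub_le _ _).trans (add_le_add ?_ ?_)
  · rcases Nat.eq_zero_or_pos r with h0 | h0
    · rw [h0, range_zero, sum_empty, norm_zero]
      have : 0 ≤ 1 / ε := by positivity
      positivity
    obtain ⟨W, hW⟩ : ∃ W, W = ‖∑ x ∈ range r, fourthChar q a (x + 1)‖ := ⟨_, rfl⟩
    have hWr : W = ‖waringSum 4 r ((a : ℝ) / q)‖ := by
      rw [hW, waringSum, show Icc 1 r = Ico (0 + 1) (r + 1) by ext; simp, ← sum_Ico_add',
        ← range_eq_Ico]
      refine congrArg _ (sum_congr rfl fun x _ => ?_)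
      rw [fourthChar, div_mul_eq_mul_div]
    rw [← hW]
    have h := hweyl r q a ((a : ℝ) / q) h0 ha (by simp)
    rw [← hWr] at h
    norm_num at h
    have hr0 : (0 : ℝ) < r := Nat.cast_pos.2 h0
    have hr1 : (1 : ℝ) ≤ r := by exact_mod_cast h0
    have hrq' : (r : ℝ) ≤ q := Nat.cast_le.2 hrq.le
    have hlog : 1 + Real.log q ≤ (1 + 1 / ε) * (q : ℝ) ^ ε := by
      have h1 := Real.log_le_rpow_div hq0.le hε
      have h2 := Real.one_le_rpow hq1 hε.le
      rw [add_mul, one_mul, one_div_mul_eq_div]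
      linarith
    have hmain : (r : ℝ) ^ (8 + ε) * ((q : ℝ)⁻¹ + (r : ℝ)⁻¹ + q / (r : ℝ) ^ 4) ≤
        3 * (q : ℝ) ^ (7 + ε) := by
      rw [Real.rpow_add hr0, mul_comm ((r : ℝ) ^ (8 : ℝ)), mul_assoc, Real.rpow_add hq0,
        mul_left_comm (3 : ℝ), mul_comm ((q : ℝ) ^ (7 : ℝ)), mul_assoc, mul_left_comm (3 : ℝ)]
      refine mul_le_mul (Real.rpow_le_rpow hr0.le hrq' hε.le) ?_ (by positivity) (by positivity)
      rw [show (8 : ℝ) = ((8 : ℕ) : ℝ) by norm_num, show (7 : ℝ) = ((7 : ℕ) : ℝ) by norm_num,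
        Real.rpow_natCast, Real.rpow_natCast]
      have h8 : (r : ℝ) ^ 8 * (q : ℝ)⁻¹ ≤ (q : ℝ) ^ 7 := by
        rw [← div_eq_mul_inv, div_le_iff₀ hq0, ← pow_succ]
        exact pow_le_pow_left₀ hr0.le hrq' 8
      have h7 : (r : ℝ) ^ 8 * (r : ℝ)⁻¹ ≤ (q : ℝ) ^ 7 := by
        rw [← div_eq_mul_inv, div_le_iff₀ hr0, pow_succ]
        exact mul_le_mul_of_nonneg_right (pow_le_pow_left₀ hr0.le hrq' 7) hr0.le
      have h4 : (r : ℝ) ^ 8 * (q / (r : ℝ) ^ 4) ≤ (q : ℝ) ^ 7 := by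
        rw [show (r : ℝ) ^ 8 * (q / (r : ℝ) ^ 4) = q * (r : ℝ) ^ 4 by field_simp]
        calc (q : ℝ) * (r : ℝ) ^ 4 ≤ q * (q : ℝ) ^ 4 := by gcongr
          _ = (q : ℝ) ^ 5 := by ring
          _ ≤ _ := pow_le_pow_right₀ hq1 (by norm_num)
      linarith
    obtain ⟨B, hB⟩ : ∃ B, B = 3 * C₁ * (1 + 1 / ε) + 1 := ⟨_, rfl⟩
    have hB0 : 0 ≤ 3 * C₁ * (1 + 1 / ε) := by positivity
    rw [← hB]
    refine le_of_pow_le_pow_left₀ (n := 8) (by norm_num) (by rw [hB]; positivity) ?_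
    calc W ^ 8 ≤ C₁ * (r : ℝ) ^ (8 + ε) * ((q : ℝ)⁻¹ + (r : ℝ)⁻¹ + q / (r : ℝ) ^ 4) *
          (1 + Real.log q) := h
      _ ≤ C₁ * (3 * (q : ℝ) ^ (7 + ε)) * ((1 + 1 / ε) * (q : ℝ) ^ ε) := by
          rw [mul_assoc C₁]
          exact mul_le_mul (mul_le_mul_of_nonneg_left hmain hC₁.le) hlog
            (by linarith [Real.log_nonneg hq1]) (by positivity)
      _ = 3 * C₁ * (1 + 1 / ε) * (q : ℝ) ^ (7 + 2 * ε) := by
          rw [show 7 + 2 * ε = (7 + ε) + ε by ring, Real.rpow_add hq0 (7 + ε)]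
          ring
      _ ≤ B ^ 8 * ((q : ℝ) ^ (7 / 8 + ε : ℝ)) ^ 8 := by
          refine mul_le_mul (le_trans (by linarith) (le_self_pow₀ (by linarith) (by norm_num))) ?_
            (by positivity) (by positivity)
          rw [← Real.rpow_natCast (_ ^ _) 8, ← Real.rpow_mul hq0.le]
          refine Real.rpow_le_rpow_of_exponent_le hq1 ?_
          push_cast
          linarith
      _ = _ := (mul_pow _ _ _).symm
  · rw [norm_mul, Complex.norm_natCast, densityFactor, norm_div, Complex.norm_natCast]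
    refine (mul_le_mul (Nat.cast_le.2 hrq.le) (div_le_div_of_nonneg_right (hsum q a hq ha) hq0.le)
      (by positivity) hq0.le).trans ?_
    rw [mul_div_cancel₀ _ hq0.ne']
    exact mul_le_mul_of_nonneg_left (Real.rpow_le_rpow_of_exponent_le hq1 (by linarith))
      (by linarith)

theorem waringSum_neg (k P : ℕ) (x : ℝ) : waringSum k P (-x) = conj (waringSum k P x) := by
  simp only [waringSum, map_sum, conj_eAdd, neg_mul]

/-- **Near a fraction with denominator at most `P`.** -/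
theorem exists_near_le {ε : ℝ} (hε : 0 < ε) : ∃ C : ℝ, 0 < C ∧ ∀ (P q : ℕ) (a : ℤ) (β : ℝ),
    1 ≤ q → q ≤ P → IsUnit (a : ZMod q) → 64 * (q : ℝ) * |β| * (P : ℝ) ^ 3 ≤ 1 →
      ‖waringSum 4 P ((a : ℝ) / q + β)‖ ≤
        C * ((P : ℝ) * ((q : ℝ) * (1 + (P : ℝ) ^ 4 * |β|)) ^ (-(1 / 4) : ℝ) +
          (P : ℝ) ^ (7 / 8 + 2 * ε : ℝ)) := by
  obtain ⟨C₁, hC₁, hdev⟩ := exists_partialDev_le hε
  obtain ⟨C₂, hC₂, hden⟩ := exists_completeSum_le_of (k := 4) (e := 1 / 4) (by norm_num)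
    (by norm_num) (by norm_num) (by norm_num)
  refine ⟨8 * C₂ + C₁ * (201 * (1 + 1 / ε)), by positivity, fun P q a β hq hqP ha hsmall => ?_⟩
  -- it is enough to treat `β ≥ 0`
  suffices key : ∀ (a : ℤ) (β : ℝ), 0 ≤ β → IsUnit (a : ZMod q) →
      64 * (q : ℝ) * β * (P : ℝ) ^ 3 ≤ 1 → ‖waringSum 4 P ((a : ℝ) / q + β)‖ ≤
        (8 * C₂ + C₁ * (201 * (1 + 1 / ε))) * ((P : ℝ) *
          ((q : ℝ) * (1 + (P : ℝ) ^ 4 * β)) ^ (-(1 / 4) : ℝ) +
            (P : ℝ) ^ (7 / 8 + 2 * ε : ℝ)) by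
    rcases le_or_gt 0 β with hβ | hβ
    · rw [abs_of_nonneg hβ] at hsmall ⊢
      exact key a β hβ ha hsmall
    · rw [abs_of_neg hβ] at hsmall ⊢
      have h := key (-a) (-β) (by linarith) (by simpa using ha.neg) hsmall
      rwa [show ((-a : ℤ) : ℝ) / q + -β = -((a : ℝ) / q + β) by push_cast; ring, waringSum_neg,
        Complex.norm_conj] at h
  clear hsmall ha β a
  intro a β hβ ha hsmall
  have hq0 : (0 : ℝ) < q := Nat.cast_pos.2 hq
  have hq1 : (1 : ℝ) ≤ q := by exact_mod_cast hq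
  have hqP' : (q : ℝ) ≤ P := Nat.cast_le.2 hqP
  have hP0 : (0 : ℝ) < P := by linarith
  obtain ⟨φ, hφ⟩ : ∃ φ : ℕ → ℂ, φ = fun n : ℕ => eAdd (β * (n : ℝ) ^ 4) := ⟨_, rfl⟩
  obtain ⟨μ, hμ⟩ : ∃ μ, μ = densityFactor 4 q a := ⟨_, rfl⟩
  obtain ⟨D, hD⟩ : ∃ D, D = partialDev q a := ⟨_, rfl⟩
  have habel : ∀ m : ℕ, ∑ x ∈ range m, fourthChar q a (x + 1) * φ (x + 1) =
      μ * ∑ x ∈ range m, φ (x + 1) + D m * φ (m + 1) -
        ∑ x ∈ range m, D (x + 1) * (φ (x + 1 + 1) - φ (x + 1)) := fun m => by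
    induction m with
    | zero => simp [hD, partialDev]
    | succ m ih =>
      rw [sum_range_succ, ih, sum_range_succ, sum_range_succ]
      have e : D (m + 1) = D m + fourthChar q a (m + 1) - μ := by
        rw [hD, hμ, partialDev, partialDev, sum_range_succ]
        push_cast
        ring
      rw [e]
      ring
  have hW : waringSum 4 P ((a : ℝ) / q + β) =
      ∑ x ∈ range P, fourthChar q a (x + 1) * φ (x + 1) := by
    rw [waringSum, show Icc 1 P = Ico (0 + 1) (P + 1) by ext; simp, ← sum_Ico_add',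
      ← range_eq_Ico]
    refine sum_congr rfl fun x _ => ?_
    rw [fourthChar, hφ, ← eAdd_add]
    ring_nf
  rw [hW, habel]
  have hμle : ‖μ‖ ≤ C₂ * (q : ℝ) ^ (-(1 / 4) : ℝ) := by
    rw [hμ, densityFactor, norm_div, Complex.norm_natCast, div_le_iff₀ hq0, mul_assoc,
      ← Real.rpow_add_one hq0.ne', show (-(1 / 4) : ℝ) + 1 = 1 - 1 / 4 by norm_num]
    exact hden q a hq ha
  obtain ⟨Q, hQ⟩ : ∃ Q, Q = (q : ℝ) * (1 + (P : ℝ) ^ 4 * β) := ⟨_, rfl⟩
  rw [← hQ]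
  have hQ0 : 0 < Q := hQ ▸ by positivity
  have hmain : ‖μ * ∑ x ∈ range P, φ (x + 1)‖ ≤
      8 * C₂ * ((P : ℝ) * Q ^ (-(1 / 4) : ℝ)) := by
    have hS : ‖∑ x ∈ range P, φ (x + 1)‖ ≤
        8 * ((P : ℝ) * (1 + (P : ℝ) ^ 4 * β) ^ (-(1 / 4) : ℝ)) := by
      rcases le_or_gt ((P : ℝ) ^ 4 * β) 1 with h | h
      · refine (norm_sum_le _ _).trans ?_
        simp only [hφ, norm_eAdd, sum_const, card_range, nsmul_eq_mul, mul_one]
        have h2 : (1 : ℝ) / 2 ≤ (1 + (P : ℝ) ^ 4 * β) ^ (-(1 / 4) : ℝ) := by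
          refine le_trans ?_ (Real.rpow_le_rpow_of_nonpos (by positivity)
            (show 1 + (P : ℝ) ^ 4 * β ≤ 2
            by linarith) (by norm_num))
          rw [Real.rpow_neg two_pos.le, ← one_div]
          exact one_div_le_one_div_of_le (by positivity)
            (Real.rpow_le_self_of_one_le one_le_two (by norm_num))
        have := mul_le_mul_of_nonneg_left h2 hP0.le
        linarith
      · have hβ0 : 0 < β := pos_of_mul_pos_right (by linarith : 0 < (P : ℝ) ^ 4 * β) (by positivity)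
        have h1 := (norm_sum_fourth_le hβ0 (hq.trans hqP) (le_trans (by
          have := mul_le_mul_of_nonneg_left hq1 (show 0 ≤ 64 * β * (P : ℝ) ^ 3 by positivity)
          linarith) hsmall))
        simp only [hφ]
        refine h1.trans ((mul_le_mul_of_nonneg_left (min_le_right _ _) (by norm_num)).trans ?_)
        have e : (P : ℝ) = ((P : ℝ) ^ 4) ^ (1 / 4 : ℝ) := by
          rw [← Real.rpow_natCast, ← Real.rpow_mul hP0.le]
          norm_num
        have h2 : β ^ (-(1 / 4) : ℝ) ≤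
            2 * ((P : ℝ) * (1 + (P : ℝ) ^ 4 * β) ^ (-(1 / 4) : ℝ)) := by
          nth_rewrite 1 [e]
          rw [Real.rpow_neg hβ0.le, Real.rpow_neg (by positivity), ← mul_assoc, ← div_eq_mul_inv,
            inv_eq_one_div, div_le_div_iff₀ (by positivity) (by positivity), one_mul, mul_assoc,
            ← Real.mul_rpow (by positivity) hβ0.le]
          refine (Real.rpow_le_rpow (by positivity) (show 1 + (P : ℝ) ^ 4 * β ≤
            2 * ((P : ℝ) ^ 4 * β) by linarith) (by norm_num)).trans ?_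
          rw [Real.mul_rpow two_pos.le (by positivity)]
          exact mul_le_mul_of_nonneg_right (Real.rpow_le_self_of_one_le one_le_two (by norm_num))
            (by positivity)
        linarith
    rw [norm_mul]
    refine (mul_le_mul hμle hS (norm_nonneg _) (by positivity)).trans (le_of_eq ?_)
    rw [hQ, Real.mul_rpow hq0.le (by positivity)]
    ring
  have hdevP : ∀ n, ‖D n‖ ≤ C₁ * (q : ℝ) ^ (7 / 8 + ε : ℝ) := fun n => hD ▸ hdev q a n hq ha
  obtain ⟨X, hX⟩ : ∃ X, X = C₁ * (q : ℝ) ^ (7 / 8 + ε : ℝ) := ⟨_, rfl⟩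
  simp only [← hX] at hdevP
  have hX0 : 0 ≤ X := hX ▸ by positivity
  have hX1 : X ≤ C₁ * (P : ℝ) ^ (7 / 8 + ε : ℝ) :=
    hX ▸ mul_le_mul_of_nonneg_left (Real.rpow_le_rpow hq0.le hqP' (by linarith)) (by linarith)
  have hsum : ‖∑ x ∈ range P, D (x + 1) * (φ (x + 1 + 1) - φ (x + 1))‖ ≤
      X * (200 * (1 + Real.log P)) := by
    rcases eq_or_lt_of_le hβ with hβ0 | hβ0
    · simp only [hφ, ← hβ0, zero_mul, sub_self, mul_zero, sum_const_zero, norm_zero]
      exact mul_nonneg hX0 (by linarith [Real.log_natCast_nonneg P])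
    rw [← sum_fiberwise_of_maps_to (g := fun x => x % q) (t := range q)
      fun x _ => mem_range.2 (Nat.mod_lt x hq)]
    refine (norm_sum_le _ _).trans ((sum_le_card_nsmul _ _
      (X * (200 * (1 + Real.log P) / q)) fun ρ hρ => ?_).trans (le_of_eq ?_))
    · rw [mem_range] at hρ
      have hDmod : ∀ x, x % q = ρ → D (x + 1) = D (ρ + 1) := fun x hx => by
        rw [hD, ← (partialDev_periodic hq a).map_mod_nat (x + 1),
          ← (partialDev_periodic hq a).map_mod_nat (ρ + 1),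
          show (x + 1) % q = (ρ + 1) % q by rw [← hx, Nat.mod_add_mod]]
      rw [sum_congr rfl fun x hx => by rw [hDmod x (mem_filter.1 hx).2], ← mul_sum, norm_mul]
      refine mul_le_mul (hdevP _) ?_ (norm_nonneg _) hX0
      obtain ⟨J, hJ⟩ : ∃ J, J = (P - (ρ + 1)) / q + 1 := ⟨_, rfl⟩
      have hJle : ∀ j < J, q * j + (ρ + 1) ≤ P := fun j hj => by
        have h1 : q * j ≤ P - (ρ + 1) := by
          rw [mul_comm]
          exact (Nat.le_div_iff_mul_le hq).1 (by omega)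
        omega
      refine le_of_eq_of_le (congrArg _ ?_) (norm_residue_diff_le hβ0 (r := ρ + 1) hq hqP
        (by omega) hsmall hJle)
      rw [hφ]
      refine sum_nbij' (fun x => x / q) (fun j => q * j + ρ) (fun x hx => ?_) (fun j hj => ?_)
        (fun x hx => ?_) (fun j _ => ?_) fun x hx => ?_
      · obtain ⟨h1, h2⟩ := mem_filter.1 hx
        rw [mem_range] at h1 ⊢
        have := Nat.div_add_mod x q
        rw [hJ, Nat.lt_succ_iff, Nat.le_div_iff_mul_le hq, mul_comm]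
        omega
      · rw [mem_filter, mem_range]
        have := hJle j (mem_range.1 hj)
        exact ⟨by omega, by rw [Nat.mul_add_mod, Nat.mod_eq_of_lt hρ]⟩
      · have := Nat.div_add_mod x q
        have := (mem_filter.1 hx).2
        omega
      · rw [Nat.mul_add_div hq, Nat.div_eq_of_lt hρ, add_zero]
      · have := Nat.div_add_mod x q
        have := (mem_filter.1 hx).2
        have e : x + 1 = q * (x / q) + (ρ + 1) := by omega
        simp only [e]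
    · rw [card_range, nsmul_eq_mul]
      field_simp
  have hlog : 1 + Real.log P ≤ (1 + 1 / ε) * (P : ℝ) ^ ε := by
    have h1 := Real.log_le_rpow_div hP0.le hε
    have h2 := Real.one_le_rpow (hq1.trans hqP') hε.le
    rw [add_mul, one_mul, one_div_mul_eq_div]
    linarith
  have hPε : (1 : ℝ) ≤ (1 + 1 / ε) * (P : ℝ) ^ ε :=
    le_trans (le_add_of_nonneg_right (Real.log_natCast_nonneg P)) hlog
  refine (norm_sub_le _ _).trans ((add_le_add ((norm_add_le _ _).trans (add_le_add hmain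
    (show ‖D P * φ (P + 1)‖ ≤ X by rw [norm_mul, hφ, norm_eAdd, mul_one]; exact hdevP P)))
      hsum).trans ?_)
  have h1 : X + X * (200 * (1 + Real.log P)) ≤
      C₁ * (201 * (1 + 1 / ε)) * (P : ℝ) ^ (7 / 8 + 2 * ε : ℝ) := by
    calc X + X * (200 * (1 + Real.log P)) ≤ X * (201 * ((1 + 1 / ε) * (P : ℝ) ^ ε)) := by
          have := mul_le_mul_of_nonneg_left hlog hX0
          have := mul_le_mul_of_nonneg_left hPε hX0
          linarith
      _ ≤ C₁ * (P : ℝ) ^ (7 / 8 + ε : ℝ) * (201 * ((1 + 1 / ε) * (P : ℝ) ^ ε)) :=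
          mul_le_mul_of_nonneg_right hX1 (by positivity)
      _ = _ := by
          rw [show (7 / 8 + 2 * ε : ℝ) = (7 / 8 + ε) + ε by ring, Real.rpow_add hP0 (7 / 8 + ε)]
          ring
  have h2 : 0 ≤ C₁ * (201 * (1 + 1 / ε)) * ((P : ℝ) * Q ^ (-(1 / 4) : ℝ)) := by positivity
  have h3 : 0 ≤ 8 * C₂ * (P : ℝ) ^ (7 / 8 + 2 * ε : ℝ) := by positivity
  linarith

/-- **The minor arcs**: otherwise `q (1 + P⁴ |β|) ≤ √P`. -/
theorem exists_minor_le {ε : ℝ} (hε : 0 < ε) : ∃ C : ℝ, 0 < C ∧ ∀ (P : ℕ) (α : ℝ), 1 ≤ P →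
    ‖waringSum 4 P α‖ ≤ C * (P : ℝ) ^ (7 / 8 + ε : ℝ) ∨
      ∃ (q : ℕ) (a : ℤ), 1 ≤ q ∧ IsUnit (a : ZMod q) ∧
        (q : ℝ) * (1 + (P : ℝ) ^ 4 * |α - a / q|) ≤ √(P : ℝ) := by
  obtain ⟨C₁, hC₁, hnear⟩ := exists_near_le (show 0 < ε / 2 by positivity)
  obtain ⟨C₂, hC₂, hweyl⟩ := exists_weyl (k := 4) (by norm_num) hε
  obtain ⟨B, hB⟩ : ∃ B, B = 1 + C₂ * (66 * (65 + 3 * (1 / ε))) := ⟨_, rfl⟩
  refine ⟨2 * C₁ + B, by rw [hB]; positivity, fun P α hP => ?_⟩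
  have hP1 : (1 : ℝ) ≤ P := by exact_mod_cast hP
  have hP0 : (0 : ℝ) < P := by linarith
  obtain ⟨ρ, hρ, hden⟩ := Real.exists_rat_abs_sub_le_and_den_le α
    (Nat.mul_pos (by norm_num : 0 < 64) (Nat.pow_pos (n := 3) hP))
  obtain ⟨q, hq⟩ : ∃ q, q = ρ.den := ⟨_, rfl⟩
  have : NeZero q := ⟨hq ▸ ρ.den_nz⟩
  have hunit : IsUnit (ρ.num : ZMod q) := by
    rw [ZMod.coe_int_isUnit_iff_isCoprime, Int.isCoprime_iff_nat_coprime, Int.natAbs_natCast, hq]
    exact ρ.reduced.symm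
  rw [show (ρ : ℝ) = (ρ.num : ℝ) / q by rw [hq]; exact (Rat.cast_def ρ), ← hq] at hρ
  rw [← hq] at hden
  have hq0 : (0 : ℝ) < q := Nat.cast_pos.2 (NeZero.pos q)
  have hden' : (q : ℝ) ≤ 64 * (P : ℝ) ^ 3 := by exact_mod_cast hden
  push_cast at hρ
  have hab : |α - (ρ.num : ℝ) / q| ≤ 1 / (64 * (P : ℝ) ^ 3 * q) :=
    hρ.trans (one_div_le_one_div_of_le (by positivity) (mul_le_mul_of_nonneg_right (by linarith)
      hq0.le))
  have hB0 : 0 ≤ B := by rw [hB]; positivity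
  rcases le_or_gt q P with hqP | hqP
  · obtain ⟨β, hβ⟩ : ∃ β, β = α - (ρ.num : ℝ) / q := ⟨_, rfl⟩
    rw [← hβ] at hab
    obtain ⟨Q, hQ⟩ : ∃ Q, Q = (q : ℝ) * (1 + (P : ℝ) ^ 4 * |β|) := ⟨_, rfl⟩
    rcases le_or_gt Q (√(P : ℝ)) with h | h
    · exact Or.inr ⟨q, ρ.num, NeZero.pos q, hunit, by rw [← hβ, ← hQ]; exact h⟩
    left
    have hs : 64 * (q : ℝ) * |β| * (P : ℝ) ^ 3 ≤ 1 := by
      rw [le_div_iff₀ (by positivity)] at hab
      linarith
    have h1 := hnear P q ρ.num β (NeZero.pos q) hqP hunit hs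
    rw [hβ, add_sub_cancel, ← hβ, ← hQ, show 2 * (ε / 2) = ε by ring] at h1
    refine h1.trans ?_
    have h2 : (P : ℝ) * Q ^ (-(1 / 4) : ℝ) ≤ (P : ℝ) ^ (7 / 8 + ε : ℝ) := by
      refine (mul_le_mul_of_nonneg_left (Real.rpow_le_rpow_of_nonpos (by positivity) h.le
        (by norm_num)) hP0.le).trans ?_
      rw [Real.sqrt_eq_rpow, ← Real.rpow_mul hP0.le]
      nth_rewrite 1 [← Real.rpow_one (P : ℝ)]
      rw [← Real.rpow_add hP0]
      exact Real.rpow_le_rpow_of_exponent_le hP1 (by linarith)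
    have h3 := mul_le_mul_of_nonneg_left h2 hC₁.le
    have h4 : 0 ≤ B * (P : ℝ) ^ (7 / 8 + ε : ℝ) := by positivity
    linarith
  · left
    have hqP' : (P : ℝ) ≤ q := Nat.cast_le.2 hqP.le
    have h := hweyl P q ρ.num α hP hunit (hab.trans (one_div_le_one_div_of_le (by positivity) (by
      rw [sq]; exact mul_le_mul_of_nonneg_right hden' hq0.le)))
    norm_num at h
    have hfac : (q : ℝ)⁻¹ + (P : ℝ)⁻¹ + q / (P : ℝ) ^ 4 ≤ 66 * (P : ℝ)⁻¹ := by
      have h1 : (q : ℝ)⁻¹ ≤ (P : ℝ)⁻¹ := inv_anti₀ hP0 hqP'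
      have h2 : (q : ℝ) / (P : ℝ) ^ 4 ≤ 64 * (P : ℝ)⁻¹ := by
        refine (div_le_div_of_nonneg_right hden' (by positivity)).trans (le_of_eq ?_)
        field_simp
      linarith
    have hlog : 1 + Real.log q ≤ (65 + 3 * (1 / ε)) * (P : ℝ) ^ ε := by
      have h1 := Real.log_le_rpow_div hP0.le hε
      have h2 := Real.one_le_rpow hP1 hε.le
      have h3 : Real.log q ≤ Real.log (64 * (P : ℝ) ^ 3) := Real.log_le_log hq0 hden'
      rw [Real.log_mul (by norm_num) (by positivity), Real.log_pow] at h3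
      have h4 : Real.log 64 ≤ 64 := Real.log_le_self (by norm_num)
      rw [div_eq_mul_one_div, mul_comm] at h1
      push_cast at h3
      linarith
    refine le_trans (le_of_pow_le_pow_left₀ (n := 8) (by norm_num) (by positivity)
      (?_ : _ ≤ (B * (P : ℝ) ^ (7 / 8 + ε : ℝ)) ^ 8))
      (mul_le_mul_of_nonneg_right (by linarith) (by positivity))
    calc ‖waringSum 4 P α‖ ^ 8 ≤ C₂ * (P : ℝ) ^ (8 + ε) *
          ((q : ℝ)⁻¹ + (P : ℝ)⁻¹ + q / (P : ℝ) ^ 4) * (1 + Real.log q) := h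
      _ ≤ C₂ * (P : ℝ) ^ (8 + ε) * (66 * (P : ℝ)⁻¹) * ((65 + 3 * (1 / ε)) * (P : ℝ) ^ ε) :=
          mul_le_mul (mul_le_mul_of_nonneg_left hfac (by positivity)) hlog
            (by linarith [Real.log_natCast_nonneg q]) (by positivity)
      _ = C₂ * (66 * (65 + 3 * (1 / ε))) * (P : ℝ) ^ (7 + 2 * ε) := by
          rw [show 7 + 2 * ε = (8 + ε) + ε + -1 by ring, Real.rpow_add hP0 (8 + ε + ε),
            Real.rpow_add hP0 (8 + ε), Real.rpow_neg_one]
          ring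
      _ ≤ B ^ 8 * ((P : ℝ) ^ (7 / 8 + ε : ℝ)) ^ 8 := by
          have h1 : 0 ≤ C₂ * (66 * (65 + 3 * (1 / ε))) := by positivity
          refine mul_le_mul (le_trans (by rw [hB]; linarith)
            (le_self_pow₀ (by rw [hB]; linarith) (by norm_num))) ?_ (by positivity) (by positivity)
          rw [← Real.rpow_natCast (_ ^ _) 8, ← Real.rpow_mul hP0.le]
          refine Real.rpow_le_rpow_of_exponent_le hP1 ?_
          push_cast
          linarith
      _ = _ := (mul_pow _ _ _).symm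

end FA.BiquadratesSixteen
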