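import Fermat.Agent.BiquadratesSixteen.MeanValue
import Fermat.Agent.BiquadratesSixteen.Weyl
import Fermat.Agent.BiquadratesSixteen.Major
import Fermat.Agent.WaringBounds.Main

/-!
# Davenport's theorem: sixteen biquadrates

`n ≡ 1, …, 14` modulo `16`, large, is a sum of fourteen fourth powers: four up to `n ^ (1/4)`
and two sums of five in diminishing ranges, the parities of the eight small variables being chosen so that
the six large ones face a residue `1, …, 6`.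
-/

set_option autoImplicit false

noncomputable section

namespace FA.BiquadratesSixteen

open Finset Filter Topology FA.ThreePrimes FA.WaringAsymptotic
open scoped Real ComplexConjugate

/-- **Parseval on the points `h / M`.** -/
theorem sum_norm_sq_energy {α : Type*} (S : Finset α) (u : α → ℕ) {M : ℕ} (hM : 0 < M)
    (hu : ∀ a ∈ S, u a < M) :
    ∑ h ∈ range M, ‖∑ a ∈ S, eAdd ((u a : ℝ) * ((h : ℝ) / M))‖ ^ 2 =
      (M : ℝ) * (energy S fun a => (u a : ℤ)) := by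
  apply Complex.ofReal_injective
  rw [Complex.ofReal_sum]
  have e : ∀ h : ℕ, ((‖∑ a ∈ S, eAdd ((u a : ℝ) * ((h : ℝ) / M))‖ ^ 2 : ℝ) : ℂ) =
      ∑ z ∈ S ×ˢ S, eAdd ((((u z.1 : ℤ) - u z.2 : ℤ) : ℝ) * h / M) := fun h => by
    rw [Complex.ofReal_pow, ← Complex.mul_conj', map_sum, sum_mul_sum, sum_product]
    refine sum_congr rfl fun a _ => sum_congr rfl fun b _ => ?_
    rw [conj_eAdd, ← eAdd_add]
    push_cast
    ring_nf
  rw [sum_congr rfl fun h _ => e h, sum_comm, sum_congr rfl fun z _ => sum_eAdd_grid hM _,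
    ← sum_filter, sum_const, nsmul_eq_mul, Complex.ofReal_mul, Complex.ofReal_natCast,
    Complex.ofReal_natCast, mul_comm, energy, cross]
  refine congrArg (fun t : ℕ => (M : ℂ) * t) (congrArg card (filter_congr fun z hz => ?_))
  rw [mem_product] at hz
  have := hu _ hz.1
  have := hu _ hz.2
  constructor
  · intro hd
    have := Int.eq_zero_of_dvd_of_natAbs_lt_natAbs hd (by omega)
    omega
  · intro h
    simp only [Nat.cast_inj] at h
    rw [h, sub_self]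
    exact dvd_zero _

/-- The numbers of a range with a given parity. -/
def parityRange (P b : ℕ) : Finset ℕ := (dyadicRange P).filter fun x => x % 2 = b % 2

theorem le_three_mul_card_parityRange {P : ℕ} (hP : 2 ≤ P) (b : ℕ) :
    P ≤ 3 * (parityRange P b).card := by
  have h : P / 2 ≤ (parityRange P b).card := by
    refine le_of_eq_of_le (card_range (P / 2)).symm (card_le_card_of_injOn
      (fun j => P + 1 + 2 * j + (P + 1 + b) % 2) (fun j hj => ?_) fun j _ j' _ h => ?_)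
    · rw [mem_coe, mem_range] at hj
      rw [parityRange, mem_coe, mem_filter, dyadicRange, mem_Ioc]
      dsimp only
      omega
    · simp only at h
      omega
  omega

/-- The small variables with given parities. -/
def paritySmall (T : ℕ) (b : ℕ × ℕ × ℕ × ℕ) : Finset (ℕ × ℕ × ℕ × ℕ) :=
  parityRange (T ^ 288) b.1 ×ˢ (parityRange (T ^ 234) b.2.1 ×ˢ
    (parityRange (T ^ 195) b.2.2.1 ×ˢ parityRange (T ^ 195) b.2.2.2))

theorem paritySmall_subset (T : ℕ) (b : ℕ × ℕ × ℕ × ℕ) : paritySmall T b ⊆ smallBox T :=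
  product_subset_product (filter_subset _ _) (product_subset_product (filter_subset _ _)
    (product_subset_product (filter_subset _ _) (filter_subset _ _)))

theorem le_card_paritySmall {T : ℕ} (hT : 2 ≤ T) (b : ℕ × ℕ × ℕ × ℕ) :
    T ^ 912 ≤ 81 * (paritySmall T b).card := by
  have h : ∀ e, 1 ≤ e → 2 ≤ T ^ e := fun e he => le_trans hT (Nat.le_self_pow (by omega) T)
  have h1 := le_three_mul_card_parityRange (h 288 (by norm_num)) b.1
  have h2 := le_three_mul_card_parityRange (h 234 (by norm_num)) b.2.1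
  have h3 := le_three_mul_card_parityRange (h 195 (by norm_num)) b.2.2.1
  have h4 := le_three_mul_card_parityRange (h 195 (by norm_num)) b.2.2.2
  rw [paritySmall, card_product, card_product, card_product]
  refine le_trans (le_of_eq ?_)
    ((Nat.mul_le_mul h1 (Nat.mul_le_mul h2 (Nat.mul_le_mul h3 h4))).trans (le_of_eq (by ring)))
  rw [← pow_add, ← pow_add, ← pow_add]

theorem pow_four_mod (x : ℕ) : x ^ 4 % 16 = x % 2 := by
  have h := Nat.mod_lt x (show 16 > 0 by norm_num)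
  have h2 : x % 2 = x % 16 % 2 := by omega
  rw [Nat.pow_mod, h2]
  obtain ⟨y, hy⟩ : ∃ y, y = x % 16 := ⟨_, rfl⟩
  rw [← hy] at h ⊢
  interval_cases y <;> rfl

theorem smallVal_mod {T : ℕ} {b : ℕ × ℕ × ℕ × ℕ} {v : ℕ × ℕ × ℕ × ℕ} (hv : v ∈ paritySmall T b) :
    smallVal v % 16 = b.1 % 2 + (b.2.1 % 2 + (b.2.2.1 % 2 + b.2.2.2 % 2)) := by
  simp only [paritySmall, mem_product, parityRange, mem_filter] at hv
  obtain ⟨⟨-, h1⟩, ⟨-, h2⟩, ⟨-, h3⟩, -, h4⟩ := hv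
  have := pow_four_mod v.1
  have := pow_four_mod v.2.1
  have := pow_four_mod v.2.2.1
  have := pow_four_mod v.2.2.2
  unfold smallVal
  omega

theorem smallVal_le {T : ℕ} (hT : 1 ≤ T) {v : ℕ × ℕ × ℕ × ℕ} (hv : v ∈ smallBox T) :
    smallVal v ≤ 64 * T ^ 1152 := by
  rw [smallBox, mem_product, mem_product, mem_product] at hv
  have h1 := pow_four_le hT (show 4 * 288 ≤ 1152 by norm_num) hv.1
  have h2 := pow_four_le hT (show 4 * 234 ≤ 1152 by norm_num) hv.2.1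
  have h3 := pow_four_le hT (show 4 * 195 ≤ 1152 by norm_num) hv.2.2.1
  have h4 := pow_four_le hT (show 4 * 195 ≤ 1152 by norm_num) hv.2.2.2
  unfold smallVal
  omega

/-- The sum of the small variables. -/
def smallSum (A : Finset (ℕ × ℕ × ℕ × ℕ)) (x : ℝ) : ℂ := ∑ v ∈ A, eAdd ((smallVal v : ℝ) * x)

theorem shortSum_eq (P : ℕ) (x : ℝ) :
    shortSum P x = ∑ i ∈ dyadicRange P, eAdd (((i ^ 4 : ℕ) : ℝ) * x) := by
  rw [shortSum, waringSum, waringSum, show Icc 1 (2 * P) = Ioc 0 (2 * P) by ext; simp; omega,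
    show Icc 1 P = Ioc 0 P by ext; simp; omega,
    ← sum_Ioc_consecutive _ (Nat.zero_le P) (Nat.le_mul_of_pos_left P two_pos),
    add_sub_cancel_left, dyadicRange]
  refine sum_congr rfl fun i _ => ?_
  push_cast
  ring_nf

theorem shortSum_mul_smallSum (P : ℕ) (A : Finset (ℕ × ℕ × ℕ × ℕ)) (x : ℝ) :
    shortSum P x * smallSum A x =
      ∑ w ∈ dyadicRange P ×ˢ A, eAdd ((nestedVal w : ℝ) * x) := by
  rw [shortSum_eq, smallSum, sum_mul_sum, sum_product]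
  refine sum_congr rfl fun i _ => sum_congr rfl fun v _ => ?_
  rw [← eAdd_add, nestedVal]
  push_cast
  ring_nf

/-- The tuples to be counted. -/
def fourteenSet (L T n : ℕ) (A B : Finset (ℕ × ℕ × ℕ × ℕ)) :
    Finset ((Fin 4 → ℕ) × (ℕ × ℕ × ℕ × ℕ × ℕ) × (ℕ × ℕ × ℕ × ℕ × ℕ)) :=
  ((Fintype.piFinset fun _ : Fin 4 => Icc 1 L) ×ˢ
    ((dyadicRange (T ^ 364) ×ˢ A) ×ˢ (dyadicRange (T ^ 364) ×ˢ B))).filter
      fun y => (∑ i, y.1 i ^ 4) + nestedVal y.2.1 + nestedVal y.2.2 = n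

theorem nestedVal_le {T : ℕ} (hT : 1 ≤ T) {A : Finset (ℕ × ℕ × ℕ × ℕ)} (hA : A ⊆ smallBox T)
    {w : ℕ × ℕ × ℕ × ℕ × ℕ} (hw : w ∈ dyadicRange (T ^ 364) ×ˢ A) :
    nestedVal w ≤ 80 * T ^ 1456 := by
  rw [mem_product] at hw
  have h1 := pow_four_le hT (show 4 * 364 ≤ 1456 by norm_num) hw.1
  have h2 := (smallVal_le hT (hA hw.2)).trans
    (Nat.mul_le_mul_left 64 (Nat.pow_le_pow_right hT (show 1152 ≤ 1456 by norm_num)))
  unfold nestedVal
  omega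

/-- The count as a sum over the grid. -/
theorem grid_fourteen {n T : ℕ} (hT : 1 ≤ T) (hn : 256 * T ^ 1456 ≤ n)
    {A B : Finset (ℕ × ℕ × ℕ × ℕ)} (hA : A ⊆ smallBox T) (hB : B ⊆ smallBox T) :
    ∑ h ∈ range (16 * n),
      waringSum 4 (rootFloor 4 n) ((h : ℝ) / (16 * n : ℕ)) ^ 4 *
        ((shortSum (T ^ 364) ((h : ℝ) / (16 * n : ℕ)) * smallSum A ((h : ℝ) / (16 * n : ℕ))) *
          (shortSum (T ^ 364) ((h : ℝ) / (16 * n : ℕ)) * smallSum B ((h : ℝ) / (16 * n : ℕ)))) *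
        eAdd (-((n : ℝ) * ((h : ℝ) / (16 * n : ℕ)))) =
      ((16 * n : ℕ) : ℂ) * (fourteenSet (rootFloor 4 n) T n A B).card := by
  have hn1 : 1 ≤ n := by have := Nat.one_le_pow 1456 T hT; omega
  obtain ⟨-, hLn, -⟩ := rootFloor_spec (k := 4) (N := n) (by norm_num) hn1
  obtain ⟨M, hM⟩ : ∃ M, M = 16 * n := ⟨_, rfl⟩
  obtain ⟨L, hL⟩ : ∃ L, L = rootFloor 4 n := ⟨_, rfl⟩
  rw [← hL] at hLn ⊢
  rw [← hM]
  have e : ∀ x : ℝ, waringSum 4 L x ^ 4 * ((shortSum (T ^ 364) x * smallSum A x) *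
      (shortSum (T ^ 364) x * smallSum B x)) =
      ∑ y ∈ (Fintype.piFinset fun _ : Fin 4 => Icc 1 L) ×ˢ
        ((dyadicRange (T ^ 364) ×ˢ A) ×ˢ (dyadicRange (T ^ 364) ×ˢ B)),
        eAdd ((((∑ i, y.1 i ^ 4) + nestedVal y.2.1 + nestedVal y.2.2 : ℕ) : ℝ) * x) := fun x => by
    have hw : waringSum 4 L x = ∑ i ∈ Icc 1 L, (1 : ℂ) * eAdd ((i ^ 4 : ℕ) * x) := by
      rw [waringSum]
      refine sum_congr rfl fun i _ => ?_
      rw [one_mul]
      push_cast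
      ring_nf
    rw [hw, sum_eAdd_pow, shortSum_mul_smallSum, shortSum_mul_smallSum, sum_mul_sum,
      ← sum_product', sum_mul_sum, ← sum_product']
    refine sum_congr rfl fun y _ => ?_
    simp only [prod_const_one, one_mul]
    rw [← eAdd_add, ← eAdd_add]
    push_cast
    ring_nf
  rw [sum_congr rfl fun h _ => by rw [e, sum_mul], sum_comm, fourteenSet, card_filter,
    Nat.cast_sum, mul_sum]
  refine sum_congr rfl fun y hy => ?_
  rw [mem_product, mem_product, Fintype.mem_piFinset] at hy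
  have b1 := nestedVal_le hT hA hy.2.1
  have b2 := nestedVal_le hT hB hy.2.2
  have b3 : ∑ i, y.1 i ^ 4 ≤ (univ : Finset (Fin 4)).card • n :=
    sum_le_card_nsmul univ _ n fun i _ =>
      (Nat.pow_le_pow_left (mem_Icc.1 (hy.1 i)).2 4).trans hLn
  rw [card_univ, Fintype.card_fin, smul_eq_mul] at b3
  obtain ⟨S, hS⟩ : ∃ S, S = (∑ i, y.1 i ^ 4) + nestedVal y.2.1 + nestedVal y.2.2 := ⟨_, rfl⟩
  rw [← hS]
  have eh : ∀ h : ℕ, eAdd ((S : ℝ) * ((h : ℝ) / M)) * eAdd (-((n : ℝ) * ((h : ℝ) / M))) =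
      eAdd ((((S : ℤ) - n : ℤ) : ℝ) * h / M) := fun h => by
    rw [← eAdd_add]
    push_cast
    ring_nf
  simp only [eh, sum_eAdd_grid (show 0 < M by omega)]
  by_cases hSn : S = n
  · simp [hSn]
  · rw [if_neg hSn, Nat.cast_zero, mul_zero, if_neg]
    intro hd
    have := Int.eq_zero_of_dvd_of_natAbs_lt_natAbs hd (by omega)
    omega

/-- The points on the arcs. -/
def sixUnion (n : ℕ) : Finset ℕ :=
  (sixCentres (rootFloor 4 n)).biUnion fun z => arc (16 * n) (sixWidth (rootFloor 4 n) z.1) z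

theorem sixArcs_disjoint {n L : ℕ} (hL : 2 ≤ L) :
    ((sixCentres L : Set (Σ _ : ℕ, ℕ))).PairwiseDisjoint
      fun z => arc (16 * n) (sixWidth L z.1) z := by
  intro z hz w hw hne
  rw [Function.onFun, disjoint_left]
  intro x hx hx'
  rw [arc, mem_filter] at hx hx'
  have h1 := inv_mul_le_nearDist_centre (mem_coe.1 hz) (mem_coe.1 hw) hne
  have h2 := nearDist_sub_sub_le (centre z) (centre w) ((x : ℝ) / (16 * n : ℕ))
  have hL2 : (2 : ℝ) ≤ L := by exact_mod_cast hL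
  have hs : 0 < √(L : ℝ) := Real.sqrt_pos.2 (by linarith)
  have hwidth : ∀ q : ℕ, 1 ≤ q → sixWidth L q ≤ √(L : ℝ) / (L : ℝ) ^ 4 := fun q hq => by
    rw [sixWidth]
    exact div_le_div_of_nonneg_left hs.le (by positivity)
      (le_mul_of_one_le_left (by positivity) (by exact_mod_cast hq))
  have g1 := hx.2.trans (hwidth z.1 (mem_arcCentres.1 (mem_coe.1 hz)).1.1)
  have g2 := hx'.2.trans (hwidth w.1 (mem_arcCentres.1 (mem_coe.1 hw)).1.1)
  have hQ0 : (0 : ℝ) < (⌊√(L : ℝ)⌋₊ : ℝ) := Nat.cast_pos.2 (Nat.floor_pos.2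
    (Real.one_le_sqrt.2 (by linarith)))
  have h3 : 1 / (L : ℝ) ≤ 1 / ((⌊√(L : ℝ)⌋₊ : ℝ) * (⌊√(L : ℝ)⌋₊ : ℝ)) := by
    refine one_div_le_one_div_of_le (by positivity) ?_
    calc (⌊√(L : ℝ)⌋₊ : ℝ) * (⌊√(L : ℝ)⌋₊ : ℝ) ≤ √(L : ℝ) * √(L : ℝ) :=
          mul_le_mul (Nat.floor_le hs.le) (Nat.floor_le hs.le) hQ0.le hs.le
      _ = L := Real.mul_self_sqrt (by linarith)
  have h4 : 2 * (√(L : ℝ) / (L : ℝ) ^ 4) < 1 / (L : ℝ) := by
    rw [mul_div_assoc', div_lt_div_iff₀ (by positivity) (by linarith), one_mul]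
    calc 2 * √(L : ℝ) * L ≤ L * L * L :=
          mul_le_mul_of_nonneg_right (mul_le_mul hL2 ((Real.sqrt_le_left (by linarith)).2
            (by nlinarith)) hs.le (by linarith)) (by linarith)
      _ = (L : ℝ) ^ 3 := by ring
      _ < (L : ℝ) ^ 4 := pow_lt_pow_right₀ (by linarith) (by norm_num)
  linarith

/-- **Off the arcs the sum is small.** -/
theorem exists_off_union_le {ε : ℝ} (hε : 0 < ε) : ∃ C : ℝ, 0 < C ∧ ∀ n h : ℕ, 1 ≤ n →
    h ∈ range (16 * n) → h ∉ sixUnion n →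
      ‖waringSum 4 (rootFloor 4 n) ((h : ℝ) / (16 * n : ℕ))‖ ≤
        C * (rootFloor 4 n : ℝ) ^ (7 / 8 + ε : ℝ) := by
  obtain ⟨C, hC, hminor⟩ := exists_minor_le hε
  refine ⟨C, hC, fun n h hn hh hnot => ?_⟩
  obtain ⟨hL1, -, -⟩ := rootFloor_spec (k := 4) (N := n) (by norm_num) hn
  obtain ⟨L, hL⟩ : ∃ L, L = rootFloor 4 n := ⟨_, rfl⟩
  rw [← hL] at hL1 ⊢
  refine (hminor L ((h : ℝ) / (16 * n : ℕ)) hL1).resolve_right ?_
  rintro ⟨q, a, hq, hunit, hQ⟩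
  have : NeZero q := ⟨by omega⟩
  have hq0 : (0 : ℝ) < q := Nat.cast_pos.2 hq
  have hL0 : (0 : ℝ) < (L : ℝ) ^ 4 := pow_pos (Nat.cast_pos.2 hL1) 4
  obtain ⟨β, hβ⟩ : ∃ β, β = (h : ℝ) / (16 * n : ℕ) - a / q := ⟨_, rfl⟩
  rw [← hβ] at hQ
  obtain ⟨r, hr⟩ : ∃ r, r = (a : ZMod q).val := ⟨_, rfl⟩
  obtain ⟨j, hj⟩ : (q : ℤ) ∣ a - r := by
    rw [← ZMod.intCast_zmod_eq_zero_iff_dvd, hr]
    push_cast
    rw [ZMod.natCast_zmod_val, sub_self]
  have hcop : r.Coprime q := (ZMod.isUnit_iff_coprime r q).1 (by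
    rw [hr, ZMod.natCast_zmod_val]; exact hunit)
  refine hnot (mem_biUnion.2 ⟨⟨q, r⟩, mem_arcCentres.2 ⟨⟨hq, Nat.le_floor ?_⟩,
    hr ▸ ZMod.val_lt _, hcop.symm⟩, mem_filter.2 ⟨hh, ?_⟩⟩)
  · rw [← hL]
    have : 0 ≤ (q : ℝ) * ((L : ℝ) ^ 4 * |β|) := by positivity
    linarith
  · rw [← hL, sixWidth]
    refine (nearDist_le_abs_sub _ j).trans ?_
    have e : (a : ℝ) = r + q * j := by
      have := congrArg (Int.cast : ℤ → ℝ) hj
      push_cast at this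
      linarith
    rw [show (h : ℝ) / (16 * n : ℕ) - centre ⟨q, r⟩ - j = β by
      rw [hβ, e, centre, add_div, mul_div_cancel_left₀ _ hq0.ne']; ring,
      le_div_iff₀ (by positivity)]
    linarith

/-- The summand on the grid. -/
def fourteenSummand (n P : ℕ) (A B : Finset (ℕ × ℕ × ℕ × ℕ)) (h : ℕ) : ℂ :=
  waringSum 4 (rootFloor 4 n) ((h : ℝ) / (16 * n : ℕ)) ^ 4 *
    ((shortSum P ((h : ℝ) / (16 * n : ℕ)) * smallSum A ((h : ℝ) / (16 * n : ℕ))) *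
      (shortSum P ((h : ℝ) / (16 * n : ℕ)) * smallSum B ((h : ℝ) / (16 * n : ℕ)))) *
    eAdd (-((n : ℝ) * ((h : ℝ) / (16 * n : ℕ))))

/-- On the arcs, the sum is a sum of major arcs of six variables. -/
theorem sum_sixUnion_eq {n P : ℕ} (hL : 2 ≤ rootFloor 4 n) {A B : Finset (ℕ × ℕ × ℕ × ℕ)}
    (hle : ∀ v ∈ A, ∀ w ∈ B, smallVal v + smallVal w ≤ n) :
    ∑ h ∈ sixUnion n, fourteenSummand n P A B h =
      ∑ v ∈ A, ∑ w ∈ B, majorSix n P (n - smallVal v - smallVal w) := by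
  simp only [sixUnion, majorSix]
  rw [sum_biUnion (sixArcs_disjoint hL), sum_congr rfl fun v _ => sum_comm, sum_comm]
  refine sum_congr rfl fun z _ => ?_
  rw [sum_congr rfl fun v _ => sum_comm, sum_comm]
  refine sum_congr rfl fun h _ => ?_
  obtain ⟨x, hx⟩ : ∃ x : ℝ, x = (h : ℝ) / (16 * n : ℕ) := ⟨_, rfl⟩
  simp only [fourteenSummand, smallSum, ← hx]
  rw [show waringSum 4 (rootFloor 4 n) x ^ 4 *
        ((shortSum P x * ∑ v ∈ A, eAdd ((smallVal v : ℝ) * x)) *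
          (shortSum P x * ∑ w ∈ B, eAdd ((smallVal w : ℝ) * x))) * eAdd (-((n : ℝ) * x)) =
      waringSum 4 (rootFloor 4 n) x ^ 4 * shortSum P x ^ 2 *
        ((∑ v ∈ A, eAdd ((smallVal v : ℝ) * x)) * (∑ w ∈ B, eAdd ((smallVal w : ℝ) * x)) *
          eAdd (-((n : ℝ) * x))) by ring, sum_mul_sum, sum_mul, mul_sum]
  refine sum_congr rfl fun v hv => ?_
  rw [sum_mul, mul_sum]
  refine sum_congr rfl fun w hw => ?_
  have := hle v hv w hw
  rw [← eAdd_add, ← eAdd_add, Nat.cast_sub (by omega), Nat.cast_sub (by omega)]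
  ring_nf

/-- **Off the arcs**, by the bound for one sum and the mean value of the nested sums. -/
theorem norm_sum_off_union_le {n P : ℕ} (hn : 0 < n) {X E : ℝ} (hX : 0 ≤ X)
    {A B : Finset (ℕ × ℕ × ℕ × ℕ)} (hA : ∀ w ∈ dyadicRange P ×ˢ A, nestedVal w < 16 * n)
    (hB : ∀ w ∈ dyadicRange P ×ˢ B, nestedVal w < 16 * n)
    (hEA : (energy (dyadicRange P ×ˢ A) (fun w => (nestedVal w : ℤ)) : ℝ) ≤ E)
    (hEB : (energy (dyadicRange P ×ˢ B) (fun w => (nestedVal w : ℤ)) : ℝ) ≤ E)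
    (hf : ∀ h ∈ range (16 * n), h ∉ sixUnion n →
      ‖waringSum 4 (rootFloor 4 n) ((h : ℝ) / (16 * n : ℕ))‖ ^ 4 ≤ X) :
    ‖∑ h ∈ range (16 * n) \ sixUnion n, fourteenSummand n P A B h‖ ≤
      X * ((16 * n : ℕ) * E) := by
  obtain ⟨g, hg⟩ : ∃ g : Finset (ℕ × ℕ × ℕ × ℕ) → ℕ → ℝ, g = fun S (h : ℕ) =>
      ‖shortSum P ((h : ℝ) / (16 * n : ℕ)) * smallSum S ((h : ℝ) / (16 * n : ℕ))‖ ^ 2 :=
    ⟨_, rfl⟩
  have hg0 : ∀ S h, 0 ≤ g S h := fun S h => by rw [hg]; positivity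
  have hE : ∀ S, (∀ w ∈ dyadicRange P ×ˢ S, nestedVal w < 16 * n) →
      (energy (dyadicRange P ×ˢ S) (fun w => (nestedVal w : ℤ)) : ℝ) ≤ E →
        ∑ h ∈ range (16 * n), g S h ≤ (16 * n : ℕ) * E := fun S hS hSE => by
    simp only [hg, shortSum_mul_smallSum]
    rw [sum_norm_sq_energy _ _ (by omega) hS]
    exact mul_le_mul_of_nonneg_left hSE (Nat.cast_nonneg _)
  refine (norm_sum_le _ _).trans ((sum_le_sum (g := fun h => X * ((g A h + g B h) / 2))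
    fun h hh => ?_).trans ?_)
  · obtain ⟨hh1, hh2⟩ := Finset.mem_sdiff.1 hh
    obtain ⟨x, hx⟩ : ∃ x : ℝ, x = (h : ℝ) / (16 * n : ℕ) := ⟨_, rfl⟩
    have hf' := hf h hh1 hh2
    simp only [fourteenSummand, hg, ← hx] at hf' ⊢
    rw [norm_mul, norm_eAdd, mul_one, norm_mul, norm_pow, norm_mul (_ * _)]
    refine mul_le_mul hf' ?_ (by positivity) hX
    linarith [two_mul_le_add_sq ‖shortSum P x * smallSum A x‖ ‖shortSum P x * smallSum B x‖]
  refine (sum_le_sum_of_subset_of_nonneg sdiff_subset fun h _ _ => mul_nonneg hX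
    (by linarith [hg0 A h, hg0 B h])).trans ?_
  rw [← mul_sum, ← sum_div, sum_add_distrib]
  refine mul_le_mul_of_nonneg_left ?_ hX
  linarith [hE A hA hEA, hE B hB hEB]

/-- The minor arcs lose against the major arcs. -/
theorem minor_lt_major {T L c C₁ C₂ a b : ℝ} (hT : 1 ≤ T) (hc : 0 < c) (hC₁ : 0 < C₁)
    (hC₂ : 0 < C₂) (hL0 : 0 ≤ L) (hL : L ≤ 5 * T ^ (364 : ℕ))
    (ha : T ^ (912 : ℕ) ≤ 81 * a) (hb : T ^ (912 : ℕ) ≤ 81 * b)
    (hbig : (C₂ * 5) ^ 4 * C₁ * 6561 < T ^ (3 / 2 : ℝ) * c) :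
    (C₂ * L ^ (7 / 8 + 1 / 5000 : ℝ)) ^ 4 * (C₁ * T ^ (1276 + 1 / 10 : ℝ)) <
      c * (T ^ (364 : ℕ)) ^ 2 * (a * b) := by
  have hT0 : 0 < T := zero_lt_one.trans_le hT
  obtain ⟨θ, hθ⟩ : ∃ θ : ℝ, θ = 7 / 8 + 1 / 5000 := ⟨_, rfl⟩
  rw [← hθ]
  have h1 : L ^ θ ≤ 5 * T ^ ((364 : ℝ) * θ) := by
    rw [← Real.rpow_natCast, Nat.cast_ofNat] at hL
    refine (Real.rpow_le_rpow hL0 hL (hθ ▸ by norm_num)).trans ?_
    rw [Real.mul_rpow (by norm_num) (by positivity), ← Real.rpow_mul hT0.le]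
    exact mul_le_mul_of_nonneg_right
      (Real.rpow_le_self_of_one_le (by norm_num) (hθ ▸ by norm_num)) (by positivity)
  calc (C₂ * L ^ θ) ^ 4 * (C₁ * T ^ (1276 + 1 / 10 : ℝ))
      ≤ (C₂ * (5 * T ^ ((364 : ℝ) * θ))) ^ 4 * (C₁ * T ^ (1276 + 1 / 10 : ℝ)) := by gcongr
    _ = (C₂ * 5) ^ 4 * C₁ *
        (T ^ ((364 : ℝ) * θ * ((4 : ℕ) : ℝ)) * T ^ (1276 + 1 / 10 : ℝ)) := by
        rw [← mul_assoc C₂, mul_pow (C₂ * 5), Real.rpow_mul hT0.le ((364 : ℝ) * θ),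
          Real.rpow_natCast]
        ring
    _ ≤ (C₂ * 5) ^ 4 * C₁ * T ^ (2552 - 3 / 2 : ℝ) := by
        rw [← Real.rpow_add hT0]
        exact mul_le_mul_of_nonneg_left
          (Real.rpow_le_rpow_of_exponent_le hT (hθ ▸ by norm_num)) (by positivity)
    _ < T ^ (3 / 2 : ℝ) * c / 6561 * T ^ (2552 - 3 / 2 : ℝ) :=
        mul_lt_mul_of_pos_right (by linarith) (Real.rpow_pos_of_pos hT0 _)
    _ = c * (T ^ (364 : ℕ)) ^ 2 * (T ^ (912 : ℕ) * T ^ (912 : ℕ)) / 6561 := by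
        rw [show T ^ (3 / 2 : ℝ) * c / 6561 * T ^ (2552 - 3 / 2 : ℝ) =
          c * (T ^ (3 / 2 : ℝ) * T ^ (2552 - 3 / 2 : ℝ)) / 6561 by ring, ← Real.rpow_add hT0,
          show (3 / 2 + (2552 - 3 / 2) : ℝ) = ((364 * 2 + (912 + 912) : ℕ) : ℝ) by norm_num,
          Real.rpow_natCast, pow_add, pow_add, pow_mul, mul_assoc c]
    _ ≤ c * (T ^ (364 : ℕ)) ^ 2 * (81 * a * (81 * b)) / 6561 := by
        have hm := mul_le_mul ha hb (pow_nonneg hT0.le _)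
          ((pow_nonneg hT0.le (912 : ℕ)).trans ha)
        gcongr
    _ = c * (T ^ (364 : ℕ)) ^ 2 * (a * b) := by ring

/-- The parities can be chosen so that six large variables are left with a residue `1, …, 6`. -/
theorem exists_parities {n : ℕ} (h1 : 1 ≤ n % 16) (h14 : n % 16 ≤ 14) :
    ∃ b c : ℕ × ℕ × ℕ × ℕ, ∀ T : ℕ, 2 ≤ T → 256 * T ^ 1456 ≤ n →
      ∀ v ∈ paritySmall T b, ∀ w ∈ paritySmall T c, smallVal v + smallVal w ≤ n ∧
        n ≤ 2 * (n - smallVal v - smallVal w) ∧ 1 ≤ (n - smallVal v - smallVal w) % 16 ∧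
          (n - smallVal v - smallVal w) % 16 ≤ 6 := by
  obtain ⟨j, hj8, hj1, hj6⟩ : ∃ j, j ≤ 8 ∧ j < n % 16 ∧ n % 16 ≤ j + 6 :=
    ⟨n % 16 - 6, by omega, by omega, by omega⟩
  obtain ⟨f, hf⟩ : ∃ f : ℕ → ℕ, f = fun i => if i < j then 1 else 0 := ⟨_, rfl⟩
  refine ⟨(f 0, f 1, f 2, f 3), (f 4, f 5, f 6, f 7), fun T hT hn v hv w hw => ?_⟩
  have h3 := smallVal_mod hv
  have h4 := smallVal_mod hw
  have h5 := smallVal_le (by omega) (paritySmall_subset T _ hv)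
  have h6 := smallVal_le (by omega) (paritySmall_subset T _ hw)
  have h7 : T ^ 1152 ≤ T ^ 1456 := Nat.pow_le_pow_right (by omega) (by norm_num)
  have h8 : f 0 % 2 + (f 1 % 2 + (f 2 % 2 + f 3 % 2)) +
      (f 4 % 2 + (f 5 % 2 + (f 6 % 2 + f 7 % 2))) = j := by
    simp only [hf]
    interval_cases j <;> rfl
  simp only at h3 h4
  omega

/-- **Fourteen biquadrates**, inside one scale. -/
theorem exists_fourteenSet_nonempty : ∃ T₀ : ℕ, ∀ T n : ℕ, T₀ ≤ T → 256 * T ^ 1456 ≤ n →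
    n ≤ 512 * T ^ 1456 → 1 ≤ n % 16 → n % 16 ≤ 14 → ∃ A B : Finset (ℕ × ℕ × ℕ × ℕ),
      (fourteenSet (rootFloor 4 n) T n A B).Nonempty := by
  obtain ⟨c, P₀, hc, hmajor⟩ := exists_majorSix_ge
  obtain ⟨C₁, hC₁, henergy⟩ := exists_energy_le (show (0 : ℝ) < 1 / 10 by norm_num)
  obtain ⟨C₂, hC₂, hoff⟩ := exists_off_union_le (show (0 : ℝ) < 1 / 5000 by norm_num)
  obtain ⟨T₀, hT₀⟩ := eventually_atTop.1 ((eventually_ge_atTop (max P₀ 2)).and
    (((tendsto_rpow_atTop (show (0 : ℝ) < 3 / 2 by norm_num)).comp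
      tendsto_natCast_atTop_atTop).eventually
        (eventually_gt_atTop ((C₂ * 5) ^ 4 * C₁ * 6561 / c))))
  refine ⟨T₀, fun T n hT hn1 hn2 hr1 hr14 => ?_⟩
  obtain ⟨hTmax, hTbig⟩ := hT₀ T hT
  rw [max_le_iff] at hTmax
  rw [Function.comp_apply, div_lt_iff₀ hc] at hTbig
  have hT2 : 2 ≤ T := hTmax.2
  obtain ⟨b₁, b₂, hres⟩ := exists_parities hr1 hr14
  replace hres := hres T hT2 hn1
  refine ⟨paritySmall T b₁, paritySmall T b₂, ?_⟩
  obtain ⟨A, hA⟩ : ∃ A, A = paritySmall T b₁ := ⟨_, rfl⟩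
  obtain ⟨B, hB⟩ : ∃ B, B = paritySmall T b₂ := ⟨_, rfl⟩
  rw [← hA, ← hB] at hres ⊢
  have hAsub : A ⊆ smallBox T := hA ▸ paritySmall_subset T _
  have hBsub : B ⊆ smallBox T := hB ▸ paritySmall_subset T _
  have hAcard : T ^ 912 ≤ 81 * A.card := hA ▸ le_card_paritySmall hT2 _
  have hBcard : T ^ 912 ≤ 81 * B.card := hB ▸ le_card_paritySmall hT2 _
  obtain ⟨P, hP⟩ : ∃ P, P = T ^ 364 := ⟨_, rfl⟩
  have hP4 : P ^ 4 = T ^ 1456 := by rw [hP, ← pow_mul]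
  have hTP : T ≤ P := by rw [hP]; exact Nat.le_self_pow (by norm_num) T
  have h1 : 256 * P ^ 4 ≤ n := by rw [hP4]; exact hn1
  have h2 : n ≤ 512 * P ^ 4 := by rw [hP4]; exact hn2
  obtain ⟨hL4, hL5, -, -⟩ := root_bounds (by omega) h1 h2
  have hn0 : 0 < n := lt_of_lt_of_le (by positivity) hn1
  have htot : ∑ h ∈ range (16 * n), fourteenSummand n P A B h =
      ((16 * n : ℕ) : ℂ) * (fourteenSet (rootFloor 4 n) T n A B).card := by
    rw [hP]
    exact grid_fourteen (by omega) hn1 hAsub hBsub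
  -- the major arcs
  have hmaj : c * (16 * n : ℕ) * (P : ℝ) ^ 2 * ((A.card : ℝ) * B.card) ≤
      (∑ h ∈ sixUnion n, fourteenSummand n P A B h).re := by
    rw [sum_sixUnion_eq (by omega) (fun v hv w hw => (hres v hv w hw).1), Complex.re_sum]
    refine le_trans (le_of_eq ?_) (card_nsmul_le_sum A _
      (B.card • (c * (16 * n : ℕ) * (P : ℝ) ^ 2)) fun v hv => ?_)
    · simp only [nsmul_eq_mul]; ring
    rw [Complex.re_sum]
    refine card_nsmul_le_sum B _ _ fun w hw => ?_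
    obtain ⟨-, g2, g3, g4⟩ := hres v hv w hw
    exact hmajor n P _ (hTmax.1.trans hTP) h1 h2 g2 (by omega) ⟨g3, g4⟩
  -- the minor arcs
  have hsmallval : ∀ S, S ⊆ smallBox T → ∀ w ∈ dyadicRange P ×ˢ S, nestedVal w < 16 * n :=
    fun S hS w hw => by
      rw [hP] at hw
      have := nestedVal_le (by omega) hS hw
      omega
  have henergy' : ∀ S, S ⊆ smallBox T →
      (energy (dyadicRange P ×ˢ S) (fun w => (nestedVal w : ℤ)) : ℝ) ≤
        C₁ * (T : ℝ) ^ (1276 + 1 / 10 : ℝ) := fun S hS => by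
    refine le_trans (Nat.cast_le.2 ?_) (henergy T (by omega))
    rw [hP]
    exact energy_mono (product_subset_product_right hS) _
  have hmin := norm_sum_off_union_le (P := P) hn0
    (X := (C₂ * (rootFloor 4 n : ℝ) ^ (7 / 8 + 1 / 5000 : ℝ)) ^ 4) (by positivity)
    (hsmallval A hAsub) (hsmallval B hBsub) (henergy' A hAsub) (henergy' B hBsub)
    fun h hh hnot => pow_le_pow_left₀ (norm_nonneg _) (hoff n h hn0 hh hnot) 4
  -- comparison
  have hnum := minor_lt_major (T := (T : ℝ)) (L := (rootFloor 4 n : ℝ)) (a := (A.card : ℝ))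
    (b := (B.card : ℝ)) (by exact_mod_cast (show 1 ≤ T by omega)) hc hC₁ hC₂ (Nat.cast_nonneg _)
    (by rw [← Nat.cast_pow, ← hP]; exact_mod_cast hL5)
    (by exact_mod_cast hAcard) (by exact_mod_cast hBcard) hTbig
  rw [← Nat.cast_pow, ← hP] at hnum
  have hM0 : (0 : ℝ) < (16 * n : ℕ) := Nat.cast_pos.2 (by omega)
  have hsub : sixUnion n ⊆ range (16 * n) := biUnion_subset.2 fun z _ => filter_subset _ _
  rw [← card_pos, ← Nat.cast_pos (α := ℝ)]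
  have htot' := congrArg Complex.re htot
  rw [← sum_sdiff hsub, Complex.add_re, Complex.mul_re, Complex.natCast_re, Complex.natCast_re,
    Complex.natCast_im, zero_mul, sub_zero] at htot'
  have h3 := (abs_le.1 ((Complex.abs_re_le_norm _).trans hmin)).1
  have h4 := mul_lt_mul_of_pos_left hnum hM0
  by_contra hle
  rw [not_lt] at hle
  have := mul_le_mul_of_nonneg_left hle hM0.le
  linarith

/-- Every large number lies in a scale. -/
theorem exists_scale {k : ℕ} (hk : 1 ≤ k) (T₀ : ℕ) : ∃ N₀ : ℕ, ∀ n, N₀ ≤ n →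
    ∃ T, T₀ ≤ T ∧ 256 * T ^ k ≤ n ∧ n ≤ 512 * T ^ k := by
  have hlim : Tendsto (fun T : ℕ => (1 + 1 / (T : ℝ)) ^ k) atTop (𝓝 1) := by
    simpa using ((tendsto_const_nhds (x := (1 : ℝ))).add
      (tendsto_one_div_atTop_nhds_zero_nat)).pow k
  obtain ⟨T₁, hT₁⟩ := eventually_atTop.1
    ((hlim.eventually (eventually_le_nhds (show (1 : ℝ) < 2 by norm_num))).and
      (eventually_ge_atTop 1))
  refine ⟨256 * (max T₀ T₁ + 1) ^ k, fun n hn => ?_⟩
  obtain ⟨T, hT⟩ : ∃ T, T = Nat.findGreatest (fun T => 256 * T ^ k ≤ n) n := ⟨_, rfl⟩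
  have hle : max T₀ T₁ + 1 ≤ T := hT ▸ Nat.le_findGreatest
    ((Nat.le_self_pow (by omega) _).trans ((Nat.le_mul_of_pos_left _ (by norm_num)).trans hn)) hn
  have hspec : 256 * T ^ k ≤ n := hT ▸ Nat.findGreatest_spec (P := fun T => 256 * T ^ k ≤ n)
    ((Nat.le_self_pow (by omega) _).trans ((Nat.le_mul_of_pos_left _ (by norm_num)).trans hn)) hn
  refine ⟨T, by omega, hspec, ?_⟩
  have hlt : n < 256 * (T + 1) ^ k := by
    by_contra h
    rw [not_lt] at h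
    have hTn : T + 1 ≤ n := (Nat.le_self_pow (by omega) _).trans
      ((Nat.le_mul_of_pos_left _ (by norm_num)).trans h)
    exact Nat.findGreatest_is_greatest (P := fun T => 256 * T ^ k ≤ n)
      (show Nat.findGreatest (fun T => 256 * T ^ k ≤ n) n < T + 1 by omega) hTn h
  obtain ⟨h2, h1⟩ := hT₁ T (by omega)
  have hT0 : (0 : ℝ) < T := Nat.cast_pos.2 h1
  have h3 : ((T + 1 : ℕ) : ℝ) ^ k ≤ 2 * (T : ℝ) ^ k := by
    rw [show ((T + 1 : ℕ) : ℝ) = (1 + 1 / (T : ℝ)) * T by push_cast; field_simp, mul_pow]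
    exact mul_le_mul_of_nonneg_right h2 (by positivity)
  have h4 : (T + 1) ^ k ≤ 2 * T ^ k := by exact_mod_cast h3
  omega

/-- **Davenport: fourteen biquadrates** for `n ≢ 0, 15` modulo `16`. -/
theorem exists_fourteen : ∃ N₀ : ℕ, ∀ n, N₀ ≤ n → 1 ≤ n % 16 → n % 16 ≤ 14 →
    ∃ x : Fin 14 → ℕ, ∑ i, x i ^ 4 = n := by
  obtain ⟨T₀, hT₀⟩ := exists_fourteenSet_nonempty
  obtain ⟨N₀, hN₀⟩ := exists_scale (k := 1456) (by norm_num) T₀
  refine ⟨N₀, fun n hn h1 h14 => ?_⟩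
  obtain ⟨T, hT, g1, g2⟩ := hN₀ n hn
  obtain ⟨A, B, ⟨y, v, w⟩, hy⟩ := hT₀ T n hT g1 g2 h1 h14
  obtain ⟨-, hy⟩ := mem_filter.1 hy
  refine ⟨![y 0, y 1, y 2, y 3, v.1, v.2.1, v.2.2.1, v.2.2.2.1, v.2.2.2.2,
    w.1, w.2.1, w.2.2.1, w.2.2.2.1, w.2.2.2.2], ?_⟩
  simp only [nestedVal, smallVal, Fin.sum_univ_four] at hy
  simp only [Fin.sum_univ_succ, Fin.sum_univ_zero]
  simp
  omega

/-- **Davenport: sixteen biquadrates.** -/
theorem exists_sixteen : ∃ N₀ : ℕ, ∀ n, N₀ ≤ n → ∃ x : Fin 16 → ℕ, ∑ i, x i ^ 4 = n := by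
  obtain ⟨N₀, h⟩ := exists_fourteen
  refine ⟨N₀ + 2, fun n hn => ?_⟩
  obtain ⟨a, b, ha, hb, h1, h14⟩ : ∃ a b : ℕ, a ≤ 1 ∧ b ≤ 1 ∧ 1 ≤ (n - a - b) % 16 ∧
      (n - a - b) % 16 ≤ 14 := by
    rcases Nat.eq_zero_or_pos (n % 16) with h0 | h0
    · exact ⟨1, 1, le_rfl, le_rfl, by omega, by omega⟩
    rcases eq_or_ne (n % 16) 15 with h15 | h15
    · exact ⟨1, 0, le_rfl, zero_le_one, by omega, by omega⟩
    exact ⟨0, 0, zero_le_one, zero_le_one, by omega, by omega⟩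
  obtain ⟨x, hx⟩ := h (n - a - b) (by omega) h1 h14
  refine ⟨Fin.cons a (Fin.cons b x), ?_⟩
  rw [Fin.sum_univ_succ, Fin.sum_univ_succ]
  simp only [Fin.cons_zero, Fin.cons_succ, hx]
  interval_cases a <;> interval_cases b <;> norm_num <;> omega

/-- **`G (4) = 16`.** -/
theorem isLeast_sixteen :
    IsLeast {s : ℕ | ∃ N₀ : ℕ, ∀ n, N₀ ≤ n → ∃ x : Fin s → ℕ, ∑ i, x i ^ 4 = n} 16 := by
  refine ⟨exists_sixteen, fun s ⟨N₀, hs⟩ => ?_⟩
  by_contra hlt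
  obtain ⟨n, hn, hn0⟩ := (WaringBounds.infinite_not_sum_two_pow (θ := 2) le_rfl).exists_gt N₀
  obtain ⟨x, hx⟩ := hs n hn0.le
  obtain ⟨t, ht⟩ : ∃ t, 2 ^ (2 + 2) - 1 = s + t := ⟨15 - s, by norm_num; omega⟩
  refine hn ?_
  rw [WaringBounds.IsPowerSum, ht]
  refine ⟨Fin.append x 0, ?_⟩
  rw [Fin.sum_univ_add]
  simp [hx]

end FA.BiquadratesSixteen
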