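import Fermat.Agent.Forms3.RepresentationBound
import Mathlib.Algebra.Order.Chebyshev

/-!
# Five fourth powers in diminishing ranges

For `x₁ ~ T ^ 364`, `x₂ ~ T ^ 288`, `x₃ ~ T ^ 234` and `x₄, x₅ ~ T ^ 195` the number of coincidences
among the values `x₁⁴ + ⋯ + x₅⁴` is `O (T ^ (1276 + ε))`, next to the diagonal: Davenport's method,
by one or two further differences and the bound for the number of divisors.
-/

set_option autoImplicit false

noncomputable section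

namespace FA.BiquadratesSixteen

open Finset

/-- The coincidences of two families. -/
def cross {α β : Type*} (S : Finset α) (u : α → ℤ) (A : Finset β) (f : β → ℤ) : ℕ :=
  ((S ×ˢ A).filter fun z => u z.1 = f z.2).card

/-- The coincidences within a family. -/
def energy {α : Type*} (S : Finset α) (u : α → ℤ) : ℕ := cross S u S u

variable {α β : Type*} {A : Finset β} {f : β → ℤ}

theorem card_le_energy (S : Finset α) (u : α → ℤ) : S.card ≤ energy S u :=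
  card_le_card_of_injOn (fun a => (a, a))
    (fun _ ha => mem_filter.2 ⟨mem_product.2 ⟨ha, ha⟩, rfl⟩) fun _ _ _ _ h => congrArg Prod.fst h

theorem energy_mono {S S' : Finset α} (h : S ⊆ S') (u : α → ℤ) : energy S u ≤ energy S' u :=
  card_le_card (filter_subset_filter _ (product_subset_product h h))

theorem cross_eq_sum {S : Finset α} {u : α → ℤ} {V : Finset ℤ} (hV : ∀ a ∈ S, u a ∈ V) :
    cross S u A f =
      ∑ v ∈ V, (S.filter fun a => u a = v).card * (A.filter fun b => f b = v).card := by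
  rw [cross, card_eq_sum_card_fiberwise (f := fun z => u z.1) (t := V) fun z hz =>
    hV _ (mem_product.1 (mem_filter.1 hz).1).1]
  refine sum_congr rfl fun v _ => ?_
  rw [← card_product]
  congr 1
  ext z
  simp only [mem_filter, mem_product]
  constructor
  · rintro ⟨⟨⟨h1, h2⟩, h3⟩, h4⟩
    exact ⟨⟨h1, h4⟩, h2, h3.symm.trans h4⟩
  · rintro ⟨⟨h1, h4⟩, h2, h5⟩
    exact ⟨⟨⟨h1, h2⟩, h4.trans h5.symm⟩, h4⟩

/-- **The inequality of Cauchy.** -/
theorem cross_sq_le (S : Finset α) (u : α → ℤ) (A : Finset β) (f : β → ℤ) :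
    cross S u A f ^ 2 ≤ energy S u * energy A f := by
  have h1 : ∀ a ∈ S, u a ∈ S.image u ∪ A.image f := fun a ha =>
    mem_union_left _ (mem_image_of_mem u ha)
  have h2 : ∀ b ∈ A, f b ∈ S.image u ∪ A.image f := fun b hb =>
    mem_union_right _ (mem_image_of_mem f hb)
  rw [energy, energy, cross_eq_sum h1, cross_eq_sum h1, cross_eq_sum h2]
  simpa only [← sq] using sum_mul_sq_le_sq_mul_sq (S.image u ∪ A.image f)
    (fun v => (S.filter fun a => u a = v).card) fun v => (A.filter fun b => f b = v).card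

/-- Cauchy once more, over an index. -/
theorem energy_prod_index_le {ι : Type*} (J : Finset ι) (S : Finset α) (u : ι × α → ℤ) :
    energy (J ×ˢ S) u ≤ J.card * ∑ j ∈ J, energy S fun a => u (j, a) := by
  obtain ⟨V, hV⟩ : ∃ V, V = (J ×ˢ S).image u := ⟨_, rfl⟩
  have hm : ∀ z ∈ J ×ˢ S, u z ∈ V := fun z hz => hV ▸ mem_image_of_mem u hz
  have hr : ∀ v, ((J ×ˢ S).filter fun z => u z = v).card =
      ∑ j ∈ J, (S.filter fun a => u (j, a) = v).card := fun v => by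
    simp only [card_filter, sum_product]
  rw [energy, cross_eq_sum hm, mul_sum]
  simp only [hr, ← sq]
  refine (sum_le_sum fun v _ => sq_sum_le_card_mul_sum_sq).trans ?_
  rw [← mul_sum, ← mul_sum]
  refine Nat.mul_le_mul_left _ (le_of_eq ?_)
  rw [sum_comm]
  refine sum_congr rfl fun j hj => ?_
  rw [energy, cross_eq_sum (V := V) fun a ha => hm (j, a) (mem_product.2 ⟨hj, ha⟩)]
  simp only [sq]

/-- **One difference**: what is off the diagonal is a family of differences against `A`. -/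
theorem energy_prod_le (I K : Finset ℕ) (φ : ℕ → ℤ)
    (hK : ∀ y ∈ I, ∀ y' ∈ I, y < y' → ∀ a ∈ A, ∀ b ∈ A, φ y' + f a = φ y + f b → y' - y ∈ K) :
    energy (I ×ˢ A) (fun z => φ z.1 + f z.2) ≤ I.card * energy A f +
      2 * cross (K ×ˢ (I ×ˢ A)) (fun z => φ (z.2.1 + z.1) - φ z.2.1 + f z.2.2) A f := by
  classical
  rw [energy, cross, energy, cross, cross, ← card_product, two_mul, ← add_assoc]
  obtain ⟨Z, hZ⟩ : ∃ Z, Z = ((I ×ˢ A) ×ˢ (I ×ˢ A)).filter
      fun z => φ z.1.1 + f z.1.2 = φ z.2.1 + f z.2.2 := ⟨_, rfl⟩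
  have hmem : ∀ z ∈ Z, (z.1.1 ∈ I ∧ z.1.2 ∈ A) ∧ (z.2.1 ∈ I ∧ z.2.2 ∈ A) ∧
      φ z.1.1 + f z.1.2 = φ z.2.1 + f z.2.2 := fun z hz => by
    simp only [hZ, mem_filter, mem_product] at hz
    exact ⟨hz.1.1, hz.1.2, hz.2⟩
  rw [← hZ]
  refine (card_le_card (t := (Z.filter fun z => z.1.1 = z.2.1) ∪ (Z.filter fun z => z.1.1 < z.2.1) ∪
    Z.filter fun z => z.2.1 < z.1.1) fun z hz => ?_).trans ((card_union_le _ _).trans
      (add_le_add ((card_union_le _ _).trans (add_le_add ?_ ?_)) ?_))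
  · simp only [mem_union, mem_filter, hz, true_and]
    omega
  · refine card_le_card_of_injOn (fun z => (z.1.1, (z.1.2, z.2.2))) (fun z hz => ?_)
      fun z hz z' hz' h => ?_
    · rw [mem_coe, mem_filter] at hz
      obtain ⟨h1, h2, h3⟩ := hmem z hz.1
      rw [hz.2, add_right_inj] at h3
      exact mem_product.2 ⟨h1.1, mem_filter.2 ⟨mem_product.2 ⟨h1.2, h2.2⟩, h3⟩⟩
    · rw [mem_coe, mem_filter] at hz hz'
      simp only [Prod.mk.injEq] at h
      exact Prod.ext (Prod.ext h.1 h.2.1) (Prod.ext (hz.2.symm.trans (h.1.trans hz'.2)) h.2.2)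
  · refine card_le_card_of_injOn (fun z => ((z.2.1 - z.1.1, (z.1.1, z.2.2)), z.1.2))
      (fun z hz => ?_) fun z hz z' hz' h => ?_
    · rw [mem_coe, mem_filter] at hz
      obtain ⟨h1, h2, h3⟩ := hmem z hz.1
      refine mem_filter.2 ⟨mem_product.2 ⟨mem_product.2
        ⟨hK _ h1.1 _ h2.1 hz.2 _ h2.2 _ h1.2 h3.symm, mem_product.2 ⟨h1.1, h2.2⟩⟩, h1.2⟩, ?_⟩
      dsimp only
      rw [show z.1.1 + (z.2.1 - z.1.1) = z.2.1 by omega]
      linarith
    · rw [mem_coe, mem_filter] at hz hz'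
      simp only [Prod.mk.injEq] at h
      exact Prod.ext (Prod.ext h.1.2.1 h.2) (Prod.ext (by omega) h.1.2.2)
  · refine card_le_card_of_injOn (fun z => ((z.1.1 - z.2.1, (z.2.1, z.1.2)), z.2.2))
      (fun z hz => ?_) fun z hz z' hz' h => ?_
    · rw [mem_coe, mem_filter] at hz
      obtain ⟨h1, h2, h3⟩ := hmem z hz.1
      refine mem_filter.2 ⟨mem_product.2 ⟨mem_product.2
        ⟨hK _ h2.1 _ h1.1 hz.2 _ h1.2 _ h2.2 h3, mem_product.2 ⟨h2.1, h1.2⟩⟩, h2.2⟩, ?_⟩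
      dsimp only
      rw [show z.2.1 + (z.1.1 - z.2.1) = z.1.1 by omega]
      linarith
    · rw [mem_coe, mem_filter] at hz hz'
      simp only [Prod.mk.injEq] at h
      exact Prod.ext (Prod.ext (by omega) h.1.2.2) (Prod.ext h.1.2.1 h.2)

/-- **The last difference**: a product of divisors. -/
theorem sum_cross_le {ι : Type*} (J : Finset ι) (L I : Finset ℕ) (ψ : ι → ℕ → ℕ → ℤ) {M B : ℕ}
    (hM : ∀ a ∈ A, ∀ b ∈ A, f b - f a ≤ M)
    (hψ : ∀ j ∈ J, ∀ l ∈ L, ∀ y ∈ I, 0 < ψ j l y)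
    (hB : ∀ n : ℕ, 1 ≤ n → n ≤ M →
      ((J ×ˢ (L ×ˢ I)).filter fun z => ψ z.1 z.2.1 z.2.2 = n).card ≤ B) :
    ∑ j ∈ J, cross (L ×ˢ (I ×ˢ A)) (fun z => ψ j z.1 z.2.1 + f z.2.2) A f ≤ B * A.card ^ 2 := by
  classical
  obtain ⟨Z, hZ⟩ : ∃ Z, Z = (J ×ˢ ((L ×ˢ (I ×ˢ A)) ×ˢ A)).filter
      fun w => ψ w.1 w.2.1.1 w.2.1.2.1 + f w.2.1.2.2 = f w.2.2 := ⟨_, rfl⟩
  have e : ∑ j ∈ J, cross (L ×ˢ (I ×ˢ A)) (fun z => ψ j z.1 z.2.1 + f z.2.2) A f = Z.card := by
    simp only [hZ, cross, card_filter, sum_product J]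
  rw [e, sq, ← card_product]
  refine card_le_mul_card_image_of_maps_to (f := fun w => (w.2.1.2.2, w.2.2))
    (fun w hw => ?_) B fun p hp => ?_
  · simp only [hZ, mem_filter, mem_product] at hw
    exact mem_product.2 ⟨hw.1.2.1.2.2, hw.1.2.2⟩
  rw [mem_product] at hp
  rcases lt_or_ge 0 (f p.2 - f p.1) with hpos | hneg
  · obtain ⟨n, hn⟩ := Int.eq_ofNat_of_zero_le hpos.le
    refine le_trans ?_ (hB n (by omega) (by have := hM _ hp.1 _ hp.2; omega))
    refine card_le_card_of_injOn (fun w => (w.1, (w.2.1.1, w.2.1.2.1))) (fun w hw => ?_)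
      fun w hw w' hw' h => ?_
    · simp only [hZ, coe_filter, Set.mem_ofPred_eq, mem_filter, mem_product] at hw
      obtain ⟨⟨⟨h1, ⟨h2, h3, -⟩, -⟩, h4⟩, h5⟩ := hw
      refine mem_filter.2 ⟨mem_product.2 ⟨h1, mem_product.2 ⟨h2, h3⟩⟩, ?_⟩
      have h6 := congrArg Prod.fst h5
      have h7 := congrArg Prod.snd h5
      simp only at h6 h7 ⊢
      rw [h6, h7] at h4
      omega
    · simp only [coe_filter, Set.mem_ofPred_eq] at hw hw'
      simp only [Prod.mk.injEq] at h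
      have h6 := hw.2.trans hw'.2.symm
      simp only [Prod.mk.injEq] at h6
      exact Prod.ext h.1 (Prod.ext (Prod.ext h.2.1 (Prod.ext h.2.2 h6.1)) h6.2)
  · refine le_trans (le_of_eq ?_) (Nat.zero_le B)
    rw [card_eq_zero, filter_eq_empty_iff]
    intro w hw h5
    simp only [hZ, mem_filter, mem_product] at hw
    obtain ⟨⟨h1, ⟨h2, h3, -⟩, -⟩, h4⟩ := hw
    have := hψ _ h1 _ h2 _ h3
    have h6 := congrArg Prod.fst h5
    have h7 := congrArg Prod.snd h5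
    simp only at h6 h7
    rw [h6, h7] at h4
    omega

/-- First difference of the fourth power. -/
def diffOne (h y : ℕ) : ℤ := ((y + h : ℕ) : ℤ) ^ 4 - (y : ℤ) ^ 4

/-- Second difference. -/
def diffTwo (h k y : ℕ) : ℤ := diffOne h (y + k) - diffOne h y

/-- Third difference. -/
def diffThree (h k l y : ℕ) : ℤ := diffTwo h k (y + l) - diffTwo h k y

theorem diffOne_eq (h y : ℕ) :
    diffOne h y = ((h * (4 * y ^ 3 + 6 * h * y ^ 2 + 4 * h ^ 2 * y + h ^ 3) : ℕ) : ℤ) := by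
  unfold diffOne; push_cast; ring

theorem diffTwo_eq (h k y : ℕ) : diffTwo h k y =
    ((h * k * (12 * y ^ 2 + 12 * (h + k) * y + 4 * h ^ 2 + 6 * h * k + 4 * k ^ 2) : ℕ) : ℤ) := by
  unfold diffTwo diffOne; push_cast; ring

theorem diffThree_eq (h k l y : ℕ) :
    diffThree h k l y = ((h * k * l * (24 * y + 12 * (h + k + l)) : ℕ) : ℤ) := by
  unfold diffThree diffTwo diffOne; push_cast; ring

/-- A number of the form `d g (y)`, `g` increasing, has one `y` to each divisor. -/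
theorem eq_of_mul_strictMono {d y y' : ℕ} {g : ℕ → ℕ} (hg : StrictMono g) (hd : 0 < d)
    (h : d * g y = d * g y') : y = y' :=
  hg.injective (Nat.eq_of_mul_eq_mul_left hd h)

theorem card_diffOne_fibre (K I : Finset ℕ) (hK : ∀ h ∈ K, 1 ≤ h) {n : ℕ} (hn : 1 ≤ n) :
    ((K ×ˢ I).filter fun z => diffOne z.1 z.2 = n).card ≤ n.divisors.card := by
  refine card_le_card_of_injOn Prod.fst (fun z hz => ?_) fun z hz z' hz' e => ?_
  · rw [mem_coe, mem_filter, diffOne_eq, Nat.cast_inj] at hz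
    exact Nat.mem_divisors.2 ⟨Dvd.intro _ hz.2, by omega⟩
  · rw [mem_coe, mem_filter, diffOne_eq, Nat.cast_inj, mem_product] at hz hz'
    refine Prod.ext e (eq_of_mul_strictMono (d := z.1)
      (g := fun y => 4 * y ^ 3 + 6 * z.1 * y ^ 2 + 4 * z.1 ^ 2 * y + z.1 ^ 3) (fun a b hab => ?_)
      (hK _ hz.1.1) ?_)
    · dsimp only
      have := Nat.pow_lt_pow_left hab (show 3 ≠ 0 by norm_num)
      refine Nat.add_lt_add_right (Nat.add_lt_add_of_lt_of_le (Nat.add_lt_add_of_lt_of_le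
        (Nat.mul_lt_mul_of_pos_left this (by norm_num)) ?_) ?_) _ <;> gcongr
    · rw [hz.2]
      rw [← e] at hz'
      exact hz'.2.symm

theorem card_diffTwo_fibre (K L I : Finset ℕ) (hK : ∀ h ∈ K, 1 ≤ h) (hL : ∀ k ∈ L, 1 ≤ k) {n : ℕ}
    (hn : 1 ≤ n) :
    ((K ×ˢ (L ×ˢ I)).filter fun z => diffTwo z.1 z.2.1 z.2.2 = n).card ≤ n.divisors.card ^ 2 := by
  rw [sq, ← card_product]
  refine card_le_card_of_injOn (fun z => (z.1, z.2.1)) (fun z hz => ?_) fun z hz z' hz' e => ?_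
  · rw [mem_coe, mem_filter, diffTwo_eq, Nat.cast_inj] at hz
    exact mem_product.2 ⟨Nat.mem_divisors.2 ⟨(Dvd.intro _ rfl).trans (Dvd.intro _ hz.2), by omega⟩,
      Nat.mem_divisors.2 ⟨(Dvd.intro_left _ rfl).trans (Dvd.intro _ hz.2), by omega⟩⟩
  · simp only [Prod.mk.injEq] at e
    rw [mem_coe, mem_filter, diffTwo_eq, Nat.cast_inj, mem_product, mem_product] at hz hz'
    refine Prod.ext e.1 (Prod.ext e.2 (eq_of_mul_strictMono (d := z.1 * z.2.1)
      (g := fun y => 12 * y ^ 2 + 12 * (z.1 + z.2.1) * y + 4 * z.1 ^ 2 + 6 * z.1 * z.2.1 +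
        4 * z.2.1 ^ 2) (fun a b hab => ?_)
      (Nat.mul_pos (hK _ hz.1.1) (hL _ hz.1.2.1)) ?_))
    · dsimp only
      refine Nat.add_lt_add_right (Nat.add_lt_add_right (Nat.add_lt_add_right
        (Nat.add_lt_add_of_lt_of_le ?_ ?_) _) _) _ <;> gcongr
    · rw [hz.2]
      rw [← e.1, ← e.2] at hz'
      exact hz'.2.symm

theorem card_diffThree_fibre (K L I : Finset ℕ) (hK : ∀ h ∈ K, 1 ≤ h) (hL : ∀ k ∈ L, 1 ≤ k)
    {n : ℕ} (hn : 1 ≤ n) :
    (((K ×ˢ L) ×ˢ (L ×ˢ I)).filter fun z => diffThree z.1.1 z.1.2 z.2.1 z.2.2 = n).card ≤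
      n.divisors.card ^ 3 := by
  rw [show n.divisors.card ^ 3 = n.divisors.card * n.divisors.card * n.divisors.card by ring,
    ← card_product, ← card_product]
  refine card_le_card_of_injOn (fun z => (z.1, z.2.1)) (fun z hz => ?_) fun z hz z' hz' e => ?_
  · rw [mem_coe, mem_filter, diffThree_eq, Nat.cast_inj] at hz
    have hd : z.1.1 * z.1.2 * z.2.1 ∣ n := Dvd.intro _ hz.2
    exact mem_product.2 ⟨mem_product.2
      ⟨Nat.mem_divisors.2 ⟨((Dvd.intro _ rfl).trans (Dvd.intro _ rfl)).trans hd, by omega⟩,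
        Nat.mem_divisors.2 ⟨((Dvd.intro_left _ rfl).trans (Dvd.intro _ rfl)).trans hd, by omega⟩⟩,
      Nat.mem_divisors.2 ⟨(Dvd.intro_left _ rfl).trans hd, by omega⟩⟩
  · simp only [Prod.mk.injEq] at e
    rw [mem_coe, mem_filter, diffThree_eq, Nat.cast_inj, mem_product, mem_product, mem_product]
      at hz hz'
    refine Prod.ext e.1 (Prod.ext e.2 (eq_of_mul_strictMono (d := z.1.1 * z.1.2 * z.2.1)
      (g := fun y => 24 * y + 12 * (z.1.1 + z.1.2 + z.2.1)) (fun a b hab => ?_)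
      (Nat.mul_pos (Nat.mul_pos (hK _ hz.1.1.1) (hL _ hz.1.1.2)) (hL _ hz.1.2.1)) ?_))
    · dsimp only
      gcongr
    · rw [hz.2]
      rw [← e.1, ← e.2] at hz'
      exact hz'.2.symm

theorem sum_le_linear {ι : Type*} {J : Finset ι} {n a : ℕ} {e c : ι → ℕ} (hn : J.card = n)
    (h : ∀ j ∈ J, e j ≤ a + 2 * c j) : ∑ j ∈ J, e j ≤ n * a + 2 * ∑ j ∈ J, c j := by
  refine (sum_le_sum h).trans (le_of_eq ?_)
  rw [sum_add_distrib, sum_const, hn, smul_eq_mul, ← mul_sum]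

/-- The range `(P, 2 P]`. -/
def dyadicRange (P : ℕ) : Finset ℕ := Ioc P (2 * P)

@[simp] theorem card_dyadicRange (P : ℕ) : (dyadicRange P).card = P := by
  rw [dyadicRange, Nat.card_Ioc]
  omega

theorem sub_mem_of_dyadicRange {P y y' : ℕ} (hy : y ∈ dyadicRange P) (hy' : y' ∈ dyadicRange P)
    (h : y < y') : y' - y ∈ Icc 1 P := by
  rw [dyadicRange, mem_Ioc] at hy hy'
  rw [mem_Icc]
  omega

theorem sub_mem_of_eq {P H M y y' : ℕ} (hP : 1 ≤ P) (hy : y ∈ dyadicRange P) (h : y < y')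
    (hM : M ≤ 4 * H * P ^ 3) {a b : β} (hab : f b - f a ≤ M)
    (he : (y' : ℤ) ^ 4 + f a = (y : ℤ) ^ 4 + f b) : y' - y ∈ Icc 1 H := by
  rw [dyadicRange, mem_Ioc] at hy
  obtain ⟨d, rfl⟩ : ∃ d, y' = y + d := ⟨y' - y, by omega⟩
  rw [mem_Icc, Nat.add_sub_cancel_left]
  have hd : diffOne d y ≤ M := by
    unfold diffOne
    push_cast at he ⊢
    linarith
  rw [diffOne_eq, Nat.cast_le] at hd
  have h3 : d * (4 * P ^ 3) ≤ H * (4 * P ^ 3) := by
    refine le_trans (Nat.mul_le_mul_left d ?_) (hd.trans (hM.trans (le_of_eq (by ring))))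
    have := Nat.pow_le_pow_left hy.1.le 3
    omega
  exact ⟨by omega, Nat.le_of_mul_le_mul_right h3 (by positivity)⟩

theorem diffOne_pos {h y : ℕ} (hh : 1 ≤ h) (hy : 1 ≤ y) : 0 < diffOne h y := by
  rw [diffOne_eq]
  exact_mod_cast (by positivity : 0 < h * (4 * y ^ 3 + 6 * h * y ^ 2 + 4 * h ^ 2 * y + h ^ 3))

/-- Divisors are few. -/
def DivisorsLe (M D : ℕ) : Prop := 1 ≤ D ∧ ∀ n : ℕ, 1 ≤ n → n ≤ M → n.divisors.card ≤ D

theorem one_le_of_mem_Icc {n h : ℕ} (hh : h ∈ Icc 1 n) : 1 ≤ h := (mem_Icc.1 hh).1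

/-- **Two equal variables**: the diagonal. -/
theorem energy_pair_le {N D : ℕ} (hD : DivisorsLe (16 * N ^ 4) D) :
    energy (dyadicRange N ×ˢ dyadicRange N) (fun z => (z.1 : ℤ) ^ 4 + (z.2 : ℤ) ^ 4) ≤
      3 * D * N ^ 2 := by
  have hI : energy (dyadicRange N) (fun y => (y : ℤ) ^ 4) ≤ N := by
    refine le_of_le_of_eq (card_le_card_of_injOn Prod.fst (fun z hz => ?_) fun z hz z' hz' e => ?_)
      (card_dyadicRange N)
    · exact (mem_product.1 (mem_filter.1 hz).1).1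
    · have h1 := (mem_filter.1 hz).2
      have h2 := (mem_filter.1 hz').2
      dsimp only at h1 h2
      refine Prod.ext e (Nat.pow_left_injective (show 4 ≠ 0 by norm_num) ?_)
      rw [e] at h1
      exact_mod_cast h1.symm.trans h2
  have hc := sum_cross_le (A := dyadicRange N) (f := fun y => (y : ℤ) ^ 4) (univ : Finset Unit)
    (Icc 1 N) (dyadicRange N) (fun _ => diffOne) (M := 16 * N ^ 4) (B := D)
    (fun a _ b hb => ?_)
    (fun _ _ l hl y hy => diffOne_pos (one_le_of_mem_Icc hl)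
      (by rw [dyadicRange, mem_Ioc] at hy; omega)) fun n hn hnM => ?_
  · rw [card_dyadicRange] at hc
    simp only [univ_unique, sum_singleton, diffOne] at hc
    refine (energy_prod_le (A := dyadicRange N) (f := fun y => (y : ℤ) ^ 4) (dyadicRange N)
      (Icc 1 N) (fun y => (y : ℤ) ^ 4)
      fun y hy y' hy' h a _ b _ _ => sub_mem_of_dyadicRange hy hy' h).trans ?_
    rw [card_dyadicRange]
    have h1 := Nat.mul_le_mul_left N hI
    have h2 : N ^ 2 ≤ D * N ^ 2 := Nat.le_mul_of_pos_left _ hD.1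
    rw [← sq] at h1
    linarith
  · rw [dyadicRange, mem_Ioc] at hb
    have h1 : ((b : ℤ)) ^ 4 ≤ ((2 * N : ℕ) : ℤ) ^ 4 := by
      exact_mod_cast Nat.pow_le_pow_left hb.2 4
    push_cast at h1 ⊢
    nlinarith [pow_nonneg (Int.natCast_nonneg a) 4]
  · refine le_trans ?_ (hD.2 n hn hnM)
    refine le_trans (card_le_card_of_injOn Prod.snd (fun z hz => ?_) fun z _ z' _ e => ?_)
      (card_diffOne_fibre (Icc 1 N) (dyadicRange N) (fun h hh => one_le_of_mem_Icc hh) hn)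
    · rw [mem_coe, mem_filter, mem_product] at hz
      exact mem_filter.2 ⟨hz.1.2, hz.2⟩
    · exact Prod.ext (Subsingleton.elim _ _) e

variable {P H M D κ : ℕ}

/-- **A new variable, by one further difference.** -/
theorem energy_step_one (hP : 1 ≤ P) (hf : ∀ a ∈ A, ∀ b ∈ A, f b - f a ≤ M)
    (hD : DivisorsLe M D) (hM : M ≤ 4 * H * P ^ 3) (hκ : 1 ≤ κ) (hH : H ^ 2 ≤ κ * P)
    (hHR : H * A.card ≤ κ * P ^ 2) :
    energy (dyadicRange P ×ˢ A) (fun z => (z.1 : ℤ) ^ 4 + f z.2) ≤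
      7 * κ * D ^ 2 * P * energy A f := by
  obtain ⟨E, hE⟩ : ∃ E, E = energy A f := ⟨_, rfl⟩
  obtain ⟨c, hc⟩ : ∃ c, c = cross (Icc 1 H ×ˢ (dyadicRange P ×ˢ A))
      (fun z => diffOne z.1 z.2.1 + f z.2.2) A f := ⟨_, rfl⟩
  obtain ⟨c', hc'⟩ : ∃ c', c' = ∑ h ∈ Icc 1 H, cross (Icc 1 P ×ˢ (dyadicRange P ×ˢ A))
      (fun z => diffTwo h z.1 z.2.1 + f z.2.2) A f := ⟨_, rfl⟩
  have h1 : energy (dyadicRange P ×ˢ A) (fun z => (z.1 : ℤ) ^ 4 + f z.2) ≤ P * E + 2 * c := by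
    have := energy_prod_le (A := A) (f := f) (dyadicRange P) (Icc 1 H) (fun y => (y : ℤ) ^ 4)
      fun y hy y' _ h a ha b hb he => sub_mem_of_eq hP hy h hM (hf a ha b hb) he
    rw [hE, hc]
    rwa [card_dyadicRange] at this
  have h2 : c' ≤ D ^ 2 * A.card ^ 2 := by
    rw [hc']
    refine sum_cross_le (Icc 1 H) (Icc 1 P) (dyadicRange P) diffTwo hf
      (fun h hh k hk y hy => ?_) fun n hn hnM => ?_
    · have := one_le_of_mem_Icc hh
      have := one_le_of_mem_Icc hk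
      rw [dyadicRange, mem_Ioc] at hy
      rw [diffTwo_eq]
      exact_mod_cast Nat.mul_pos (by positivity) (by have := Nat.one_le_pow 2 y (by omega); omega)
    · exact (card_diffTwo_fibre _ _ _ (fun h hh => one_le_of_mem_Icc hh)
        (fun h hh => one_le_of_mem_Icc hh) hn).trans (Nat.pow_le_pow_left (hD.2 n hn hnM) 2)
  have h3 : c ^ 2 ≤ H * (H * (P * E) + 2 * c') * E := by
    rw [hc, hc', hE]
    refine (cross_sq_le _ _ _ _).trans (Nat.mul_le_mul_right _ ?_)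
    refine (energy_prod_index_le _ _ _).trans ?_
    rw [Nat.card_Icc, Nat.add_sub_cancel]
    refine Nat.mul_le_mul_left _ (sum_le_linear (by simp)
      fun h _ => ?_)
    have := energy_prod_le (A := A) (f := f) (dyadicRange P) (Icc 1 P) (diffOne h)
      fun y hy y' hy' hlt a _ b _ _ => sub_mem_of_dyadicRange hy hy' hlt
    rwa [card_dyadicRange] at this
  have hR : A.card ≤ E := hE ▸ card_le_energy A f
  have h4 : c ≤ 3 * κ * D ^ 2 * P * E := by
    refine (Nat.pow_le_pow_iff_left two_ne_zero).1 (h3.trans ?_)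
    have g1 : H ^ 2 * (P * E ^ 2) ≤ κ * P * (P * E ^ 2) := Nat.mul_le_mul_right _ hH
    have g2 : H * A.card * (A.card * E) ≤ κ * P ^ 2 * (E * E) :=
      Nat.mul_le_mul hHR (Nat.mul_le_mul_right _ hR)
    have g3 : κ * D ^ 2 ≤ κ ^ 2 * D ^ 4 :=
      Nat.mul_le_mul (Nat.le_self_pow two_ne_zero κ) (Nat.pow_le_pow_right hD.1 (by norm_num))
    have g4 : 1 ≤ D ^ 2 := Nat.one_le_pow _ _ hD.1
    calc H * (H * (P * E) + 2 * c') * E
        ≤ H * (H * (P * E) + 2 * (D ^ 2 * A.card ^ 2)) * E := by gcongr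
      _ = H ^ 2 * (P * E ^ 2) + 2 * D ^ 2 * (H * A.card * (A.card * E)) := by ring
      _ ≤ D ^ 2 * (κ * P * (P * E ^ 2)) + 2 * D ^ 2 * (κ * P ^ 2 * (E * E)) :=
          add_le_add (g1.trans (Nat.le_mul_of_pos_left _ g4)) (Nat.mul_le_mul_left _ g2)
      _ = 3 * (κ * D ^ 2) * (P ^ 2 * E ^ 2) := by ring
      _ ≤ 9 * (κ ^ 2 * D ^ 4) * (P ^ 2 * E ^ 2) := Nat.mul_le_mul_right _
          (Nat.mul_le_mul (by norm_num) g3)
      _ = _ := by ring
  rw [← hE]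
  refine h1.trans ((Nat.add_le_add_left (Nat.mul_le_mul_left 2 h4) _).trans ?_)
  have : 1 ≤ κ * D ^ 2 := Nat.one_le_iff_ne_zero.2 (by have := hD.1; positivity)
  calc P * E + 2 * (3 * κ * D ^ 2 * P * E) = (1 + 6 * (κ * D ^ 2)) * (P * E) := by ring
    _ ≤ 7 * (κ * D ^ 2) * (P * E) := Nat.mul_le_mul_right _ (by omega)
    _ = _ := by ring

/-- **A new variable, by two further differences.** -/
theorem energy_step_two (hP : 1 ≤ P) (hf : ∀ a ∈ A, ∀ b ∈ A, f b - f a ≤ M)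
    (hD : DivisorsLe M D) (hM : M ≤ 4 * H * P ^ 3) (hκ : 1 ≤ κ) (hH : H ^ 4 ≤ κ * P)
    (hHR : H ^ 3 * A.card ≤ κ * P ^ 3) :
    energy (dyadicRange P ×ˢ A) (fun z => (z.1 : ℤ) ^ 4 + f z.2) ≤
      7 * κ * D ^ 3 * P * energy A f := by
  obtain ⟨E, hE⟩ : ∃ E, E = energy A f := ⟨_, rfl⟩
  obtain ⟨c, hc⟩ : ∃ c, c = cross (Icc 1 H ×ˢ (dyadicRange P ×ˢ A))
      (fun z => diffOne z.1 z.2.1 + f z.2.2) A f := ⟨_, rfl⟩
  obtain ⟨d, hd⟩ : ∃ d : ℕ → ℕ, d = fun h => cross (Icc 1 P ×ˢ (dyadicRange P ×ˢ A))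
      (fun z => diffTwo h z.1 z.2.1 + f z.2.2) A f := ⟨_, rfl⟩
  obtain ⟨c', hc'⟩ : ∃ c', c' = ∑ j ∈ Icc 1 H ×ˢ Icc 1 P,
      cross (Icc 1 P ×ˢ (dyadicRange P ×ˢ A))
        (fun z => diffThree j.1 j.2 z.1 z.2.1 + f z.2.2) A f := ⟨_, rfl⟩
  have h1 : energy (dyadicRange P ×ˢ A) (fun z => (z.1 : ℤ) ^ 4 + f z.2) ≤ P * E + 2 * c := by
    have := energy_prod_le (A := A) (f := f) (dyadicRange P) (Icc 1 H) (fun y => (y : ℤ) ^ 4)
      fun y hy y' _ h a ha b hb he => sub_mem_of_eq hP hy h hM (hf a ha b hb) he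
    rw [hE, hc]
    rwa [card_dyadicRange] at this
  have h2 : c' ≤ D ^ 3 * A.card ^ 2 := by
    rw [hc']
    refine sum_cross_le (Icc 1 H ×ˢ Icc 1 P) (Icc 1 P) (dyadicRange P)
      (fun j => diffThree j.1 j.2) hf (fun j hj l hl y hy => ?_) fun n hn hnM => ?_
    · rw [mem_product] at hj
      have := one_le_of_mem_Icc hj.1
      have := one_le_of_mem_Icc hj.2
      have := one_le_of_mem_Icc hl
      rw [diffThree_eq]
      exact_mod_cast Nat.mul_pos (by positivity) (by omega)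
    · exact (card_diffThree_fibre _ _ _ (fun h hh => one_le_of_mem_Icc hh)
        (fun h hh => one_le_of_mem_Icc hh) hn).trans (Nat.pow_le_pow_left (hD.2 n hn hnM) 3)
  have h3 : c ^ 2 ≤ H * (H * (P * E) + 2 * ∑ h ∈ Icc 1 H, d h) * E := by
    rw [hc, hd, hE]
    refine (cross_sq_le _ _ _ _).trans (Nat.mul_le_mul_right _ ?_)
    refine (energy_prod_index_le _ _ _).trans ?_
    rw [Nat.card_Icc, Nat.add_sub_cancel]
    refine Nat.mul_le_mul_left _ (sum_le_linear (by simp)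
      fun h _ => ?_)
    have := energy_prod_le (A := A) (f := f) (dyadicRange P) (Icc 1 P) (diffOne h)
      fun y hy y' hy' hlt a _ b _ _ => sub_mem_of_dyadicRange hy hy' hlt
    rwa [card_dyadicRange] at this
  have h4 : (∑ h ∈ Icc 1 H, d h) ^ 2 ≤ H * (P * (H * P * (P * E) + 2 * c') * E) := by
    refine sq_sum_le_card_mul_sum_sq.trans ?_
    rw [Nat.card_Icc, Nat.add_sub_cancel]
    refine Nat.mul_le_mul_left _ ?_
    rw [hc', sum_product, mul_sum, show H * P * (P * E) = ∑ _h ∈ Icc 1 H, P * (P * E) by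
      rw [sum_const, Nat.card_Icc, Nat.add_sub_cancel, smul_eq_mul]; ring, ← sum_add_distrib,
      mul_sum, sum_mul]
    refine sum_le_sum fun h _ => ?_
    rw [hd, hE]
    refine (cross_sq_le _ _ _ _).trans (Nat.mul_le_mul_right _ ?_)
    refine (energy_prod_index_le _ _ _).trans ?_
    rw [Nat.card_Icc, Nat.add_sub_cancel]
    refine Nat.mul_le_mul_left _ (sum_le_linear (by simp)
      fun k _ => ?_)
    have := energy_prod_le (A := A) (f := f) (dyadicRange P) (Icc 1 P) (diffTwo h k)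
      fun y hy y' hy' hlt a _ b _ _ => sub_mem_of_dyadicRange hy hy' hlt
    rwa [card_dyadicRange] at this
  have hR : A.card ≤ E := hE ▸ card_le_energy A f
  have g4 : 1 ≤ D ^ 3 := Nat.one_le_pow _ _ hD.1
  have g5 : κ * D ^ 3 ≤ κ ^ 2 * D ^ 6 :=
    Nat.mul_le_mul (Nat.le_self_pow two_ne_zero κ) (Nat.pow_le_pow_right hD.1 (by norm_num))
  have h5 : H * ∑ h ∈ Icc 1 H, d h ≤ 2 * κ * D ^ 3 * P ^ 2 * E := by
    refine (Nat.pow_le_pow_iff_left two_ne_zero).1 ?_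
    rw [mul_pow]
    refine (Nat.mul_le_mul_left _ h4).trans ?_
    have g1 : H ^ 4 * (P ^ 3 * E ^ 2) ≤ κ * P * (P ^ 3 * E ^ 2) := Nat.mul_le_mul_right _ hH
    have g2 : H ^ 3 * A.card * (P * (A.card * E)) ≤ κ * P ^ 3 * (P * (E * E)) :=
      Nat.mul_le_mul hHR (Nat.mul_le_mul_left _ (Nat.mul_le_mul_right _ hR))
    calc H ^ 2 * (H * (P * (H * P * (P * E) + 2 * c') * E))
        ≤ H ^ 2 * (H * (P * (H * P * (P * E) + 2 * (D ^ 3 * A.card ^ 2)) * E)) := by gcongr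
      _ = H ^ 4 * (P ^ 3 * E ^ 2) + 2 * D ^ 3 * (H ^ 3 * A.card * (P * (A.card * E))) := by ring
      _ ≤ D ^ 3 * (κ * P * (P ^ 3 * E ^ 2)) + 2 * D ^ 3 * (κ * P ^ 3 * (P * (E * E))) :=
          add_le_add (g1.trans (Nat.le_mul_of_pos_left _ g4)) (Nat.mul_le_mul_left _ g2)
      _ = 3 * (κ * D ^ 3) * (P ^ 4 * E ^ 2) := by ring
      _ ≤ 4 * (κ ^ 2 * D ^ 6) * (P ^ 4 * E ^ 2) := Nat.mul_le_mul_right _
          (Nat.mul_le_mul (by norm_num) g5)
      _ = _ := by ring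
  have h6 : c ≤ 3 * κ * D ^ 3 * P * E := by
    refine (Nat.pow_le_pow_iff_left two_ne_zero).1 (h3.trans ?_)
    have g1 : H ^ 2 * (P * E ^ 2) ≤ κ * P * (P * E ^ 2) := by
      refine Nat.mul_le_mul_right _ (le_trans ?_ hH)
      rcases Nat.eq_zero_or_pos H with h0 | h0
      · rw [h0]; norm_num
      · exact Nat.pow_le_pow_right h0 (by norm_num)
    calc H * (H * (P * E) + 2 * ∑ h ∈ Icc 1 H, d h) * E
        = H ^ 2 * (P * E ^ 2) + 2 * (H * ∑ h ∈ Icc 1 H, d h) * E := by ring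
      _ ≤ D ^ 3 * (κ * P * (P * E ^ 2)) + 2 * (2 * κ * D ^ 3 * P ^ 2 * E) * E :=
          add_le_add (g1.trans (Nat.le_mul_of_pos_left _ g4))
            (Nat.mul_le_mul_right _ (Nat.mul_le_mul_left _ h5))
      _ = 5 * (κ * D ^ 3) * (P ^ 2 * E ^ 2) := by ring
      _ ≤ 9 * (κ ^ 2 * D ^ 6) * (P ^ 2 * E ^ 2) := Nat.mul_le_mul_right _
          (Nat.mul_le_mul (by norm_num) g5)
      _ = _ := by ring
  rw [← hE]
  refine h1.trans ((Nat.add_le_add_left (Nat.mul_le_mul_left 2 h6) _).trans ?_)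
  have : 1 ≤ κ * D ^ 3 := Nat.one_le_iff_ne_zero.2 (by have := hD.1; positivity)
  calc P * E + 2 * (3 * κ * D ^ 3 * P * E) = (1 + 6 * (κ * D ^ 3)) * (P * E) := by ring
    _ ≤ 7 * (κ * D ^ 3) * (P * E) := Nat.mul_le_mul_right _ (by omega)
    _ = _ := by ring

/-- The four small variables. -/
def smallBox (T : ℕ) : Finset (ℕ × ℕ × ℕ × ℕ) :=
  dyadicRange (T ^ 288) ×ˢ (dyadicRange (T ^ 234) ×ˢ
    (dyadicRange (T ^ 195) ×ˢ dyadicRange (T ^ 195)))

/-- Their sum of fourth powers. -/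
def smallVal (v : ℕ × ℕ × ℕ × ℕ) : ℕ := v.1 ^ 4 + (v.2.1 ^ 4 + (v.2.2.1 ^ 4 + v.2.2.2 ^ 4))

/-- The five variables. -/
def nestedBox (T : ℕ) : Finset (ℕ × ℕ × ℕ × ℕ × ℕ) := dyadicRange (T ^ 364) ×ˢ smallBox T

/-- Their sum of fourth powers. -/
def nestedVal (v : ℕ × ℕ × ℕ × ℕ × ℕ) : ℕ := v.1 ^ 4 + smallVal v.2

theorem card_smallBox (T : ℕ) : (smallBox T).card = T ^ 912 := by
  simp only [smallBox, card_product, card_dyadicRange, ← pow_add]

theorem card_nestedBox (T : ℕ) : (nestedBox T).card = T ^ 1276 := by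
  simp only [nestedBox, card_product, card_dyadicRange, card_smallBox, ← pow_add]

theorem pow_four_le {T e E y : ℕ} (hT : 1 ≤ T) (he : 4 * e ≤ E) (hy : y ∈ dyadicRange (T ^ e)) :
    y ^ 4 ≤ 16 * T ^ E := by
  rw [dyadicRange, mem_Ioc] at hy
  refine (Nat.pow_le_pow_left hy.2 4).trans ?_
  rw [mul_pow, ← pow_mul]
  exact Nat.mul_le_mul (by norm_num) (Nat.pow_le_pow_right hT (by omega))

/-- **The mean value**, with an explicit number of divisors. -/
theorem energy_nestedBox_le {T D : ℕ} (hT : 1 ≤ T) (hD : DivisorsLe (64 * T ^ 1152) D) :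
    energy (nestedBox T) (fun v => (nestedVal v : ℤ)) ≤ 3 * (7 * 65536) ^ 3 * D ^ 9 * T ^ 1276 := by
  have hpow : ∀ e, 1 ≤ T ^ e := fun e => Nat.one_le_pow _ _ hT
  have hsub : ∀ M, M ≤ 64 * T ^ 1152 → DivisorsLe M D := fun M hM =>
    ⟨hD.1, fun n hn hnM => hD.2 n hn (hnM.trans hM)⟩
  have hmon : ∀ {e e'}, e ≤ e' → T ^ e ≤ T ^ e' := fun h => Nat.pow_le_pow_right hT h
  obtain ⟨A₂, hA₂⟩ : ∃ A, A = dyadicRange (T ^ 195) ×ˢ dyadicRange (T ^ 195) := ⟨_, rfl⟩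
  obtain ⟨A₃, hA₃⟩ : ∃ A, A = dyadicRange (T ^ 234) ×ˢ A₂ := ⟨_, rfl⟩
  obtain ⟨f₂, hf₂⟩ : ∃ f : ℕ × ℕ → ℤ, f = fun z => (z.1 : ℤ) ^ 4 + (z.2 : ℤ) ^ 4 := ⟨_, rfl⟩
  obtain ⟨f₃, hf₃⟩ : ∃ f : ℕ × ℕ × ℕ → ℤ, f = fun z => (z.1 : ℤ) ^ 4 + f₂ z.2 := ⟨_, rfl⟩
  have v₂ : ∀ a ∈ A₂, 0 ≤ f₂ a ∧ f₂ a ≤ ((32 * T ^ 780 : ℕ) : ℤ) := fun a ha => by
    rw [hA₂, mem_product] at ha
    have h1 := pow_four_le hT (show 4 * 195 ≤ 780 by norm_num) ha.1
    have h2 := pow_four_le hT (show 4 * 195 ≤ 780 by norm_num) ha.2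
    rw [hf₂]
    dsimp only
    exact ⟨by positivity, by exact_mod_cast (by omega : a.1 ^ 4 + a.2 ^ 4 ≤ 32 * T ^ 780)⟩
  have v₃ : ∀ a ∈ A₃, 0 ≤ f₃ a ∧ f₃ a ≤ ((48 * T ^ 936 : ℕ) : ℤ) := fun a ha => by
    rw [hA₃, mem_product] at ha
    have h1 : ((a.1 ^ 4 : ℕ) : ℤ) ≤ ((16 * T ^ 936 : ℕ) : ℤ) :=
      Nat.cast_le.2 (pow_four_le hT (by norm_num) ha.1)
    have h2 : ((32 * T ^ 780 : ℕ) : ℤ) ≤ ((32 * T ^ 936 : ℕ) : ℤ) :=
      Nat.cast_le.2 (Nat.mul_le_mul_left _ (hmon (by norm_num)))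
    obtain ⟨h3, h4⟩ := v₂ a.2 ha.2
    rw [hf₃]
    dsimp only
    push_cast at h1 h2 h4 ⊢
    constructor <;> linarith [pow_nonneg (Int.natCast_nonneg a.1) 4]
  have v₄ : ∀ a ∈ smallBox T, 0 ≤ (smallVal a : ℤ) ∧
      (smallVal a : ℤ) ≤ ((64 * T ^ 1152 : ℕ) : ℤ) := fun a ha => by
    rw [smallBox, mem_product, mem_product, mem_product] at ha
    refine ⟨Int.natCast_nonneg _, Nat.cast_le.2 ?_⟩
    have h1 := pow_four_le hT (show 4 * 288 ≤ 1152 by norm_num) ha.1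
    have h2 := pow_four_le hT (show 4 * 234 ≤ 1152 by norm_num) ha.2.1
    have h3 := pow_four_le hT (show 4 * 195 ≤ 1152 by norm_num) ha.2.2.1
    have h4 := pow_four_le hT (show 4 * 195 ≤ 1152 by norm_num) ha.2.2.2
    unfold smallVal
    omega
  have c₂ : A₂.card = T ^ 390 := by
    simp only [hA₂, card_product, card_dyadicRange, ← pow_add]
  have c₃ : A₃.card = T ^ 624 := by
    simp only [hA₃, card_product, card_dyadicRange, c₂, ← pow_add]
  have e₂ : energy A₂ f₂ ≤ 3 * D * T ^ 390 := by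
    rw [hA₂, hf₂]
    refine (energy_pair_le (hsub _ ?_)).trans (le_of_eq (by rw [← pow_mul]))
    rw [← pow_mul]
    exact Nat.mul_le_mul (by norm_num) (hmon (by norm_num))
  have e₃ : energy A₃ f₃ ≤ 7 * 65536 * D ^ 2 * T ^ 234 * energy A₂ f₂ := by
    rw [hA₃, hf₃]
    refine energy_step_one (M := 32 * T ^ 780) (H := 8 * T ^ 78) (hpow _)
      (fun a ha b hb => ?_) (hsub _ ?_) (le_of_eq ?_) (by norm_num) ?_ ?_
    · have := (v₂ a ha).1
      have := (v₂ b hb).2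
      omega
    · exact Nat.mul_le_mul (by norm_num) (hmon (by norm_num))
    · rw [← pow_mul, mul_assoc, mul_assoc, ← pow_add]; ring
    · rw [mul_pow, ← pow_mul]
      exact Nat.mul_le_mul (by norm_num) (hmon (by norm_num))
    · rw [c₂, mul_assoc, ← pow_add, ← pow_mul]
      exact Nat.mul_le_mul (by norm_num) (hmon (by norm_num))
  have e₄ : energy (smallBox T) (fun a => (smallVal a : ℤ)) ≤
      7 * 65536 * D ^ 3 * T ^ 288 * energy A₃ f₃ := by
    have h := energy_step_two (A := A₃) (f := f₃) (M := 48 * T ^ 936) (H := 12 * T ^ 72)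
      (κ := 65536) (D := D) (hpow 288)
      (fun a ha b hb => by have := (v₃ a ha).1; have := (v₃ b hb).2; omega)
      (hsub _ (Nat.mul_le_mul (by norm_num) (hmon (by norm_num))))
      (le_of_eq (by rw [← pow_mul, mul_assoc, mul_assoc, ← pow_add]; ring)) (by norm_num)
      (by rw [mul_pow, ← pow_mul]; exact Nat.mul_le_mul (by norm_num) (hmon (by norm_num)))
      (by rw [c₃, mul_pow, ← pow_mul, mul_assoc, ← pow_add, ← pow_mul]
          exact Nat.mul_le_mul (by norm_num) (hmon (by norm_num)))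
    rw [hA₃, hA₂, hf₃, hf₂] at h
    rw [hA₃, hA₂, hf₃, hf₂]
    simpa only [smallBox, smallVal, Nat.cast_add, Nat.cast_pow] using h
  have e₅ : energy (nestedBox T) (fun v => (nestedVal v : ℤ)) ≤
      7 * 65536 * D ^ 3 * T ^ 364 * energy (smallBox T) (fun a => (smallVal a : ℤ)) := by
    have h := energy_step_two (A := smallBox T) (f := fun a => (smallVal a : ℤ))
      (M := 64 * T ^ 1152) (H := 16 * T ^ 60) (κ := 65536) (D := D) (hpow 364)
      (fun a ha b hb => by have := (v₄ a ha).1; have := (v₄ b hb).2; omega)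
      hD
      (le_of_eq (by rw [← pow_mul, mul_assoc, mul_assoc, ← pow_add]; ring)) (by norm_num)
      (by rw [mul_pow, ← pow_mul]; exact Nat.mul_le_mul (by norm_num) (hmon (by norm_num)))
      (by rw [card_smallBox, mul_pow, ← pow_mul, mul_assoc, ← pow_add, ← pow_mul]
          exact Nat.mul_le_mul (by norm_num) (hmon (by norm_num)))
    simpa only [nestedBox, nestedVal, Nat.cast_add, Nat.cast_pow] using h
  refine e₅.trans ((Nat.mul_le_mul_left _ (e₄.trans (Nat.mul_le_mul_left _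
    (e₃.trans (Nat.mul_le_mul_left _ e₂))))).trans (le_of_eq ?_))
  rw [show T ^ 1276 = T ^ 364 * T ^ 288 * T ^ 234 * T ^ 390 by rw [← pow_add, ← pow_add, ← pow_add]]
  ring

/-- **The mean value for five variables**: the diagonal, up to `T ^ ε`. -/
theorem exists_energy_le {ε : ℝ} (hε : 0 < ε) : ∃ C : ℝ, 0 < C ∧ ∀ T : ℕ, 1 ≤ T →
    (energy (nestedBox T) (fun v => (nestedVal v : ℤ)) : ℝ) ≤ C * (T : ℝ) ^ (1276 + ε) := by
  obtain ⟨δ, hδ⟩ : ∃ δ : ℝ, δ = ε / 10368 := ⟨_, rfl⟩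
  have hδ0 : 0 < δ := hδ ▸ by positivity
  obtain ⟨C, hC, hdiv⟩ := RepresentationBound.card_divisors_isBigO δ hδ0
  refine ⟨3 * (7 * 65536) ^ 3 * (2 * C * (64 : ℝ) ^ δ) ^ 9, by positivity, fun T hT => ?_⟩
  have hTr : (1 : ℝ) ≤ T := by exact_mod_cast hT
  obtain ⟨X, hX⟩ : ∃ X : ℝ, X = C * (64 : ℝ) ^ δ * (T : ℝ) ^ ((1152 : ℝ) * δ) := ⟨_, rfl⟩
  have hX1 : 1 ≤ X := hX ▸ one_le_mul_of_one_le_of_one_le (one_le_mul_of_one_le_of_one_le hC
    (Real.one_le_rpow (by norm_num) hδ0.le)) (Real.one_le_rpow hTr (by positivity))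
  have hD : DivisorsLe (64 * T ^ 1152) ⌈X⌉₊ := by
    refine ⟨Nat.one_le_iff_ne_zero.2 (Nat.ceil_pos.2 (by linarith)).ne', fun n hn hnM => ?_⟩
    refine Nat.cast_le.1 ((hdiv n (by omega)).trans (le_trans (le_of_le_of_eq ?_ hX.symm)
      (Nat.le_ceil X)))
    rw [mul_assoc, Real.rpow_mul (by linarith), show (1152 : ℝ) = ((1152 : ℕ) : ℝ) by norm_num,
      Real.rpow_natCast,
      ← Real.mul_rpow (by norm_num) (by positivity)]
    exact mul_le_mul_of_nonneg_left (Real.rpow_le_rpow (Nat.cast_nonneg n)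
      (by exact_mod_cast hnM) hδ0.le) (by linarith)
  refine (Nat.cast_le.2 (energy_nestedBox_le hT hD)).trans ?_
  push_cast
  have hD2 : (⌈X⌉₊ : ℝ) ≤ 2 * X := by
    have := Nat.ceil_lt_add_one (show 0 ≤ X by linarith)
    linarith
  have h9 : (⌈X⌉₊ : ℝ) ^ 9 ≤ (2 * C * (64 : ℝ) ^ δ) ^ 9 * (T : ℝ) ^ ε := by
    refine (pow_le_pow_left₀ (Nat.cast_nonneg _) hD2 9).trans (le_of_eq ?_)
    rw [hX, show 2 * (C * (64 : ℝ) ^ δ * (T : ℝ) ^ ((1152 : ℝ) * δ)) =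
      2 * C * (64 : ℝ) ^ δ * (T : ℝ) ^ ((1152 : ℝ) * δ) by ring, mul_pow,
      ← Real.rpow_natCast ((T : ℝ) ^ _) 9, ← Real.rpow_mul (by linarith), hδ]
    congr 2
    push_cast
    ring
  rw [Real.rpow_add (by linarith), show (1276 : ℝ) = ((1276 : ℕ) : ℝ) by norm_num,
    Real.rpow_natCast]
  refine (mul_le_mul_of_nonneg_right (mul_le_mul_of_nonneg_left h9 (by positivity))
    (by positivity)).trans (le_of_eq ?_)
  ring

end FA.BiquadratesSixteen
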