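import Fermat.Agent.WaringAsymptotic.Positivity

/-!
# The singular series for six fourth powers

`φ (q) max ‖S (q, a) / q‖ ^ 6` is summable, even times `q ^ (1/10)`, by multiplicativity; so the
series converges absolutely, and it is bounded below on the numbers that are `1, …, 6` modulo `16`.
-/

set_option autoImplicit false

noncomputable section

namespace FA.BiquadratesSixteen

open Finset Filter FA.ThreePrimes FA.WaringAsymptotic

/-- `∑ ‖S (q, r) / q‖ ^ 6` over the unit residues. -/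
def sixTerm (q : ℕ) : ℝ := ∑ r ∈ unitResidues q, ‖densityFactor 4 q r‖ ^ 6

theorem sixTerm_nonneg (q : ℕ) : 0 ≤ sixTerm q := sum_nonneg fun _ _ => by positivity

theorem norm_singularTerm_le (N q : ℕ) : ‖singularTerm 4 6 N q‖ ≤ sixTerm q :=
  (norm_sum_le _ _).trans (le_of_eq (sum_congr rfl fun r _ => by
    rw [norm_mul, norm_pow, norm_eAdd, mul_one]))

theorem sixTerm_mul {m n : ℕ} (h : m.Coprime n) : sixTerm (m * n) = sixTerm m * sixTerm n := by
  rcases Nat.eq_zero_or_pos m with rfl | hm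
  · simp [sixTerm, unitResidues]
  rcases Nat.eq_zero_or_pos n with rfl | hn
  · simp [sixTerm, unitResidues]
  rw [sixTerm, sixTerm, sixTerm, sum_mul_sum, sum_unitResidues_mul h]
  refine sum_congr rfl fun a _ => sum_congr rfl fun b _ => ?_
  have e := congrArg (fun z : ℂ => ‖z‖)
    (localFactor_mul (k := 4) (s := 6) (N := 0) (by norm_num) h hm hn a b)
  simpa [localFactor, norm_eAdd] using e

/-- The weighted term. -/
def sixWeight (q : ℕ) : ℝ := sixTerm q * (q : ℝ) ^ (1 / 10 : ℝ)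

theorem sixWeight_nonneg (q : ℕ) : 0 ≤ sixWeight q :=
  mul_nonneg (sixTerm_nonneg q) (by positivity)

theorem sixWeight_one : sixWeight 1 = 1 := by
  simp [sixWeight, sixTerm, unitResidues, densityFactor, completeSum,
    show ∀ x : ℝ, x * 0 = 0 from mul_zero]

theorem sixWeight_mul {m n : ℕ} (h : m.Coprime n) :
    sixWeight (m * n) = sixWeight m * sixWeight n := by
  rw [sixWeight, sixWeight, sixWeight, sixTerm_mul h, Nat.cast_mul,
    Real.mul_rpow (Nat.cast_nonneg m) (Nat.cast_nonneg n)]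
  ring

theorem sixTerm_le_of_bound {q : ℕ} {B : ℝ}
    (h : ∀ r ∈ unitResidues q, ‖densityFactor 4 q r‖ ≤ B) : sixTerm q ≤ q * B ^ 6 := by
  rcases Nat.eq_zero_or_pos (unitResidues q).card with h0 | h0
  · rw [sixTerm, card_eq_zero.1 h0, sum_empty]
    positivity
  refine (sum_le_card_nsmul _ _ (B ^ 6) fun r hr =>
    pow_le_pow_left₀ (norm_nonneg _) (h r hr) 6).trans ?_
  rw [nsmul_eq_mul, card_unitResidues]
  exact mul_le_mul_of_nonneg_right (Nat.cast_le.2 (Nat.totient_le q)) (by positivity)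

/-- **A power of a prime.** -/
theorem exists_sixWeight_primePow_le : ∃ K : ℝ, 0 < K ∧ ∀ p : ℕ, p.Prime → ∀ l : ℕ,
    sixWeight (p ^ (l + 1)) ≤ K * (p : ℝ) ^ (-(6 / 5) : ℝ) * ((2 : ℝ) ^ (-(2 / 5) : ℝ)) ^ l := by
  obtain ⟨C, hC, hdens⟩ := exists_densityFactor_le (k := 4) (e := 1 / 4) (by norm_num)
    (by norm_num) (by norm_num) (by norm_num)
  refine ⟨4 * C ^ 6 + 4 * 8 ^ 6 + 256, by positivity, fun p hp l => ?_⟩
  have hp2 : (2 : ℝ) ≤ p := by exact_mod_cast hp.two_le
  have hp1 : (1 : ℝ) ≤ p := by linarith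
  have hp0 : (0 : ℝ) < p := by linarith
  obtain ⟨Y, hY⟩ : ∃ Y, Y = (p : ℝ) ^ (-(6 / 5) : ℝ) * ((2 : ℝ) ^ (-(2 / 5) : ℝ)) ^ l := ⟨_, rfl⟩
  have hY0 : 0 ≤ Y := hY ▸ by positivity
  rw [mul_assoc, ← hY]
  have hsmall : l ≤ 2 → (p : ℝ) ^ (-(6 / 5) : ℝ) ≤ 4 * Y := fun hl => by
    rw [hY, mul_left_comm]
    refine le_mul_of_one_le_right (by positivity) ?_
    rw [← Real.rpow_natCast _ l, ← Real.rpow_mul two_pos.le,
      show (4 : ℝ) = (2 : ℝ) ^ (2 : ℝ) by norm_num, ← Real.rpow_add two_pos]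
    refine Real.one_le_rpow one_le_two ?_
    have : (l : ℝ) ≤ 2 := by exact_mod_cast hl
    linarith
  have hrpow : (((p ^ (l + 1) : ℕ) : ℝ)) ^ (1 / 10 : ℝ) = (p : ℝ) ^ (((l + 1 : ℕ) : ℝ) / 10) := by
    rw [Nat.cast_pow, ← Real.rpow_natCast, ← Real.rpow_mul hp0.le]
    ring_nf
  rw [sixWeight, hrpow]
  rcases Nat.lt_or_ge l 3 with hl | hl
  · rcases eq_or_ne p 2 with rfl | hpne
    · -- two: trivially
      have h1 := sixTerm_le_of_bound (q := 2 ^ (l + 1)) (B := 1)
        fun r _ => norm_densityFactor_le_one _ _ _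
      rw [one_pow, mul_one] at h1
      have h2 : ((2 ^ (l + 1) : ℕ) : ℝ) ≤ 8 := by
        exact_mod_cast Nat.pow_le_pow_right (show 1 ≤ 2 by norm_num) (show l + 1 ≤ 3 by omega)
      have h3 : ((2 : ℕ) : ℝ) ^ (((l + 1 : ℕ) : ℝ) / 10) ≤ 2 := by
        push_cast
        refine Real.rpow_le_self_of_one_le one_le_two ?_
        have : (l : ℝ) ≤ 2 := by exact_mod_cast (show l ≤ 2 by omega)
        linarith
      have h4 : (1 : ℝ) / 4 ≤ ((2 : ℕ) : ℝ) ^ (-(6 / 5) : ℝ) := by
        push_cast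
        rw [show (1 : ℝ) / 4 = (2 : ℝ) ^ (-(2 : ℝ)) by norm_num [Real.rpow_neg]]
        exact Real.rpow_le_rpow_of_exponent_le one_le_two (by norm_num)
      have h5 := hsmall (by omega)
      have h6 := mul_le_mul (h1.trans h2) h3 (by positivity) (by norm_num)
      have h7 : 0 ≤ (4 * C ^ 6 + 4 * 8 ^ 6) * Y := by positivity
      linarith
    -- odd primes, low powers
    have hτ : padicValNat p 4 = 0 := padicValNat.eq_zero_of_not_dvd fun h => hpne
      ((Nat.prime_dvd_prime_iff_eq hp Nat.prime_two).1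
        (hp.dvd_of_dvd_pow (show p ∣ 2 ^ 2 by norm_num; exact h)))
    have hkey : sixTerm (p ^ (l + 1)) ≤ 8 ^ 6 * (p : ℝ) ^ (-(3 / 2) : ℝ) := by
      rcases Nat.eq_zero_or_pos l with rfl | hl0
      · rw [zero_add, pow_one]
        refine (sixTerm_le_of_bound (B := 8 * √(p : ℝ) / p) fun r hr => ?_).trans ?_
        · rw [unitResidues, mem_filter, mem_range] at hr
          rw [densityFactor, norm_div, Complex.norm_natCast]
          refine div_le_div_of_nonneg_right ((norm_completeSum_prime_le hp (by norm_num)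
            ?_).trans (le_of_eq (by push_cast; ring))) hp0.le
          rw [Int.cast_natCast]
          exact (ZMod.isUnit_iff_coprime r p).2 hr.2.symm
        · rw [div_pow, mul_pow, show √(p : ℝ) ^ 6 = (√(p : ℝ) ^ 2) ^ 3 by ring,
            Real.sq_sqrt hp0.le, show (p : ℝ) * (8 ^ 6 * p ^ 3 / p ^ 6) = 8 ^ 6 * ((p : ℝ) ^ 2)⁻¹ by
              field_simp]
          refine mul_le_mul_of_nonneg_left ?_ (by positivity)
          rw [← Real.rpow_natCast, ← Real.rpow_neg hp0.le]
          exact Real.rpow_le_rpow_of_exponent_le hp1 (by norm_num)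
      · refine (sixTerm_le_of_bound (B := (p : ℝ)⁻¹) fun r hr => ?_).trans ?_
        · rw [unitResidues, mem_filter, mem_range, Nat.coprime_pow_left_iff (by omega)] at hr
          rw [densityFactor, norm_div, Complex.norm_natCast,
            completeSum_primePow hp (by norm_num) (by rw [hτ]; omega)
              (fun h => hp.coprime_iff_not_dvd.1 hr.2 (Int.natCast_dvd_natCast.1 h)),
            div_le_iff₀ (Nat.cast_pos.2 (pow_pos hp.pos _))]
          refine (norm_sum_le _ _).trans (le_of_eq ?_)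
          simp only [norm_eAdd, sum_const, card_range, nsmul_eq_mul, mul_one, Nat.add_sub_cancel,
            Nat.cast_pow]
          rw [pow_succ']
          field_simp
        · push_cast
          rw [inv_pow, ← Real.rpow_natCast, ← Real.rpow_natCast _ 6, ← Real.rpow_neg hp0.le,
            ← Real.rpow_add hp0]
          refine (Real.rpow_le_rpow_of_exponent_le hp1 ?_).trans
            (le_mul_of_one_le_left (by positivity) (by norm_num))
          have : (l : ℝ) ≤ 2 := by exact_mod_cast (show l ≤ 2 by omega)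
          push_cast
          linarith
    refine (mul_le_mul_of_nonneg_right hkey (by positivity)).trans ?_
    rw [mul_assoc, ← Real.rpow_add hp0]
    have h5 := hsmall (by omega)
    have h6 : (p : ℝ) ^ (-(3 / 2) + ((l + 1 : ℕ) : ℝ) / 10 : ℝ) ≤ (p : ℝ) ^ (-(6 / 5) : ℝ) := by
      refine Real.rpow_le_rpow_of_exponent_le hp1 ?_
      have : (l : ℝ) ≤ 2 := by exact_mod_cast (show l ≤ 2 by omega)
      push_cast
      linarith
    have h7 : 0 ≤ (4 * C ^ 6 + 256) * Y := by positivity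
    linarith
  · refine (mul_le_mul_of_nonneg_right (sixTerm_le_of_bound (hdens (p ^ (l + 1))))
      (by positivity)).trans ?_
    have e : ((p ^ (l + 1) : ℕ) : ℝ) * (C * ((p ^ (l + 1) : ℕ) : ℝ) ^ (-(1 / 4) : ℝ)) ^ 6 *
        (p : ℝ) ^ (((l + 1 : ℕ) : ℝ) / 10) =
        C ^ 6 * (p : ℝ) ^ (-(2 / 5) * ((l + 1 : ℕ) : ℝ) : ℝ) := by
      rw [Nat.cast_pow, mul_pow, ← Real.rpow_natCast (p : ℝ) (l + 1), ← Real.rpow_mul hp0.le,
        ← Real.rpow_natCast _ 6, ← Real.rpow_natCast _ 6, ← Real.rpow_mul hp0.le, mul_left_comm,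
        mul_assoc, ← Real.rpow_add hp0, ← Real.rpow_add hp0]
      push_cast
      ring_nf
    have h1 : (p : ℝ) ^ (-(2 / 5) * ((l + 1 : ℕ) : ℝ) : ℝ) ≤ 4 * Y := by
      rw [hY, ← Real.rpow_natCast _ l, ← Real.rpow_mul two_pos.le,
        show -(2 / 5) * ((l + 1 : ℕ) : ℝ) = -(6 / 5) + (-(2 / 5) * ((l : ℝ) - 2)) by
          push_cast; ring, Real.rpow_add hp0, mul_left_comm]
      refine mul_le_mul_of_nonneg_left ?_ (by positivity)
      have hl' : (3 : ℝ) ≤ l := by exact_mod_cast hl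
      refine (Real.rpow_le_rpow_of_nonpos two_pos hp2 (by linarith)).trans ?_
      rw [show (4 : ℝ) = (2 : ℝ) ^ (2 : ℝ) by norm_num, ← Real.rpow_add two_pos]
      exact Real.rpow_le_rpow_of_exponent_le one_le_two (by linarith)
    refine (le_of_eq e).trans ((mul_le_mul_of_nonneg_left h1 (by positivity)).trans ?_)
    have : 0 ≤ (4 * 8 ^ 6 + 256) * Y := by positivity
    linarith

theorem summable_sixWeight : Summable sixWeight := by
  obtain ⟨K, hK, hp⟩ := exists_sixWeight_primePow_le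
  obtain ⟨r, hr⟩ : ∃ r, r = (2 : ℝ) ^ (-(2 / 5) : ℝ) := ⟨_, rfl⟩
  have hr0 : 0 ≤ r := hr ▸ by positivity
  have hr1 : r < 1 := hr ▸ Real.rpow_lt_one_of_one_lt_of_neg one_lt_two (by norm_num)
  obtain ⟨b, hb⟩ : ∃ b : ℕ → ℝ, b = fun p : ℕ => K * (p : ℝ) ^ (-(6 / 5) : ℝ) * (1 - r)⁻¹ :=
    ⟨_, rfl⟩
  have hbsum : Summable b := hb ▸ ((Real.summable_nat_rpow.2 (by norm_num)).mul_left K).mul_right _
  have hb0 : ∀ p, 0 ≤ b p := fun p => by
    have : 0 ≤ (1 - r)⁻¹ := inv_nonneg.2 (by linarith)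
    rw [hb]; positivity
  have hgeo : ∀ p : ℕ, HasSum (fun l : ℕ => K * (p : ℝ) ^ (-(6 / 5) : ℝ) * r ^ l) (b p) := fun p =>
    hb ▸ (hasSum_geometric_of_lt_one hr0 hr1).mul_left _
  have hshift : ∀ p : ℕ, p.Prime → Summable fun l => sixWeight (p ^ (l + 1)) := fun p hp' =>
    Summable.of_nonneg_of_le (fun _ => sixWeight_nonneg _) (fun l => hr ▸ hp p hp' l)
      (hgeo p).summable
  have hsum : ∀ {p : ℕ}, p.Prime → Summable fun l => ‖sixWeight (p ^ l)‖ := fun {p} hp' =>
    ((summable_nat_add_iff (f := fun l => sixWeight (p ^ l)) 1).1 (hshift p hp')).norm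
  refine summable_of_sum_range_le sixWeight_nonneg (c := Real.exp (∑' p, b p)) fun n => ?_
  have h := (EulerProduct.summable_and_hasSum_smoothNumbers_prod_primesBelow_tsum (f := sixWeight)
    sixWeight_one (fun {_ _} h => sixWeight_mul h) hsum n).2
  rw [show (fun m : n.smoothNumbers => sixWeight m) = sixWeight ∘ Subtype.val from rfl,
    hasSum_subtype_iff_indicator] at h
  refine le_trans ?_ ((sum_le_hasSum (range n) (fun m _ =>
    Set.indicator_nonneg (fun m _ => sixWeight_nonneg m) m) h).trans ?_)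
  · refine sum_le_sum fun m hm => ?_
    rcases Nat.eq_zero_or_pos m with rfl | hm0
    · rw [show sixWeight 0 = 0 by simp [sixWeight]]
      exact Set.indicator_nonneg (fun m _ => sixWeight_nonneg m) 0
    · rw [Set.indicator_of_mem (Nat.mem_smoothNumbers'.2 fun q hq hqm =>
        (Nat.le_of_dvd hm0 hqm).trans_lt (mem_range.1 hm))]
  · refine (prod_le_prod (fun p _ => tsum_nonneg fun l => sixWeight_nonneg _) fun p hp' => ?_).trans
      ((le_of_eq (Real.exp_sum _ b).symm).trans (Real.exp_le_exp.2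
        (hbsum.sum_le_tsum _ fun p _ => hb0 p)))
    have hp'' := (Nat.mem_primesBelow.1 hp').2
    refine le_trans ?_ (Real.add_one_le_exp (b p))
    rw [((summable_nat_add_iff (f := fun l => sixWeight (p ^ l)) 1).1
      (hshift p hp'')).tsum_eq_zero_add, pow_zero, sixWeight_one, add_comm]
    exact add_le_add ((hshift p hp'').tsum_le_tsum (fun l => hr ▸ hp p hp'' l)
      (hgeo p).summable |>.trans (le_of_eq (hgeo p).tsum_eq)) le_rfl

/-- The total weight. -/
def sixTotal : ℝ := ∑' q, sixWeight q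

theorem sum_sixWeight_le (S : Finset ℕ) : ∑ q ∈ S, sixWeight q ≤ sixTotal :=
  summable_sixWeight.sum_le_tsum S fun q _ => sixWeight_nonneg q

theorem sixTotal_nonneg : 0 ≤ sixTotal := tsum_nonneg sixWeight_nonneg

theorem sixTerm_le_sixWeight {q : ℕ} : sixTerm q ≤ sixWeight q := by
  rcases Nat.eq_zero_or_pos q with rfl | hq
  · simp [sixWeight, sixTerm, unitResidues]
  · exact le_mul_of_one_le_right (sixTerm_nonneg q)
      (Real.one_le_rpow (by exact_mod_cast hq) (by norm_num))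

theorem summable_norm_singularTerm (N : ℕ) : Summable fun q => ‖singularTerm 4 6 N q‖ :=
  Summable.of_nonneg_of_le (fun _ => norm_nonneg _)
    (fun q => (norm_singularTerm_le N q).trans sixTerm_le_sixWeight) summable_sixWeight

/-- **The tail of the series.** -/
theorem norm_singular_tail_le (N Q : ℕ) :
    ‖∑ q ∈ Icc 1 Q, singularTerm 4 6 N q - ∑' q, singularTerm 4 6 N q‖ ≤
      sixTotal * ((Q + 1 : ℕ) : ℝ) ^ (-(1 / 10) : ℝ) := by
  have hs := (summable_norm_singularTerm N).of_norm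
  have h0 : singularTerm 4 6 N 0 = 0 := by simp [WaringAsymptotic.singularTerm, unitResidues]
  have e : ∑ q ∈ Icc 1 Q, singularTerm 4 6 N q = ∑ q ∈ range (Q + 1), singularTerm 4 6 N q := by
    refine sum_subset (fun q hq => mem_range.2 (by rw [mem_Icc] at hq; omega)) fun q hq hq' => ?_
    rw [mem_range] at hq
    rw [mem_Icc] at hq'
    rw [show q = 0 by omega, h0]
  rw [e, ← hs.sum_add_tsum_nat_add (Q + 1), sub_add_cancel_left, norm_neg]
  have hsh : Summable fun i : ℕ =>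
      sixWeight (i + (Q + 1)) * ((Q + 1 : ℕ) : ℝ) ^ (-(1 / 10) : ℝ) :=
    ((summable_nat_add_iff (f := sixWeight) (Q + 1)).2 summable_sixWeight).mul_right _
  refine (tsum_of_norm_bounded hsh.hasSum fun i => (norm_singularTerm_le N _).trans ?_).trans ?_
  · have hpos : (0 : ℝ) < ((i + (Q + 1) : ℕ) : ℝ) := Nat.cast_pos.2 (by omega)
    have hle : ((Q + 1 : ℕ) : ℝ) ≤ ((i + (Q + 1) : ℕ) : ℝ) := Nat.cast_le.2 (Nat.le_add_left _ _)
    rw [Real.rpow_neg (Nat.cast_nonneg _), ← div_eq_mul_inv, le_div_iff₀ (by positivity),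
      sixWeight]
    exact mul_le_mul_of_nonneg_left
      (Real.rpow_le_rpow (Nat.cast_nonneg _) hle (by norm_num)) (sixTerm_nonneg _)
  · rw [tsum_mul_right]
    refine mul_le_mul_of_nonneg_right ?_ (by positivity)
    have := summable_sixWeight.sum_add_tsum_nat_add (Q + 1)
    have : 0 ≤ ∑ q ∈ range (Q + 1), sixWeight q := sum_nonneg fun q _ => sixWeight_nonneg q
    rw [sixTotal]
    linarith

/-- Six fourth powers modulo `16` and modulo every odd prime. -/
theorem exists_pattern_six (N p : ℕ) (hN : 1 ≤ N % 16 ∧ N % 16 ≤ 6) (hp : p.Prime) :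
    ∃ (y : Fin 6 → ℕ) (i₀ : Fin 6), ¬p ∣ y i₀ ∧
      ((p ^ (2 * padicValNat p 4 + 1) : ℕ) : ℤ) ∣ ((∑ i, y i ^ 4 : ℕ) : ℤ) - N := by
  have : Fact p.Prime := ⟨hp⟩
  rcases eq_or_ne p 2 with rfl | hne
  · have hτ : padicValNat 2 4 = 2 := by
      rw [show 4 = 2 ^ 2 by norm_num, padicValNat.prime_pow]
    rw [hτ]
    refine exists_pattern_lift (e := 2) (by norm_num) hp (by norm_num) (Or.inr (Or.inr le_rfl))
      (by norm_num) hτ (y := fun i : Fin 6 => if (i : ℕ) < N % 16 then 1 else 0) (i₀ := 0)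
      (by simp [show 0 < N % 16 by omega]) ?_
    have e : ∑ i : Fin 6, (if (i : ℕ) < N % 16 then 1 else 0) ^ 4 = N % 16 := by
      obtain ⟨j, hj⟩ : ∃ j, N % 16 = j := ⟨_, rfl⟩
      rw [hj] at hN ⊢
      obtain ⟨h1, h2⟩ := hN
      interval_cases j <;> rfl
    rw [e, Int.natCast_mod]
    exact ⟨-((N : ℤ) / 16), by rw [Int.emod_def]; norm_num⟩
  · have hτ : padicValNat p 4 = 0 := padicValNat.eq_zero_of_not_dvd fun h => hne
      ((Nat.prime_dvd_prime_iff_eq hp Nat.prime_two).1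
        (hp.dvd_of_dvd_pow (show p ∣ 2 ^ 2 by norm_num; exact h)))
    obtain ⟨y, i₀, hy, h⟩ := exists_pattern_prime (k := 4) (s := 6) (by norm_num) (by norm_num) N hp
    exact ⟨y, i₀, hy, by rwa [hτ, mul_zero, zero_add, pow_one]⟩

/-- **The singular series is bounded below.** -/
theorem exists_singularSeries_six_ge : ∃ c : ℝ, 0 < c ∧ ∀ N, 1 ≤ N % 16 ∧ N % 16 ≤ 6 →
    c ≤ singularSeries 4 6 N := by
  obtain ⟨K, hK, hp⟩ := exists_sixWeight_primePow_le
  obtain ⟨r, hr⟩ : ∃ r, r = (2 : ℝ) ^ (-(2 / 5) : ℝ) := ⟨_, rfl⟩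
  have hr0 : 0 ≤ r := hr ▸ by positivity
  have hr1 : r < 1 := hr ▸ Real.rpow_lt_one_of_one_lt_of_neg one_lt_two (by norm_num)
  have hri : 0 ≤ (1 - r)⁻¹ := inv_nonneg.2 (by linarith)
  refine exists_singularSeries_ge_of_local (a := fun p : ℕ =>
    K * (p : ℝ) ^ (-(6 / 5) : ℝ) * (1 - r)⁻¹) (G := fun N => 1 ≤ N % 16 ∧ N % 16 ≤ 6)
    (by norm_num) (by norm_num) summable_norm_singularTerm
    (((Real.summable_nat_rpow.2 (by norm_num)).mul_left K).mul_right _) (fun p => by positivity)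
    (fun N p hp' => ?_) fun N p hN hp' => exists_pattern_six N p hN hp'
  have hsum : Summable fun l => singularTerm 4 6 N (p ^ l) :=
    ((summable_norm_singularTerm N).of_norm).comp_injective
      (Nat.pow_right_injective hp'.two_le)
  have htail : ‖∑' l, singularTerm 4 6 N (p ^ (l + 1))‖ ≤
      K * (p : ℝ) ^ (-(6 / 5) : ℝ) * (1 - r)⁻¹ :=
    tsum_of_norm_bounded ((hasSum_geometric_of_lt_one hr0 hr1).mul_left _) fun l =>
      ((norm_singularTerm_le N _).trans sixTerm_le_sixWeight).trans (hr ▸ hp p hp' l)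
  rw [localDensity, hsum.tsum_eq_zero_add, pow_zero, singularTerm_one, Complex.add_re,
    Complex.one_re]
  have := (abs_le.1 ((Complex.abs_re_le_norm _).trans htail)).1
  linarith

end FA.BiquadratesSixteen
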